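/-
Programme JAC, work package B3.0 (helper57): the two-chart cover of `C_B`, without modules.

Setting: `k` a commutative ring, `c : C ⟶ Spec k` a scheme over `k`, `B` a `k`-algebra,
`C_B := pullback c (Spec B ⟶ Spec k)`.  An *affine chart of `C` over `k`* is a `k`-algebra `A`
with a morphism `ι : Spec A ⟶ C` over `Spec k`
(`hι : ι ≫ c = Spec.map (CommRingCat.ofHom (algebraMap k A))`), typically an open immersion
(for an affine open `U` of `C`: `A = Γ(C, U)` with `sectionsAlgebra c U`, `ι = hU.fromSpec`,
`hι = fromSpec_comp c hU`).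

Main declarations:
* `chartMap c B ι hι : Spec (B ⊗[k] A) ⟶ C_B`, with `chartMap_fst`, `chartMap_snd`;
* `isPullback_chartMap`: `chartMap` is the base change of `ι` along `pullback.fst`;
* `isOpenImmersion_chartMap`, `opensRange_chartMap`, `iSup_opensRange_chartMap_eq_top`-style
  covering lemma `opensRange_chartMap_sup`;
* naturality in the chart (`chartMap_natA`) and in the base (`chartMap_natB`, against the Prelude
  `RelPicard.baseChangeSnd`);
* the rigidifying section (`rigSection_eq`): if `ε` lies in the chart as the `k`-point `e` of `A`,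
  then `RelPicard.rigSection c (Spec B ⟶ Spec k) ε` is `Spec (rigHom B e) ≫ chartMap`;
* `sectionsIso`: `Γ(C_B, range of chartMap) ≅ B ⊗[k] A`;
* fibres (`fibreIso`): `(C ×ₖ T) ×_T T' ≅ C ×ₖ T'`, compatible with `baseChangeSnd`.
-/
import Mathlib
import Fermat.Prelude.Def_AlgebraicGeometry_RelativePicardFunctor

set_option autoImplicit false
universe u
open CategoryTheory CategoryTheory.Limits AlgebraicGeometry TensorProduct NeronModelInfra
open AlgebraicGeometry.RelPicard

namespace Fermat.Agent.JAC.Bridge.ChartCover57

variable {k : Type u} [CommRing k] {C : Scheme.{u}} (c : C ⟶ Spec (CommRingCat.of k))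

/-! ### The `k`-algebra structure on sections -/

/-- The ring map `k → Γ(C, U)` induced by the structure morphism `c`. -/
noncomputable def kToSections (U : C.Opens) : k →+* Γ(C, U) :=
  ((Scheme.ΓSpecIso (CommRingCat.of k)).inv ≫ c.appLE ⊤ U le_top).hom

/-- The `k`-algebra structure on `Γ(C, U)` induced by `c`. -/
@[reducible] noncomputable def sectionsAlgebra (U : C.Opens) : Algebra k Γ(C, U) :=
  (kToSections c U).toAlgebra

theorem kToSections_res {U V : C.Opens} (h : V ≤ U) (x : k) :
    (C.presheaf.map (homOfLE h).op).hom (kToSections c U x) = kToSections c V x := by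
  simp only [kToSections, CommRingCat.hom_comp, RingHom.coe_comp, Function.comp_apply]
  rw [← CommRingCat.comp_apply, Scheme.Hom.appLE_map]

/-- For an affine open `U`, the chart `Spec Γ(C, U) ⟶ C` is a morphism over `Spec k` when
`Γ(C, U)` carries `sectionsAlgebra c U`. -/
theorem fromSpec_comp {U : C.Opens} (hU : IsAffineOpen U) :
    hU.fromSpec ≫ c = Spec.map (CommRingCat.ofHom (kToSections c U)) := by
  rw [← IsAffineOpen.SpecMap_appLE_fromSpec c (isAffineOpen_top _) hU le_top,
    IsAffineOpen.fromSpec_top, Scheme.isoSpec_Spec_inv, ← Spec.map_comp]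
  rfl

/-! ### The chart of `C_B` over an affine chart of `C` -/

variable (B : Type u) [CommRing B] [Algebra k B]

/-- The structure morphism `Spec B ⟶ Spec k`. -/
noncomputable abbrev specBase : Spec (CommRingCat.of B) ⟶ Spec (CommRingCat.of k) :=
  Spec.map (CommRingCat.ofHom (algebraMap k B))

variable {A : Type u} [CommRing A] [Algebra k A] (ι : Spec (CommRingCat.of A) ⟶ C)
  (hι : ι ≫ c = Spec.map (CommRingCat.ofHom (algebraMap k A)))

/-- `Spec (B ⊗ A) ⟶ Spec B`. -/
noncomputable abbrev specInclLeft :
    Spec (CommRingCat.of (B ⊗[k] A)) ⟶ Spec (CommRingCat.of B) :=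
  Spec.map (CommRingCat.ofHom
    (Algebra.TensorProduct.includeLeftRingHom (R := k) (A := B) (B := A)))

/-- `Spec (B ⊗ A) ⟶ Spec A`. -/
noncomputable abbrev specInclRight :
    Spec (CommRingCat.of (B ⊗[k] A)) ⟶ Spec (CommRingCat.of A) :=
  Spec.map (CommRingCat.ofHom
    (Algebra.TensorProduct.includeRight (R := k) (A := B) (B := A)).toRingHom)

theorem specIncl_comm :
    specInclRight (k := k) B (A := A) ≫ Spec.map (CommRingCat.ofHom (algebraMap k A)) =
      specInclLeft (k := k) B (A := A) ≫ specBase (k := k) B := by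
  rw [← Spec.map_comp, ← Spec.map_comp]
  congr 1
  ext x
  simp only [CommRingCat.hom_comp, CommRingCat.hom_ofHom, RingHom.coe_comp, Function.comp_apply,
    AlgHom.toRingHom_eq_coe, RingHom.coe_coe, AlgHom.commutes,
    Algebra.TensorProduct.includeLeftRingHom_apply, Algebra.TensorProduct.algebraMap_apply]

theorem isPullback_specIncl :
    IsPullback (specInclLeft (k := k) B (A := A)) (specInclRight (k := k) B (A := A))
      (specBase (k := k) B) (Spec.map (CommRingCat.ofHom (algebraMap k A))) := by
  refine IsPullback.of_iso_pullback ⟨(specIncl_comm B).symm⟩ (pullbackSpecIso k B A).symm ?_ ?_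
  · exact pullbackSpecIso_inv_fst k B A
  · exact pullbackSpecIso_inv_snd k B A

/-- The chart `Spec (B ⊗[k] A) ⟶ C_B` attached to an affine chart `ι : Spec A ⟶ C` over `k`. -/
noncomputable def chartMap :
    Spec (CommRingCat.of (B ⊗[k] A)) ⟶ pullback c (specBase (k := k) B) :=
  pullback.lift (specInclRight B ≫ ι) (specInclLeft B)
    (by rw [Category.assoc, hι, specIncl_comm])

@[reassoc (attr := simp)]
theorem chartMap_fst : chartMap c B ι hι ≫ pullback.fst _ _ = specInclRight B ≫ ι :=
  pullback.lift_fst _ _ _

@[reassoc (attr := simp)]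
theorem chartMap_snd : chartMap c B ι hι ≫ pullback.snd _ _ = specInclLeft B :=
  pullback.lift_snd _ _ _

/-- `chartMap` is the base change of the chart `ι` along the projection `C_B ⟶ C`. -/
theorem isPullback_chartMap :
    IsPullback (chartMap c B ι hι) (specInclRight B) (pullback.fst c (specBase (k := k) B)) ι := by
  refine IsPullback.of_right ?_ (chartMap_fst c B ι hι)
    (IsPullback.of_hasPullback c (specBase (k := k) B)).flip
  rw [chartMap_snd, hι]
  exact isPullback_specIncl B

instance isOpenImmersion_chartMap [IsOpenImmersion ι] : IsOpenImmersion (chartMap c B ι hι) :=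
  MorphismProperty.of_isPullback (P := @IsOpenImmersion) (isPullback_chartMap c B ι hι).flip
    inferInstance

theorem opensRange_chartMap [IsOpenImmersion ι] :
    (chartMap c B ι hι).opensRange = (pullback.fst c (specBase (k := k) B)) ⁻¹ᵁ ι.opensRange := by
  have h := isPullback_chartMap c B ι hι
  have e : chartMap c B ι hι = h.isoPullback.hom ≫ pullback.fst _ _ := by simp
  apply TopologicalSpace.Opens.ext
  rw [Scheme.Hom.coe_opensRange, e, Scheme.Hom.comp_base, TopCat.coe_comp, Set.range_comp,
    Set.range_eq_univ.mpr, Set.image_univ, IsOpenImmersion.range_pullbackFst]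
  exact (Scheme.homeoOfIso h.isoPullback).surjective

/-- Sections of `C_B` over the chart are `B ⊗[k] A`. -/
noncomputable def sectionsIso [IsOpenImmersion ι] :
    CommRingCat.of (B ⊗[k] A) ≅
      Γ(pullback c (specBase (k := k) B), (chartMap c B ι hι).opensRange) :=
  (Scheme.ΓSpecIso (CommRingCat.of (B ⊗[k] A))).symm ≪≫
    IsOpenImmersion.ΓIsoTop (chartMap c B ι hι)

/-- For an affine open `U` of `C`, the range of the chart of `C_B` attached to `U` is the
preimage of `U`. -/
theorem opensRange_chartMap_fromSpec {U : C.Opens} (hU : IsAffineOpen U) :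
    letI := sectionsAlgebra c U
    (chartMap c B hU.fromSpec (fromSpec_comp c hU)).opensRange =
      (pullback.fst c (specBase (k := k) B)) ⁻¹ᵁ U := by
  let _ := sectionsAlgebra c U
  rw [opensRange_chartMap, IsAffineOpen.opensRange_fromSpec]

section cover

variable {A' : Type u} [CommRing A'] [Algebra k A'] (ι' : Spec (CommRingCat.of A') ⟶ C)
  (hι' : ι' ≫ c = Spec.map (CommRingCat.ofHom (algebraMap k A')))

/-- Two charts covering `C` induce two charts covering `C_B`. -/
theorem opensRange_chartMap_sup [IsOpenImmersion ι] [IsOpenImmersion ι']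
    (hcov : ι.opensRange ⊔ ι'.opensRange = ⊤) :
    (chartMap c B ι hι).opensRange ⊔ (chartMap c B ι' hι').opensRange = ⊤ := by
  rw [opensRange_chartMap, opensRange_chartMap, ← Scheme.Hom.preimage_sup, hcov]
  rfl

theorem opensRange_chartMap_inf [IsOpenImmersion ι] [IsOpenImmersion ι'] :
    (chartMap c B ι hι).opensRange ⊓ (chartMap c B ι' hι').opensRange =
      (pullback.fst c (specBase (k := k) B)) ⁻¹ᵁ (ι.opensRange ⊓ ι'.opensRange) := by
  rw [opensRange_chartMap, opensRange_chartMap]
  rfl

end cover

/-! ### Naturality in the chart -/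

section natA

variable {A' : Type u} [CommRing A'] [Algebra k A'] (ψ : A →ₐ[k] A')

include hι in
theorem comp_hι : (Spec.map (CommRingCat.ofHom ψ.toRingHom) ≫ ι) ≫ c =
    Spec.map (CommRingCat.ofHom (algebraMap k A')) := by
  rw [Category.assoc, hι, ← Spec.map_comp]
  congr 1
  ext x
  simp

/-- Naturality of the chart in `A`: the chart of `Spec A' ⟶ Spec A ⟶ C` is
`Spec (B ⊗ A') ⟶ Spec (B ⊗ A) ⟶ C_B`. -/
theorem chartMap_natA :
    Spec.map (CommRingCat.ofHom (Algebra.TensorProduct.map (AlgHom.id k B) ψ).toRingHom) ≫
      chartMap c B ι hι =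
    chartMap c B (Spec.map (CommRingCat.ofHom ψ.toRingHom) ≫ ι) (comp_hι c ι hι ψ) := by
  apply pullback.hom_ext
  · rw [Category.assoc, chartMap_fst, chartMap_fst, ← Spec.map_comp_assoc, ← Spec.map_comp_assoc]
    congr 2
  · rw [Category.assoc, chartMap_snd, chartMap_snd, ← Spec.map_comp]
    congr 1
    all_goals (ext x; simp)

end natA

/-! ### Naturality in the base -/

section natB

variable {B' : Type u} [CommRing B'] [Algebra k B'] (φ : B →ₐ[k] B')

/-- `Spec φ` as a morphism over `Spec k`. -/
noncomputable def specOver : SchemeHomOver (specBase (k := k) B') (specBase (k := k) B) :=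
  ⟨Spec.map (CommRingCat.ofHom φ.toRingHom), by
    rw [← Spec.map_comp]
    congr 1
    ext x
    simp⟩

@[simp] theorem specOver_coe :
    (specOver B φ).1 = Spec.map (CommRingCat.ofHom φ.toRingHom) := rfl

/-- Naturality of the chart in `B`. -/
theorem chartMap_natB :
    Spec.map (CommRingCat.ofHom (Algebra.TensorProduct.map φ (AlgHom.id k A)).toRingHom) ≫
      chartMap c B ι hι =
    chartMap c B' ι hι ≫ baseChangeSnd c (specOver B φ) := by
  apply pullback.hom_ext
  · simp only [baseChangeSnd, specOver, Category.assoc, chartMap_fst, pullback.lift_fst,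
      Category.comp_id]
    rw [← Spec.map_comp_assoc]
    congr 2
    all_goals (ext x; simp)
  · simp only [baseChangeSnd, specOver, Category.assoc, chartMap_snd, pullback.lift_snd,
      chartMap_snd_assoc]
    rw [← Spec.map_comp, ← Spec.map_comp]
    congr 1

end natB

/-! ### The rigidifying section -/

section rig

variable (ε : SchemeHomOver (𝟙 (Spec (CommRingCat.of k))) c) (e : A →ₐ[k] k)

/-- The `B`-algebra map `B ⊗[k] A → B`, `b ⊗ a ↦ b * e a`, induced by a `k`-point `e` of `A`. -/
noncomputable def rigHom : B ⊗[k] A →ₐ[B] B :=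
  Algebra.TensorProduct.lift (AlgHom.id B B) ((Algebra.ofId k B).comp e)
    (fun _ _ => Commute.all _ _)

@[simp] theorem rigHom_tmul (b : B) (a : A) :
    rigHom B e (b ⊗ₜ[k] a) = b * algebraMap k B (e a) := by
  simp [rigHom, Algebra.ofId_apply]

/-- If the rigidifying section `ε` lies in the chart `ι` (as the `k`-point `e`), then the
rigidifying section of `C_B` lies in the chart `chartMap` (as the `B`-point `rigHom B e`). -/
theorem rigSection_eq (he : Spec.map (CommRingCat.ofHom e.toRingHom) ≫ ι = ε.1) :
    rigSection c (specBase (k := k) B) ε =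
      Spec.map (CommRingCat.ofHom (rigHom B e).toRingHom) ≫ chartMap c B ι hι := by
  apply pullback.hom_ext
  · simp only [rigSection, pullback.lift_fst, Category.assoc, chartMap_fst]
    rw [← he, ← Spec.map_comp_assoc, ← Spec.map_comp_assoc]
    congr 2
    all_goals (ext x; simp)
  · simp only [rigSection, pullback.lift_snd, Category.assoc, chartMap_snd]
    rw [← Spec.map_comp]
    have : (CommRingCat.ofHom
        (Algebra.TensorProduct.includeLeftRingHom (R := k) (A := B) (B := A)) ≫
        CommRingCat.ofHom (rigHom B e).toRingHom) = 𝟙 _ := by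
      ext x
      simp
    rw [this, Spec.map_id]

end rig

/-! ### Fibres -/

section fibre

variable {T T' : Scheme.{u}} (t : T ⟶ Spec (CommRingCat.of k)) (t' : T' ⟶ Spec (CommRingCat.of k))
  (s : SchemeHomOver t' t)

/-- The fibre product `(C ×ₖ T) ×_T T'` is `C ×ₖ T'`.  For `T' = Spec K` this identifies the
Prelude's `fibreAt c t s` with `C_K ⟶ Spec K`. -/
noncomputable def fibreIso : pullback (pullback.snd c t) s.1 ≅ pullback c t' :=
  pullbackLeftPullbackSndIso c t s.1 ≪≫ pullback.congrHom rfl s.2

@[reassoc (attr := simp)]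
theorem fibreIso_hom_fst :
    (fibreIso c t t' s).hom ≫ pullback.fst c t' = pullback.fst _ _ ≫ pullback.fst c t := by
  simp only [fibreIso, Iso.trans_hom, pullback.congrHom_hom, Category.assoc, pullback.lift_fst,
    Category.comp_id, pullbackLeftPullbackSndIso_hom_fst]

@[reassoc (attr := simp)]
theorem fibreIso_hom_snd :
    (fibreIso c t t' s).hom ≫ pullback.snd c t' = pullback.snd _ _ := by
  simp only [fibreIso, Iso.trans_hom, pullback.congrHom_hom, Category.assoc, pullback.lift_snd,
    Category.comp_id, pullbackLeftPullbackSndIso_hom_snd]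

@[reassoc (attr := simp)]
theorem fibreIso_hom_baseChangeSnd :
    (fibreIso c t t' s).hom ≫ baseChangeSnd c s = pullback.fst (pullback.snd c t) s.1 := by
  apply pullback.hom_ext
  · simp only [baseChangeSnd, Category.assoc, pullback.lift_fst, Category.comp_id,
      fibreIso_hom_fst]
  · simp only [baseChangeSnd, Category.assoc, pullback.lift_snd, fibreIso_hom_snd_assoc,
      pullback.condition]

@[reassoc (attr := simp)]
theorem fibreIso_inv_fst :
    (fibreIso c t t' s).inv ≫ pullback.fst (pullback.snd c t) s.1 = baseChangeSnd c s := by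
  rw [Iso.inv_comp_eq, fibreIso_hom_baseChangeSnd]

@[reassoc (attr := simp)]
theorem fibreIso_inv_snd :
    (fibreIso c t t' s).inv ≫ pullback.snd (pullback.snd c t) s.1 = pullback.snd c t' := by
  rw [Iso.inv_comp_eq, fibreIso_hom_snd]

end fibre

end Fermat.Agent.JAC.Bridge.ChartCover57
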