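/-
Programme JAC (S25), chapter Bridge, brick B3.3 (helper87), part 1:
sections of sheaves of modules over an AFFINE open `V` of a scheme `X`.

* `secTopₗ hV F : Γ(F, V) ≃ₗ[Γ(X, V)] Γ(F.restrict hV.fromSpec, ⊤)`;
* `homEquivΓ N N' : (N ⟶ N') ≃ (Γ N ⟶ Γ N')` for `N` quasi-coherent on `Spec R`
  (hypothesis in the form `IsIso N.fromTildeΓ`), with `homEquivΓ_apply : _ = moduleSpecΓFunctor.map ψ`;
* `bijective_appₗ` : if the restriction of `L` to `Spec Γ(X, V)` is quasi-coherent then local
  homomorphisms `LocalHom L L' V` (HomGlue1) are the same as `Γ(X, V)`-linear maps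
  `Γ(L, V) → Γ(L', V)`;
* `exists_localIso` : a linear equivalence `Γ(L, V) ≃ₗ Γ(L', V)` is induced by a unique local
  isomorphism `LocalIso L L' V` (both restrictions quasi-coherent).
-/
import Mathlib
import Fermat.Agent.JAC.Glue.RestrictHom1

set_option autoImplicit false

universe u

open CategoryTheory AlgebraicGeometry TopologicalSpace Opposite

namespace Fermat.Agent.JAC.Bridge.AffineSec87

open Fermat.Agent.JAC.Glue.HomGlue1 Fermat.Agent.JAC.Glue.RestrictHom1

noncomputable section

/-! ### Quasi-coherent modules on `Spec R`: morphisms are determined by global sections -/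

section QC

variable {R : CommRingCat.{u}}

lemma isIso_counit_app (N : (Spec R).Modules) [h : IsIso N.fromTildeΓ] :
    IsIso ((tilde.adjunction (R := R)).counit.app N) := h

/-- For `N` in the essential image of `tilde`, morphisms `N ⟶ N'` are the same as linear maps
between the modules of global sections. -/
def homEquivΓ (N N' : (Spec R).Modules) [IsIso N.fromTildeΓ] :
    (N ⟶ N') ≃ (moduleSpecΓFunctor.obj N ⟶ moduleSpecΓFunctor.obj N') :=
  haveI := isIso_counit_app N
  ((asIso ((tilde.adjunction (R := R)).counit.app N)).symm.homCongr (Iso.refl N')).trans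
    (tilde.adjunction.homEquiv (moduleSpecΓFunctor.obj N) N')

lemma homEquivΓ_apply (N N' : (Spec R).Modules) [IsIso N.fromTildeΓ] (ψ : N ⟶ N') :
    homEquivΓ N N' ψ = moduleSpecΓFunctor.map ψ := by
  have h := (tilde.adjunction (R := R)).right_triangle_components N
  change tilde.adjunction.homEquiv (moduleSpecΓFunctor.obj N) N'
    ((tilde.adjunction (R := R)).counit.app N ≫ ψ ≫ 𝟙 N') = _
  rw [Adjunction.homEquiv_unit, Category.comp_id, Functor.map_comp, ← Category.assoc, h,
    Category.id_comp]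

lemma moduleSpecΓFunctor_map_apply {N N' : (Spec R).Modules} (ψ : N ⟶ N')
    (x : Γ(N, ⊤)) : (moduleSpecΓFunctor.map ψ).hom x = ψ.app ⊤ x := rfl

/-- A linear map on global sections as a morphism in `ModuleCat`. -/
def ofLinΓ {N N' : (Spec R).Modules} (f : Γ(N, ⊤) →ₗ[R] Γ(N', ⊤)) :
    moduleSpecΓFunctor.obj N ⟶ moduleSpecΓFunctor.obj N' :=
  (ModuleCat.ofHom (X := Γ(N, ⊤)) (Y := Γ(N', ⊤)) f :
    ModuleCat.of R Γ(N, ⊤) ⟶ ModuleCat.of R Γ(N', ⊤))

lemma ofLinΓ_apply {N N' : (Spec R).Modules} (f : Γ(N, ⊤) →ₗ[R] Γ(N', ⊤)) (x : Γ(N, ⊤)) :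
    (ofLinΓ f).hom x = f x := rfl

/-- Two morphisms out of a quasi-coherent module on `Spec R` which agree on global sections
are equal. -/
lemma hom_ext_of_app_top {N N' : (Spec R).Modules} [IsIso N.fromTildeΓ] {ψ ψ' : N ⟶ N'}
    (h : ∀ x : Γ(N, ⊤), ψ.app ⊤ x = ψ'.app ⊤ x) : ψ = ψ' := by
  apply (homEquivΓ N N').injective
  rw [homEquivΓ_apply, homEquivΓ_apply]
  ext x
  exact h x

/-- Every linear map between the modules of global sections comes from a morphism of sheaves of
modules, if the source is quasi-coherent. -/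
lemma exists_hom_of_app_top {N N' : (Spec R).Modules} [IsIso N.fromTildeΓ]
    (f : Γ(N, ⊤) →ₗ[R] Γ(N', ⊤)) : ∃ ψ : N ⟶ N', ∀ x : Γ(N, ⊤), ψ.app ⊤ x = f x := by
  refine ⟨(homEquivΓ N N').symm (ofLinΓ f), fun x => ?_⟩
  have h := homEquivΓ_apply N N' ((homEquivΓ N N').symm (ofLinΓ f))
  rw [Equiv.apply_symm_apply] at h
  rw [← moduleSpecΓFunctor_map_apply, ← h, ofLinΓ_apply]

end QC

/-! ### Sections over an affine open -/

section Sec

variable {X : Scheme.{u}} {V : X.Opens} (hV : IsAffineOpen V) (F : X.Modules)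

lemma image_top_fromSpec : hV.fromSpec ''ᵁ ⊤ = V := by
  rw [Scheme.Hom.image_top_eq_opensRange, hV.opensRange_fromSpec]

/-- Sections over an affine open are the global sections of the restriction to its spectrum. -/
def secTop : Γ(F, V) →+ Γ(F.restrict hV.fromSpec, ⊤) :=
  (toR hV.fromSpec F ⊤).comp (res F (image_top_fromSpec hV).le)

/-- The inverse of `secTop`. -/
def secTopInv : Γ(F.restrict hV.fromSpec, ⊤) →+ Γ(F, V) :=
  (res F (image_top_fromSpec hV).ge).comp (ofR hV.fromSpec F ⊤)

@[simp] lemma secTopInv_secTop (x : Γ(F, V)) : secTopInv hV F (secTop hV F x) = x := by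
  simp [secTop, secTopInv]

@[simp] lemma secTop_secTopInv (x : Γ(F.restrict hV.fromSpec, ⊤)) :
    secTop hV F (secTopInv hV F x) = x := by
  simp [secTop, secTopInv]

lemma appIso_hom_resO (r : Γ(X, V)) :
    (hV.fromSpec.appIso ⊤).hom (resO X (image_top_fromSpec hV).le r) =
      (Scheme.ΓSpecIso Γ(X, V)).inv r := by
  rw [Scheme.Hom.appIso_hom, hV.fromSpec_app_of_le _ (image_top_fromSpec hV).ge]
  simp only [resO]
  have h1 : X.presheaf.map (homOfLE (image_top_fromSpec hV).le).op ≫
      X.presheaf.map (homOfLE (image_top_fromSpec hV).ge).op = 𝟙 _ := by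
    rw [← X.presheaf.map_comp, ← op_comp]
    exact X.presheaf.map_id _
  have h2 : ∀ (h : (⊤ : (Spec Γ(X, V)).Opens) = hV.fromSpec ⁻¹ᵁ hV.fromSpec ''ᵁ ⊤),
      (Spec Γ(X, V)).presheaf.map (homOfLE (le_top : hV.fromSpec ⁻¹ᵁ hV.fromSpec ''ᵁ ⊤ ≤ ⊤)).op ≫
      (Spec Γ(X, V)).presheaf.map (eqToHom h).op = 𝟙 _ := by
    intro h
    rw [← (Spec Γ(X, V)).presheaf.map_comp, ← op_comp]
    exact (Spec Γ(X, V)).presheaf.map_id _
  have key : ∀ (h : (⊤ : (Spec Γ(X, V)).Opens) = hV.fromSpec ⁻¹ᵁ hV.fromSpec ''ᵁ ⊤),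
      X.presheaf.map (homOfLE (image_top_fromSpec hV).le).op ≫
      (X.presheaf.map (homOfLE (image_top_fromSpec hV).ge).op ≫ (Scheme.ΓSpecIso Γ(X, V)).inv ≫
        (Spec Γ(X, V)).presheaf.map (homOfLE le_top).op) ≫
      (Spec Γ(X, V)).presheaf.map (eqToHom h).op = (Scheme.ΓSpecIso Γ(X, V)).inv := by
    intro h
    rw [Category.assoc, Category.assoc, h2, Category.comp_id, ← Category.assoc, h1,
      Category.id_comp]
  exact congr($(key _) r)

lemma secTop_smul (r : Γ(X, V)) (x : Γ(F, V)) :
    secTop hV F (r • x) = r • secTop hV F x := by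
  simp only [secTop, AddMonoidHom.comp_apply]
  rw [res_smul, toR_smul, Scheme.Modules.smul_Spec_def, appIso_hom_resO]
  have h : (Opens.leTop (⊤ : (Spec Γ(X, V)).Opens)) = 𝟙 _ := Subsingleton.elim _ _
  rw [h, op_id, CategoryTheory.Functor.map_id]
  rfl

/-- `secTop` as a linear equivalence. -/
def secTopₗ : Γ(F, V) ≃ₗ[Γ(X, V)] Γ(F.restrict hV.fromSpec, ⊤) where
  toFun := secTop hV F
  invFun := secTopInv hV F
  map_add' := map_add _
  map_smul' := secTop_smul hV F
  left_inv := secTopInv_secTop hV F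
  right_inv := secTop_secTopInv hV F

@[simp] lemma secTopₗ_apply (x : Γ(F, V)) : secTopₗ hV F x = secTop hV F x := rfl

@[simp] lemma secTopₗ_symm_apply (x : Γ(F.restrict hV.fromSpec, ⊤)) :
    (secTopₗ hV F).symm x = secTopInv hV F x := rfl

end Sec

/-! ### Local homomorphisms on an affine open -/

section LocalHomAffine

variable {X : Scheme.{u}} {V : X.Opens} (hV : IsAffineOpen V) {L L' : X.Modules}

/-- The map on sections over `V` of a local homomorphism on `V`, as a linear map. -/
def appₗ (a : LocalHom L L' V) : Γ(L, V) →ₗ[Γ(X, V)] Γ(L', V) where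
  toFun := a.app V le_rfl
  map_add' := map_add _
  map_smul' r x := a.map_smul le_rfl r x

@[simp] lemma appₗ_apply (a : LocalHom L L' V) (x : Γ(L, V)) : appₗ a x = a.app V le_rfl x := rfl

/-- Transport a local homomorphism on `V` to the range of `hV.fromSpec`. -/
def toRange (a : LocalHom L L' V) : LocalHom L L' hV.fromSpec.opensRange :=
  a.restrict (le_of_eq hV.opensRange_fromSpec)

/-- Transport a local homomorphism on the range of `hV.fromSpec` to `V`. -/
def ofRange (a : LocalHom L L' hV.fromSpec.opensRange) : LocalHom L L' V :=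
  a.restrict (le_of_eq hV.opensRange_fromSpec.symm)

@[simp] lemma ofRange_toRange (a : LocalHom L L' V) : ofRange hV (toRange hV a) = a := by
  ext W hW x; rfl

@[simp] lemma toRange_ofRange (a : LocalHom L L' hV.fromSpec.opensRange) :
    toRange hV (ofRange hV a) = a := by
  ext W hW x; rfl

/-- The morphism between the restrictions to `Spec Γ(X, V)` attached to a local homomorphism. -/
def toSpecHom (a : LocalHom L L' V) : L.restrict hV.fromSpec ⟶ L'.restrict hV.fromSpec :=
  toRestrictHom hV.fromSpec (toRange hV a)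

/-- The local homomorphism attached to a morphism between the restrictions. -/
def ofSpecHom (ψ : L.restrict hV.fromSpec ⟶ L'.restrict hV.fromSpec) : LocalHom L L' V :=
  ofRange hV (ofRestrictHom hV.fromSpec ψ)

@[simp] lemma toSpecHom_ofSpecHom (ψ : L.restrict hV.fromSpec ⟶ L'.restrict hV.fromSpec) :
    toSpecHom hV (ofSpecHom hV ψ) = ψ := by
  simp [toSpecHom, ofSpecHom]

@[simp] lemma ofSpecHom_toSpecHom (a : LocalHom L L' V) :
    ofSpecHom hV (toSpecHom hV a) = a := by
  simp [toSpecHom, ofSpecHom]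

/-- The map on sections over `V` is the map on global sections of the attached morphism between
the restrictions to `Spec Γ(X, V)`. -/
lemma app_eq_toSpecHom (a : LocalHom L L' V) (x : Γ(L, V)) :
    a.app V le_rfl x = secTopInv hV L' ((toSpecHom hV a).app ⊤ (secTop hV L x)) := by
  simp only [toSpecHom, toRestrictHom_app, secTop, secTopInv, AddMonoidHom.comp_apply,
    ofR_toR, toRange, LocalHom.restrict_app]
  rw [a.naturality, res_res, res_self]

lemma toSpecHom_app_top (a : LocalHom L L' V) (y : Γ(L.restrict hV.fromSpec, ⊤)) :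
    (toSpecHom hV a).app ⊤ y = secTop hV L' (a.app V le_rfl (secTopInv hV L y)) := by
  rw [app_eq_toSpecHom hV a, secTop_secTopInv, secTop_secTopInv]

variable [IsIso (L.restrict hV.fromSpec).fromTildeΓ]

include hV in
/-- If `L` restricted to `Spec Γ(X, V)` is quasi-coherent, two local homomorphisms `L → L'` on the
affine open `V` which agree on `Γ(L, V)` are equal. -/
theorem localHom_ext {a b : LocalHom L L' V}
    (h : ∀ x : Γ(L, V), a.app V le_rfl x = b.app V le_rfl x) : a = b := by
  rw [← ofSpecHom_toSpecHom hV a, ← ofSpecHom_toSpecHom hV b]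
  congr 1
  apply hom_ext_of_app_top
  intro y
  rw [toSpecHom_app_top, toSpecHom_app_top, h]

include hV in
/-- If `L` restricted to `Spec Γ(X, V)` is quasi-coherent, every `Γ(X, V)`-linear map
`Γ(L, V) → Γ(L', V)` is induced by a local homomorphism on `V`. -/
theorem exists_localHom (g : Γ(L, V) →ₗ[Γ(X, V)] Γ(L', V)) :
    ∃ a : LocalHom L L' V, ∀ x : Γ(L, V), a.app V le_rfl x = g x := by
  obtain ⟨ψ, hψ⟩ := exists_hom_of_app_top
    (N := L.restrict hV.fromSpec) (N' := L'.restrict hV.fromSpec)
    (((secTopₗ hV L').toLinearMap.comp g).comp (secTopₗ hV L).symm.toLinearMap)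
  refine ⟨ofSpecHom hV ψ, fun x => ?_⟩
  rw [app_eq_toSpecHom hV, toSpecHom_ofSpecHom, hψ]
  simp

include hV in
/-- Local homomorphisms on an affine open `V` are the same as linear maps on sections over `V`,
if the source is quasi-coherent on `V`. -/
theorem bijective_appₗ :
    Function.Bijective (appₗ : LocalHom L L' V → (Γ(L, V) →ₗ[Γ(X, V)] Γ(L', V))) := by
  constructor
  · intro a b h
    exact localHom_ext hV (fun x => congr($h x))
  · intro g
    obtain ⟨a, ha⟩ := exists_localHom hV g
    exact ⟨a, LinearMap.ext ha⟩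

variable [IsIso (L'.restrict hV.fromSpec).fromTildeΓ]

include hV in
/-- A linear equivalence between the modules of sections over an affine open `V` of two modules
which are quasi-coherent on `V` is induced by a local isomorphism on `V`. -/
theorem exists_localIso (g : Γ(L, V) ≃ₗ[Γ(X, V)] Γ(L', V)) :
    ∃ e : LocalIso L L' V, (∀ x : Γ(L, V), e.hom.app V le_rfl x = g x) ∧
      (∀ y : Γ(L', V), e.inv.app V le_rfl y = g.symm y) := by
  obtain ⟨a, ha⟩ := exists_localHom hV g.toLinearMap
  obtain ⟨b, hb⟩ := exists_localHom hV g.symm.toLinearMap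
  refine ⟨⟨a, b, ?_, ?_⟩, ha, hb⟩
  · apply localHom_ext hV
    intro x
    rw [LocalHom.comp_app, ha, hb]
    simp
  · apply localHom_ext hV
    intro y
    rw [LocalHom.comp_app, hb, ha]
    simp

end LocalHomAffine

end

end Fermat.Agent.JAC.Bridge.AffineSec87
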