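/-
Programme JAC (S25), chapter Bridge (B3).  Owner: helper36.

Sections of a sheaf of modules over an affine scheme mapping to `X`:
`secOver M a := Γ(Spec R, a^* M)` as an `R`-module, for `a : Spec R ⟶ X`, and the transition maps
`secMap M φ a a' h : secOver M a ⟶ secOver M a'` (semilinear over `φ : R ⟶ R'`) for
`Spec φ ≫ a = a'`.
-/
import Mathlib
import Fermat.Prelude.Def_AlgebraicGeometry_RelativePicardFunctor
import Fermat.Agent.JAC.Mod.Affine36

set_option autoImplicit false

universe u

open CategoryTheory CategoryTheory.Limits AlgebraicGeometry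

namespace Fermat.Agent.JAC.Bridge.Sections36

open Fermat.Agent.JAC.Mod.Affine36

variable {X : Scheme.{u}}

/-- Sections of `M` over an affine scheme `a : Spec R ⟶ X`, functorially in `M`. -/
noncomputable def secOverFunctor {R : CommRingCat.{u}} (a : Spec R ⟶ X) :
    X.Modules ⥤ ModuleCat.{u} R :=
  Scheme.Modules.pullback a ⋙ moduleSpecΓFunctor

/-- Sections of `M` over an affine scheme `a : Spec R ⟶ X`: the `R`-module `Γ(Spec R, a^* M)`. -/
noncomputable abbrev secOver (M : X.Modules) {R : CommRingCat.{u}} (a : Spec R ⟶ X) :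
    ModuleCat.{u} R :=
  (secOverFunctor a).obj M

/-- The canonical map `Γ(N) ⟶ Γ(f^* N)` for `f = Spec φ`, as an `R`-linear map into the
restriction of scalars. -/
noncomputable def pullbackΓMap {R R' : CommRingCat.{u}} (φ : R ⟶ R') (N : (Spec R).Modules) :
    moduleSpecΓFunctor.obj N ⟶
      (ModuleCat.restrictScalars φ.hom).obj
        (moduleSpecΓFunctor.obj ((Scheme.Modules.pullback (Spec.map φ)).obj N)) :=
  moduleSpecΓFunctor.map ((Scheme.Modules.pullbackPushforwardAdjunction (Spec.map φ)).unit.app N) ≫
    (pushforwardΓIso φ).hom.app _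

/-- The transition map `secOver M a ⟶ secOver M a'` over `φ : R ⟶ R'` when `Spec φ ≫ a = a'`. -/
noncomputable def secMap (M : X.Modules) {R R' : CommRingCat.{u}} (φ : R ⟶ R')
    (a : Spec R ⟶ X) (a' : Spec R' ⟶ X) (h : Spec.map φ ≫ a = a') :
    secOver M a ⟶ (ModuleCat.restrictScalars φ.hom).obj (secOver M a') :=
  pullbackΓMap φ ((Scheme.Modules.pullback a).obj M) ≫
    (ModuleCat.restrictScalars φ.hom).map (moduleSpecΓFunctor.map
      (((Scheme.Modules.pullbackComp (Spec.map φ) a).app M).hom ≫
        ((Scheme.Modules.pullbackCongr h).app M).hom))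

section Comparison

variable {R R' : CommRingCat.{u}} (φ : R ⟶ R')

/-- The `R'`-linear comparison map `R' ⊗[R] Γ(N) ⟶ Γ(f^* N)`, `f = Spec φ`. -/
noncomputable def pullbackΓComparison (N : (Spec R).Modules) :
    (ModuleCat.extendScalars φ.hom).obj (moduleSpecΓFunctor.obj N) ⟶
      moduleSpecΓFunctor.obj ((Scheme.Modules.pullback (Spec.map φ)).obj N) :=
  ((ModuleCat.extendRestrictScalarsAdj φ.hom).homEquiv _ _).symm (pullbackΓMap φ N)

lemma pullbackΓComparison_tilde (P : ModuleCat.{u} R) :
    (ModuleCat.extendScalars φ.hom).map ((tilde.adjunction (R := R)).unit.app P) ≫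
      pullbackΓComparison φ ((tilde.functor R).obj P) ≫
        moduleSpecΓFunctor.map ((tildePullbackIso φ).hom.app P) =
      (tilde.adjunction (R := R')).unit.app ((ModuleCat.extendScalars φ.hom).obj P) := by
  apply ((ModuleCat.extendRestrictScalarsAdj φ.hom).homEquiv _ _).injective
  rw [Adjunction.homEquiv_naturality_left, Adjunction.homEquiv_naturality_right]
  unfold pullbackΓComparison
  dsimp only [Functor.comp_obj, Functor.id_obj]
  rw [Equiv.apply_symm_apply]
  have h1 := Adjunction.unit_leftAdjointUniq_hom_app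
    ((tilde.adjunction (R := R)).comp (Scheme.Modules.pullbackPushforwardAdjunction (Spec.map φ)))
    (((ModuleCat.extendRestrictScalarsAdj φ.hom).comp (tilde.adjunction (R := R'))).ofNatIsoRight
      (pushforwardΓIso φ).symm) P
  have h2 := (pushforwardΓIso φ).hom.naturality ((tildePullbackIso φ).hom.app P)
  rw [Adjunction.homEquiv_unit]
  unfold pullbackΓMap
  simp only [Adjunction.comp_unit_app, Adjunction.ofNatIsoRight_unit, NatTrans.comp_app, Functor.whiskerLeft_app, Functor.comp_obj, Functor.comp_map, Iso.symm_hom, Category.assoc] at h1 h2 ⊢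
  rw [← h2]
  change _ ≫ _ ≫ moduleSpecΓFunctor.map ((Scheme.Modules.pushforward (Spec.map φ)).map
    ((tildePullbackIso φ).hom.app P)) = _ at h1
  simp only [← Category.assoc] at h1 ⊢
  rw [h1]
  simp


lemma pullbackΓMap_naturality {N N' : (Spec R).Modules} (g : N ⟶ N') :
    moduleSpecΓFunctor.map g ≫ pullbackΓMap φ N' =
      pullbackΓMap φ N ≫ (ModuleCat.restrictScalars φ.hom).map
        (moduleSpecΓFunctor.map ((Scheme.Modules.pullback (Spec.map φ)).map g)) := by
  unfold pullbackΓMap
  have h1 := (Scheme.Modules.pullbackPushforwardAdjunction (Spec.map φ)).unit.naturality g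
  have h2 := (pushforwardΓIso φ).hom.naturality ((Scheme.Modules.pullback (Spec.map φ)).map g)
  simp only [Functor.id_obj, Functor.id_map, Functor.comp_obj, Functor.comp_map] at h1 h2
  rw [Category.assoc, ← h2, ← Category.assoc, ← Category.assoc, ← Functor.map_comp, h1,
    Functor.map_comp]

lemma pullbackΓComparison_naturality {N N' : (Spec R).Modules} (g : N ⟶ N') :
    (ModuleCat.extendScalars φ.hom).map (moduleSpecΓFunctor.map g) ≫ pullbackΓComparison φ N' =
      pullbackΓComparison φ N ≫
        moduleSpecΓFunctor.map ((Scheme.Modules.pullback (Spec.map φ)).map g) := by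
  unfold pullbackΓComparison
  rw [← Adjunction.homEquiv_naturality_left_symm, ← Adjunction.homEquiv_naturality_right_symm,
    pullbackΓMap_naturality]

instance isIso_pullbackΓComparison_tilde (P : ModuleCat.{u} R) :
    IsIso (pullbackΓComparison φ ((tilde.functor R).obj P)) := by
  have h := pullbackΓComparison_tilde φ P
  have h3 : IsIso ((ModuleCat.extendScalars φ.hom).map ((tilde.adjunction (R := R)).unit.app P) ≫
      pullbackΓComparison φ ((tilde.functor R).obj P) ≫
        moduleSpecΓFunctor.map ((tildePullbackIso φ).hom.app P)) := by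
    rw [h]; infer_instance
  have h4 : IsIso (pullbackΓComparison φ ((tilde.functor R).obj P) ≫
        moduleSpecΓFunctor.map ((tildePullbackIso φ).hom.app P)) :=
    IsIso.of_isIso_comp_left ((ModuleCat.extendScalars φ.hom).map
      ((tilde.adjunction (R := R)).unit.app P)) _
  exact IsIso.of_isIso_comp_right _ (moduleSpecΓFunctor.map ((tildePullbackIso φ).hom.app P))

/-- For a quasi-coherent `N` on `Spec R`, the comparison `R' ⊗[R] Γ(N) ⟶ Γ(f^* N)` is an
isomorphism. -/
theorem isIso_pullbackΓComparison (N : (Spec R).Modules) [IsIso N.fromTildeΓ] :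
    IsIso (pullbackΓComparison φ N) := by
  have h := pullbackΓComparison_naturality φ N.fromTildeΓ
  have h1 : IsIso ((ModuleCat.extendScalars φ.hom).map (moduleSpecΓFunctor.map N.fromTildeΓ) ≫
      pullbackΓComparison φ N) := by
    rw [h]
    have : IsIso (pullbackΓComparison φ
        (tilde ((modulesSpecToSheaf.obj N).presheaf.obj (Opposite.op ⊤)))) :=
      isIso_pullbackΓComparison_tilde φ _
    infer_instance
  exact IsIso.of_isIso_comp_left
    ((ModuleCat.extendScalars φ.hom).map (moduleSpecΓFunctor.map N.fromTildeΓ)) _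

end Comparison

end Fermat.Agent.JAC.Bridge.Sections36
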