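/-
Programme JAC (S25), chapter Bridge (B3).  Owner: helper35.

Lemma (BC): for a morphism `f : X' ⟶ X` of schemes, affine opens `V ⊆ X`, `V' ⊆ X'` with
`V' ≤ f ⁻¹ᵁ V`, and a quasi-coherent `𝒪_X`-module `L`, the canonical map
`Γ(L, V) ⟶ Γ(f^* L, V')` exhibits the target as the base change of the source along
`Γ(X, V) ⟶ Γ(X', V')` (in the sense of `Core.Cart36.IsBaseChangeHom`).
-/
import Mathlib
import Fermat.Agent.JAC.Core.Cart36
import Fermat.Agent.JAC.Bridge.Sections36
import Fermat.Agent.JAC.Bridge.SecPull35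

set_option autoImplicit false

universe u

open CategoryTheory CategoryTheory.Limits AlgebraicGeometry

namespace Fermat.Agent.JAC.Bridge.BaseChange35

open Fermat.Agent.JAC.Core.Cart36 Fermat.Agent.JAC.Bridge.Sections36
  Fermat.Agent.JAC.Bridge.SecPull35 Fermat.Agent.JAC.Mod.Affine36

/-! ### Transfer of `IsBaseChangeHom` along linear bijections -/

section Transfer

variable {R R' : Type u} [CommRing R] [CommRing R'] {φ : R →+* R'}
  {P P' P₁ P₁' : Type u} [AddCommGroup P] [Module R P] [AddCommGroup P'] [Module R' P']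
  [AddCommGroup P₁] [Module R P₁] [AddCommGroup P₁'] [Module R' P₁']

/-- If `b ∘ θ = θ₁ ∘ a` with `a`, `b` linear bijections and `θ₁` a base change, then `θ` is a base
change. -/
theorem isBaseChangeHom_of_square (θ : P →ₛₗ[φ] P') (θ₁ : P₁ →ₛₗ[φ] P₁') (a : P →ₗ[R] P₁)
    (b : P' →ₗ[R'] P₁') (ha : Function.Bijective a) (hb : Function.Bijective b)
    (h : ∀ x, b (θ x) = θ₁ (a x)) (h₁ : IsBaseChangeHom θ₁) : IsBaseChangeHom θ := by
  intro Q _ _ g
  let ea := LinearEquiv.ofBijective a ha
  let eb := LinearEquiv.ofBijective b hb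
  obtain ⟨g₁, hg₁, huniq⟩ := h₁ Q (g.comp (ea.symm : P₁ →ₗ[R] P))
  refine ⟨g₁.comp (eb : P' →ₗ[R'] P₁'), ?_, ?_⟩
  · intro x
    have h2 := hg₁ (a x)
    simp only [LinearMap.coe_comp, LinearEquiv.coe_coe, Function.comp_apply]
    change g₁ (b (θ x)) = g x
    rw [h, h2]
    change g (ea.symm (ea x)) = g x
    rw [LinearEquiv.symm_apply_apply]
  · intro g'' hg''
    have : g''.comp (eb.symm : P₁' →ₗ[R'] P') = g₁ := by
      apply huniq
      intro y
      obtain ⟨x, rfl⟩ := ha.2 y
      simp only [LinearMap.coe_comp, LinearEquiv.coe_coe, Function.comp_apply]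
      rw [← h]
      change g'' (eb.symm (eb (θ x))) = g (ea.symm (ea x))
      rw [LinearEquiv.symm_apply_apply, LinearEquiv.symm_apply_apply, hg'']
    rw [← this]
    ext y
    simp only [LinearMap.coe_comp, LinearEquiv.coe_coe, Function.comp_apply]
    rw [LinearEquiv.symm_apply_apply]

/-- Post-composing a base change with a linear bijection gives a base change. -/
theorem IsBaseChangeHom.comp_bijective {θ : P →ₛₗ[φ] P'} (hθ : IsBaseChangeHom θ)
    (c : P' →ₗ[R'] P₁') (hc : Function.Bijective c) (θ' : P →ₛₗ[φ] P₁')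
    (h : ∀ x, θ' x = c (θ x)) : IsBaseChangeHom θ' := by
  let ec := LinearEquiv.ofBijective c hc
  refine isBaseChangeHom_of_square θ' θ LinearMap.id (ec.symm : P₁' →ₗ[R'] P')
    Function.bijective_id ec.symm.bijective ?_ hθ
  intro x
  rw [h]
  change ec.symm (ec (θ x)) = θ x
  rw [LinearEquiv.symm_apply_apply]

end Transfer

/-! ### Base change in `ModuleCat` -/

section ModuleCatCase

variable {R R' : Type u} [CommRing R] [CommRing R'] (φ : R →+* R')
  {P : ModuleCat.{u} R} {P' : ModuleCat.{u} R'}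

/-- The semilinear map underlying a morphism `P ⟶ restrictScalars φ P'`. -/
noncomputable def semilinearOfHom (m : P ⟶ (ModuleCat.restrictScalars φ).obj P') : P →ₛₗ[φ] P' where
  toFun := m.hom
  map_add' := map_add _
  map_smul' r x := m.hom.map_smul r x

/-- If the adjoint `R' ⊗[R] P ⟶ P'` of `m : P ⟶ restrictScalars φ P'` is an isomorphism, then `m`
is a base change. -/
theorem isBaseChangeHom_of_isIso_adjoint (m : P ⟶ (ModuleCat.restrictScalars φ).obj P')
    (hiso : IsIso (((ModuleCat.extendRestrictScalarsAdj φ).homEquiv P P').symm m)) :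
    IsBaseChangeHom (semilinearOfHom φ m) := by
  intro Q _ _ g
  let adj := ModuleCat.extendRestrictScalarsAdj φ
  let c := (adj.homEquiv P P').symm m
  let Q' : ModuleCat.{u} R' := ModuleCat.of R' Q
  let ĝ : P ⟶ (ModuleCat.restrictScalars φ).obj Q' :=
    ModuleCat.ofHom (Y := (ModuleCat.restrictScalars φ).obj Q')
      ({ toFun := g, map_add' := g.map_add, map_smul' := fun r x => g.map_smulₛₗ r x } :
        P →ₗ[R] ((ModuleCat.restrictScalars φ).obj Q'))
  let G : P' ⟶ Q' := inv c ≫ (adj.homEquiv P Q').symm ĝ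
  have key : ∀ G' : P' ⟶ Q', m ≫ (ModuleCat.restrictScalars φ).map G' =
      adj.homEquiv P Q' (c ≫ G') := by
    intro G'
    rw [Adjunction.homEquiv_naturality_right, Equiv.apply_symm_apply]
  have hG : m ≫ (ModuleCat.restrictScalars φ).map G = ĝ := by
    rw [key, IsIso.hom_inv_id_assoc, Equiv.apply_symm_apply]
  refine ⟨G.hom, ?_, ?_⟩
  · intro x
    exact congrArg (fun ψ => ψ.hom x) hG
  · intro g'' hg''
    have h2 : m ≫ (ModuleCat.restrictScalars φ).map (ModuleCat.ofHom g'') = ĝ := by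
      ext x
      exact hg'' x
    rw [key] at h2 hG
    have h3 := (adj.homEquiv P Q').injective (h2.trans hG.symm)
    have h4 : ModuleCat.ofHom g'' = G := (cancel_epi c).mp h3
    rw [← h4]
    rfl

end ModuleCatCase

/-! ### The affine case -/

section SpecCase

variable {R R' : CommRingCat.{u}} (φ : R ⟶ R')

/-- Sections of a morphism of modules over `Spec R`, as an `R`-linear map. -/
noncomputable def appLinear {M M' : (Spec R).Modules} (α : M ⟶ M') (U : (Spec R).Opens) :
    Γ(M, U) →ₗ[R] Γ(M', U) where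
  toFun := (α.app U).hom
  map_add' := map_add _
  map_smul' r x := by
    rw [Scheme.Modules.smul_Spec_def, Scheme.Modules.Hom.app_smul]
    rfl

@[simp] theorem appLinear_apply {M M' : (Spec R).Modules} (α : M ⟶ M') (U : (Spec R).Opens)
    (x : Γ(M, U)) : appLinear α U x = (α.app U).hom x := rfl

theorem bijective_appLinear {M M' : (Spec R).Modules} (α : M ⟶ M') [IsIso α]
    (U : (Spec R).Opens) : Function.Bijective (appLinear α U) := by
  have : IsIso (α.app U) := inferInstance
  exact ConcreteCategory.bijective_of_isIso (α.app U)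

/-- The canonical map `Γ(N) → Γ((Spec φ)^* N)` as a `φ`-semilinear map. -/
noncomputable def globalPullSL (N : (Spec R).Modules) :
    Γ(N, ⊤) →ₛₗ[φ.hom] Γ((Scheme.Modules.pullback (Spec.map φ)).obj N, ⊤) where
  toFun := (secPull (Spec.map φ) N ⊤).hom
  map_add' := map_add _
  map_smul' r x := (pullbackΓMap φ N).hom.map_smul r x

@[simp] theorem globalPullSL_apply (N : (Spec R).Modules) (x : Γ(N, ⊤)) :
    globalPullSL φ N x = (secPull (Spec.map φ) N ⊤).hom x := rfl

/-- For a quasi-coherent module `N` on `Spec R`, `Γ(N) → Γ((Spec φ)^* N)` is a base change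
along `φ`. -/
theorem isBaseChangeHom_globalPullSL (N : (Spec R).Modules) [IsIso N.fromTildeΓ] :
    IsBaseChangeHom (globalPullSL φ N) :=
  isBaseChangeHom_of_isIso_adjoint φ.hom (pullbackΓMap φ N) (isIso_pullbackΓComparison φ N)

end SpecCase

/-! ### Sections over an affine open as global sections on `Spec` -/

section AffineOpen

variable {X : Scheme.{u}} {V : X.Opens} (hV : IsAffineOpen V) (F : X.Modules)

theorem top_le_fromSpec_preimage : (⊤ : (Spec Γ(X, V)).Opens) ≤ hV.fromSpec ⁻¹ᵁ V := by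
  rw [hV.fromSpec_preimage_self]

theorem fromSpec_appLE_top :
    hV.fromSpec.appLE V ⊤ (top_le_fromSpec_preimage hV) = (Scheme.ΓSpecIso Γ(X, V)).inv := by
  rw [Scheme.Hom.appLE, hV.fromSpec_app_of_le V le_rfl]
  simp only [Category.assoc, ← Functor.map_comp]
  have h1 : X.presheaf.map (homOfLE (le_refl V)).op = 𝟙 _ := by
    rw [← X.presheaf.map_id]
    rfl
  rw [h1, Category.id_comp]
  have h2 : (Spec Γ(X, V)).presheaf.map
      ((homOfLE (le_top : hV.fromSpec ⁻¹ᵁ V ≤ ⊤)).op ≫
        (homOfLE (top_le_fromSpec_preimage hV)).op) = 𝟙 _ := by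
    rw [← (Spec Γ(X, V)).presheaf.map_id]
    rfl
  rw [h2, Category.comp_id]

/-- `Γ(F, V) → Γ(j^* F, ⊤)` for `j = hV.fromSpec : Spec Γ(X, V) ⟶ X`, as a `Γ(X, V)`-linear
map. -/
noncomputable def affSec :
    Γ(F, V) →ₗ[Γ(X, V)] Γ((Scheme.Modules.pullback hV.fromSpec).obj F, ⊤) where
  toFun := (secPullLE hV.fromSpec F V ⊤ (top_le_fromSpec_preimage hV)).hom
  map_add' := map_add _
  map_smul' r x := by
    rw [secPullLE_smul, Scheme.Modules.smul_Spec_def, fromSpec_appLE_top]
    have h2 : (Spec Γ(X, V)).presheaf.map (⊤ : (Spec Γ(X, V)).Opens).leTop.op = 𝟙 _ := by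
      rw [← (Spec Γ(X, V)).presheaf.map_id]
      rfl
    rw [h2]
    rfl

@[simp] theorem affSec_apply (x : Γ(F, V)) :
    affSec hV F x = (secPullLE hV.fromSpec F V ⊤ (top_le_fromSpec_preimage hV)).hom x := rfl

theorem bijective_affSec : Function.Bijective (affSec hV F) := by
  have h : IsIso (secPullLE hV.fromSpec F V ⊤ (top_le_fromSpec_preimage hV)) :=
    isIso_secPullLE_of_isOpenImmersion hV.fromSpec F V ⊤ (by
      rw [Scheme.Hom.image_top_eq_opensRange, hV.opensRange_fromSpec])
  exact ConcreteCategory.bijective_of_isIso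
    (secPullLE hV.fromSpec F V ⊤ (top_le_fromSpec_preimage hV))

instance isQuasicoherent_pullback_fromSpec [F.IsQuasicoherent] :
    ((Scheme.Modules.pullback hV.fromSpec).obj F).IsQuasicoherent :=
  have h : ((Scheme.Modules.restrictFunctor hV.fromSpec).obj F).IsQuasicoherent := inferInstance
  (SheafOfModules.isQuasicoherent (Spec Γ(X, V)).ringCatSheaf).prop_of_iso
    ((Scheme.Modules.restrictFunctorIsoPullback hV.fromSpec).app F) h

end AffineOpen

/-! ### The main lemma (BC) -/

section Main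

variable {X X' : Scheme.{u}} (f : X' ⟶ X) (L : X.Modules) {V : X.Opens} {V' : X'.Opens}
  (h : V' ≤ f ⁻¹ᵁ V)

/-- The canonical map `Γ(L, V) → Γ(f^* L, V')`, `V' ≤ f ⁻¹ᵁ V`, as a semilinear map over
`f.appLE V V' h : Γ(X, V) → Γ(X', V')`. -/
noncomputable def secPullSL :
    Γ(L, V) →ₛₗ[(f.appLE V V' h).hom] Γ((Scheme.Modules.pullback f).obj L, V') where
  toFun := (secPullLE f L V V' h).hom
  map_add' := map_add _
  map_smul' r x := secPullLE_smul f L V V' h r x

@[simp] theorem secPullSL_apply (x : Γ(L, V)) :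
    secPullSL f L h x = (secPullLE f L V V' h).hom x := rfl

/-- **Lemma (BC)**: for a quasi-coherent module `L` on `X`, a morphism `f : X' ⟶ X` and affine
opens `V ⊆ X`, `V' ⊆ X'` with `V' ≤ f ⁻¹ᵁ V`, the canonical map `Γ(L, V) → Γ(f^* L, V')` is a
base change along `Γ(X, V) → Γ(X', V')`. -/
theorem isBaseChangeHom_secPullSL [L.IsQuasicoherent] (hV : IsAffineOpen V)
    (hV' : IsAffineOpen V') : IsBaseChangeHom (secPullSL f L h) := by
  have sq : Spec.map (f.appLE V V' h) ≫ hV.fromSpec = hV'.fromSpec ≫ f :=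
    IsAffineOpen.SpecMap_appLE_fromSpec f hV hV' h
  have hiso : IsIso ((Scheme.Modules.pullback hV.fromSpec).obj L).fromTildeΓ := inferInstance
  have hθ₁ := isBaseChangeHom_globalPullSL (f.appLE V V' h)
    ((Scheme.Modules.pullback hV.fromSpec).obj L)
  -- the coherence isomorphisms
  let c₂ := (Scheme.Modules.pullbackComp (Spec.map (f.appLE V V' h)) hV.fromSpec).hom.app L
  let c₃ := (Scheme.Modules.pullbackCongr sq).hom.app L
  let c₁ := (Scheme.Modules.pullbackComp hV'.fromSpec f).hom.app L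
  let c := c₂ ≫ c₃ ≫ inv c₁
  let θ₁' : Γ((Scheme.Modules.pullback hV.fromSpec).obj L, ⊤) →ₛₗ[(f.appLE V V' h).hom]
      Γ((Scheme.Modules.pullback hV'.fromSpec).obj ((Scheme.Modules.pullback f).obj L), ⊤) :=
    (appLinear c ⊤).comp (globalPullSL (f.appLE V V' h)
      ((Scheme.Modules.pullback hV.fromSpec).obj L))
  have hθ₁' : IsBaseChangeHom θ₁' :=
    IsBaseChangeHom.comp_bijective hθ₁ (appLinear c ⊤) (bijective_appLinear c ⊤) θ₁'
      (fun x => rfl)
  refine isBaseChangeHom_of_square (secPullSL f L h) θ₁' (affSec hV L)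
    (affSec hV' ((Scheme.Modules.pullback f).obj L)) (bijective_affSec hV L)
    (bijective_affSec hV' _) ?_ hθ₁'
  intro x
  -- the three calculus identities
  have e1 := secPullLE_comp hV'.fromSpec f L V V' ⊤ h (top_le_fromSpec_preimage hV')
  have e2 := secPullLE_comp (Spec.map (f.appLE V V' h)) hV.fromSpec L V ⊤ ⊤
    (top_le_fromSpec_preimage hV) le_rfl
  have e3 := secPullLE_congr sq L V ⊤
    (le_rfl.trans ((Spec.map (f.appLE V V' h)).preimage_mono (top_le_fromSpec_preimage hV)))
  have e4 : secPullLE (Spec.map (f.appLE V V' h)) ((Scheme.Modules.pullback hV.fromSpec).obj L)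
      ⊤ ⊤ le_rfl = secPull (Spec.map (f.appLE V V' h))
        ((Scheme.Modules.pullback hV.fromSpec).obj L) ⊤ :=
    secPullLE_self _ _ _
  rw [e2, e4] at e3
  have e5 := e1.symm.trans e3
  have e7 := congrArg (fun ψ => ψ.hom x) e5
  have hc₁ : ∀ y, (inv (c₁.app ⊤)).hom ((c₁.app ⊤).hom y) = y := fun y => by
    have := congrArg (fun ψ => ψ.hom y) (IsIso.hom_inv_id (c₁.app ⊤))
    simpa using this
  have e8 : (c₁.app ⊤).hom ((secPullLE hV'.fromSpec ((Scheme.Modules.pullback f).obj L) V' ⊤
      (top_le_fromSpec_preimage hV')).hom ((secPullLE f L V V' h).hom x)) =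
    (c₃.app ⊤).hom ((c₂.app ⊤).hom
      ((secPull (Spec.map (f.appLE V V' h)) ((Scheme.Modules.pullback hV.fromSpec).obj L) ⊤).hom
        ((secPullLE hV.fromSpec L V ⊤ (top_le_fromSpec_preimage hV)).hom x))) := e7
  change (secPullLE hV'.fromSpec ((Scheme.Modules.pullback f).obj L) V' ⊤
      (top_le_fromSpec_preimage hV')).hom ((secPullLE f L V V' h).hom x) =
    ((inv c₁).app ⊤).hom ((c₃.app ⊤).hom ((c₂.app ⊤).hom
      ((secPull (Spec.map (f.appLE V V' h)) ((Scheme.Modules.pullback hV.fromSpec).obj L) ⊤).hom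
        ((secPullLE hV.fromSpec L V ⊤ (top_le_fromSpec_preimage hV)).hom x))))
  rw [Scheme.Modules.inv_app, ← e8]
  exact (hc₁ _).symm

end Main

end Fermat.Agent.JAC.Bridge.BaseChange35
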