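/-
JAC brick (BC) of COORD #3 (general base-change lemma), categorical form.  Owner: helper85.

Setting: a commutative square of schemes

    Spec R' --j'--> X'
      | Spec φ       | f
      v              v
    Spec R  --j-->  X

with `j`, `j'` open immersions, and `L : X.Modules` whose restriction `L|_j` is quasi-coherent.
Then the canonical map (built from the unit of `f^* ⊣ f_*`)

    bcMap : Γ(L|_j) ⟶ Γ((f^* L)|_{j'})     (`R`-linear into the restriction of scalars)

exhibits the target as the base change of the source along `φ`: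
`isIso_bcComparison'`, `bcMap_bijective`, `existsUnique_bcMap_comp`.
-/
import Mathlib
import Fermat.Prelude.Def_AlgebraicGeometry_RelativePicardFunctor
import Fermat.Agent.JAC.Mod.Affine36
import Fermat.Agent.JAC.Mod.AffineInv85

set_option autoImplicit false

universe u

open CategoryTheory CategoryTheory.Limits AlgebraicGeometry

namespace Fermat.Agent.JAC.Bridge.BaseChange85

section Gamma

variable {R : CommRingCat.{u}}

theorem isIso_counit_of_isIso_fromTildeΓ (M : (Spec R).Modules) [h : IsIso M.fromTildeΓ] :
    IsIso ((tilde.adjunction (R := R)).counit.app M) := h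

theorem Γmap_eq_homEquiv (M N : (Spec R).Modules) (g : M ⟶ N) :
    moduleSpecΓFunctor.map g =
      (tilde.adjunction (R := R)).homEquiv (moduleSpecΓFunctor.obj M) N
        ((tilde.adjunction (R := R)).counit.app M ≫ g) := by
  rw [Adjunction.homEquiv_unit, Functor.map_comp, ← Category.assoc,
    (tilde.adjunction (R := R)).right_triangle_components M, Category.id_comp]

/-- Taking global sections is bijective on morphisms out of a quasi-coherent module on an affine
scheme. -/
theorem Γmap_bijective (M N : (Spec R).Modules) [IsIso M.fromTildeΓ] :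
    Function.Bijective (fun g : M ⟶ N => moduleSpecΓFunctor.map g) := by
  have := isIso_counit_of_isIso_fromTildeΓ M
  have : (fun g : M ⟶ N => moduleSpecΓFunctor.map g) =
      (tilde.adjunction (R := R)).homEquiv (moduleSpecΓFunctor.obj M) N ∘
        (fun g => (tilde.adjunction (R := R)).counit.app M ≫ g) := by
    funext g
    exact Γmap_eq_homEquiv M N g
  rw [this]
  refine (Equiv.bijective _).comp ?_
  constructor
  · intro a b h
    exact (cancel_epi ((tilde.adjunction (R := R)).counit.app M)).mp h
  · intro a
    exact ⟨inv ((tilde.adjunction (R := R)).counit.app M) ≫ a, by simp⟩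

end Gamma

section BC

variable {X X' : Scheme.{u}} (f : X' ⟶ X) {R R' : CommRingCat.{u}} (φ : R ⟶ R')
  (j : Spec R ⟶ X) (j' : Spec R' ⟶ X') [IsOpenImmersion j] [IsOpenImmersion j']
  (sq : j' ≫ f = Spec.map φ ≫ j)

/-- Pushforward along the two paths of a commutative square. -/
noncomputable def pushforwardSquareIso :
    Scheme.Modules.pushforward j' ⋙ Scheme.Modules.pushforward f ≅
      Scheme.Modules.pushforward (Spec.map φ) ⋙ Scheme.Modules.pushforward j :=
  Scheme.Modules.pushforwardComp j' f ≪≫ Scheme.Modules.pushforwardCongr sq ≪≫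
    (Scheme.Modules.pushforwardComp (Spec.map φ) j).symm

variable (L : X.Modules)

/-- The restriction of `f^* L` to the chart `j'`. -/
noncomputable abbrev pullbackRestrict : (Spec R').Modules :=
  ((Scheme.Modules.pullback f).obj L).restrict j'

/-- The sheaf-level base change map `L|_j ⟶ (Spec φ)_* ((f^* L)|_{j'})`. -/
noncomputable def bcSheafMap :
    L.restrict j ⟶ (Scheme.Modules.pushforward (Spec.map φ)).obj (pullbackRestrict f j' L) :=
  ((Scheme.Modules.restrictAdjunction j).homEquiv _ _).symm
    ((Scheme.Modules.pullbackPushforwardAdjunction f).unit.app L ≫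
      (Scheme.Modules.pushforward f).map
        ((Scheme.Modules.restrictAdjunction j').unit.app ((Scheme.Modules.pullback f).obj L)) ≫
      (pushforwardSquareIso f φ j j' sq).hom.app _)

/-- The base change map on sections `Γ(L|_j) ⟶ Γ((f^* L)|_{j'})`, as an `R`-linear map into the
restriction of scalars. -/
noncomputable def bcMap :
    moduleSpecΓFunctor.obj (L.restrict j) ⟶
      (ModuleCat.restrictScalars φ.hom).obj (moduleSpecΓFunctor.obj (pullbackRestrict f j' L)) :=
  moduleSpecΓFunctor.map (bcSheafMap f φ j j' sq L) ≫ (Mod.Affine36.pushforwardΓIso φ).hom.app _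

/-- The chain of adjunction bijections, sheaf level. -/
noncomputable def chainEquiv (T : (Spec R').Modules) :
    (pullbackRestrict f j' L ⟶ T) ≃
      (L.restrict j ⟶ (Scheme.Modules.pushforward (Spec.map φ)).obj T) :=
  ((Scheme.Modules.restrictAdjunction j').homEquiv _ _).trans <|
    ((Scheme.Modules.pullbackPushforwardAdjunction f).homEquiv _ _).trans <|
    (Iso.homToEquiv ((pushforwardSquareIso f φ j j' sq).app T)).trans <|
    ((Scheme.Modules.restrictAdjunction j).homEquiv _ _).symm

theorem chainEquiv_apply (T : (Spec R').Modules) (h : pullbackRestrict f j' L ⟶ T) :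
    chainEquiv f φ j j' sq L T h =
      bcSheafMap f φ j j' sq L ≫ (Scheme.Modules.pushforward (Spec.map φ)).map h := by
  unfold chainEquiv bcSheafMap
  simp only [Equiv.trans_apply, Iso.homToEquiv_apply, Adjunction.homEquiv_unit, Iso.app_hom]
  rw [← Adjunction.homEquiv_naturality_right_symm]
  congr 1
  have hn := (pushforwardSquareIso f φ j j' sq).hom.naturality h
  simp only [Functor.comp_map] at hn
  simp only [Functor.map_comp, Category.assoc, Functor.comp_obj]
  rw [← hn]

theorem bcMap_comp_Γmap (T : (Spec R').Modules) (h : pullbackRestrict f j' L ⟶ T) :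
    bcMap f φ j j' sq L ≫ (ModuleCat.restrictScalars φ.hom).map (moduleSpecΓFunctor.map h) =
      moduleSpecΓFunctor.map (chainEquiv f φ j j' sq L T h) ≫
        (Mod.Affine36.pushforwardΓIso φ).hom.app T := by
  rw [chainEquiv_apply, Functor.map_comp, Category.assoc]
  unfold bcMap
  rw [Category.assoc]
  congr 1

/-- The universal property of `bcMap`: composition with it is bijective. -/
theorem bcMap_bijective [IsIso (L.restrict j).fromTildeΓ]
    [IsIso (pullbackRestrict f j' L).fromTildeΓ] (Q : ModuleCat.{u} R') :
    Function.Bijective (fun g' : moduleSpecΓFunctor.obj (pullbackRestrict f j' L) ⟶ Q =>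
      bcMap f φ j j' sq L ≫ (ModuleCat.restrictScalars φ.hom).map g') := by
  let T := (tilde.functor R').obj Q
  let uQ := (tilde.adjunction (R := R')).unit.app Q
  let A : (pullbackRestrict f j' L ⟶ T) → (moduleSpecΓFunctor.obj (pullbackRestrict f j' L) ⟶ Q) :=
    fun h => moduleSpecΓFunctor.map h ≫ inv uQ
  have hA : Function.Bijective A := by
    have h1 := Γmap_bijective (pullbackRestrict f j' L) T
    have h2 : Function.Bijective (fun x : moduleSpecΓFunctor.obj (pullbackRestrict f j' L) ⟶
        moduleSpecΓFunctor.obj T => x ≫ inv uQ) :=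
      (Iso.homToEquiv (asIso (inv uQ))).bijective
    exact h2.comp h1
  rw [← Function.Bijective.of_comp_iff _ hA]
  have hB : (fun g' : moduleSpecΓFunctor.obj (pullbackRestrict f j' L) ⟶ Q =>
      bcMap f φ j j' sq L ≫ (ModuleCat.restrictScalars φ.hom).map g') ∘ A =
      (fun x => x ≫ ((Mod.Affine36.pushforwardΓIso φ).hom.app T ≫
        (ModuleCat.restrictScalars φ.hom).map (inv uQ))) ∘
      (fun g => moduleSpecΓFunctor.map g) ∘ (chainEquiv f φ j j' sq L T) := by
    funext h
    simp only [Function.comp_apply, A]
    rw [Functor.map_comp, ← Category.assoc, bcMap_comp_Γmap, Category.assoc]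
  rw [hB]
  refine Function.Bijective.comp ?_ (Function.Bijective.comp (Γmap_bijective _ _) (Equiv.bijective _))
  have : IsIso ((Mod.Affine36.pushforwardΓIso φ).hom.app T ≫
        (ModuleCat.restrictScalars φ.hom).map (inv uQ)) := inferInstance
  exact (Iso.homToEquiv (asIso ((Mod.Affine36.pushforwardΓIso φ).hom.app T ≫
        (ModuleCat.restrictScalars φ.hom).map (inv uQ)))).bijective

/-- The comparison map `R' ⊗[R] Γ(L|_j) ⟶ Γ((f^* L)|_{j'})`. -/
noncomputable def bcComparison :
    (ModuleCat.extendScalars φ.hom).obj (moduleSpecΓFunctor.obj (L.restrict j)) ⟶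
      moduleSpecΓFunctor.obj (pullbackRestrict f j' L) :=
  ((ModuleCat.extendRestrictScalarsAdj φ.hom).homEquiv _ _).symm (bcMap f φ j j' sq L)

/-- **(BC), categorical form**: the comparison map is an isomorphism. -/
theorem isIso_bcComparison [IsIso (L.restrict j).fromTildeΓ]
    [IsIso (pullbackRestrict f j' L).fromTildeΓ] : IsIso (bcComparison f φ j j' sq L) := by
  rw [isIso_iff_coyoneda_map_bijective]
  intro Q
  have h := bcMap_bijective f φ j j' sq L Q
  have e : (fun x : moduleSpecΓFunctor.obj (pullbackRestrict f j' L) ⟶ Q =>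
      bcComparison f φ j j' sq L ≫ x) =
      ((ModuleCat.extendRestrictScalarsAdj φ.hom).homEquiv _ _).symm ∘
      (fun g' : moduleSpecΓFunctor.obj (pullbackRestrict f j' L) ⟶ Q =>
        bcMap f φ j j' sq L ≫ (ModuleCat.restrictScalars φ.hom).map g') := by
    funext x
    simp only [Function.comp_apply, bcComparison]
    rw [Adjunction.homEquiv_naturality_right_symm]
  rw [e]
  exact (Equiv.bijective _).comp h

/-- The restriction of `f^* L` to the chart `j'` is the pullback along `Spec φ` of the restriction
of `L` to the chart `j`. -/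
noncomputable def pullbackRestrictIso :
    pullbackRestrict f j' L ≅ (Scheme.Modules.pullback (Spec.map φ)).obj (L.restrict j) :=
  (Scheme.Modules.restrictFunctorIsoPullback j').app _ ≪≫
    (Scheme.Modules.pullbackComp j' f).app L ≪≫
    (Scheme.Modules.pullbackCongr sq).app L ≪≫
    ((Scheme.Modules.pullbackComp (Spec.map φ) j).app L).symm ≪≫
    (Scheme.Modules.pullback (Spec.map φ)).mapIso
      ((Scheme.Modules.restrictFunctorIsoPullback j).app L).symm

include sq in
/-- If `L|_j` is quasi-coherent, so is `(f^* L)|_{j'}`. -/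
theorem isIso_fromTildeΓ_pullbackRestrict [h : IsIso (L.restrict j).fromTildeΓ] :
    IsIso (pullbackRestrict f j' L).fromTildeΓ := by
  have hq : (L.restrict j).IsQuasicoherent := (isQuasicoherent_iff_isIso_fromTildeΓ _).mpr h
  have e := pullbackRestrictIso f φ j j' sq L ≪≫ Mod.AffineInv85.pullbackIsoTilde φ (L.restrict j)
  have hq' : (pullbackRestrict f j' L).IsQuasicoherent :=
    (SheafOfModules.isQuasicoherent (Spec R').ringCatSheaf).prop_of_iso e.symm
      (by dsimp [SheafOfModules.isQuasicoherent]; infer_instance)
  exact (isQuasicoherent_iff_isIso_fromTildeΓ _).mp hq'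

/-- **(BC), categorical form**: if `L|_j` is quasi-coherent, the comparison map
`R' ⊗[R] Γ(L|_j) ⟶ Γ((f^* L)|_{j'})` is an isomorphism. -/
theorem isIso_bcComparison' [IsIso (L.restrict j).fromTildeΓ] :
    IsIso (bcComparison f φ j j' sq L) := by
  have := isIso_fromTildeΓ_pullbackRestrict f φ j j' sq L
  exact isIso_bcComparison f φ j j' sq L

/-- `L|_j` is quasi-coherent when `L` is. -/
theorem isIso_fromTildeΓ_restrict_of_isQuasicoherent [L.IsQuasicoherent] :
    IsIso (L.restrict j).fromTildeΓ :=
  (isQuasicoherent_iff_isIso_fromTildeΓ _).mp inferInstance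

/-- **(BC)** for quasi-coherent `L`. -/
theorem isIso_bcComparison_of_isQuasicoherent [L.IsQuasicoherent] :
    IsIso (bcComparison f φ j j' sq L) := by
  have := isIso_fromTildeΓ_restrict_of_isQuasicoherent j L
  exact isIso_bcComparison' f φ j j' sq L

/-- **(BC)** for invertible `L` (Prelude sense). -/
theorem isIso_bcComparison_of_isInvertible (hL : Scheme.Modules.IsInvertible L) :
    IsIso (bcComparison f φ j j' sq L) := by
  have := Mod.Affine36.isQuasicoherent_of_isInvertible L hL
  exact isIso_bcComparison_of_isQuasicoherent f φ j j' sq L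

/-- The universal property of `bcMap`, for quasi-coherent `L|_j`: every `R`-linear map
`Γ(L|_j) ⟶ Q` into an `R'`-module factors uniquely through `bcMap`. -/
theorem existsUnique_bcMap_comp [IsIso (L.restrict j).fromTildeΓ] (Q : ModuleCat.{u} R')
    (g : moduleSpecΓFunctor.obj (L.restrict j) ⟶ (ModuleCat.restrictScalars φ.hom).obj Q) :
    ∃! g' : moduleSpecΓFunctor.obj (pullbackRestrict f j' L) ⟶ Q,
      bcMap f φ j j' sq L ≫ (ModuleCat.restrictScalars φ.hom).map g' = g := by
  have := isIso_fromTildeΓ_pullbackRestrict f φ j j' sq L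
  exact (bcMap_bijective f φ j j' sq L Q).existsUnique g

end BC

end Fermat.Agent.JAC.Bridge.BaseChange85
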