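/-
JAC brick (BC) of COORD #3 (general base-change lemma), sections form.  Owner: helper85.

For a commutative square of schemes with open immersions `j`, `j'`

    Spec R' --j'--> X'
      | Spec φ       | f
      v              v
    Spec R  --j-->  X

and `L : X.Modules` with `L|_j` quasi-coherent, the map
`Γ(L, V) → Γ(f^* L, V')` (`V = range j`, `V' = range j'`; unit of `f^* ⊣ f_*`, then restriction)
is a base change along `φ`:

* `bcMap_apply`: elementwise formula for `BaseChange85.bcMap`;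
* `existsUnique_secBC`, `existsUnique_of_chart`, `existsUnique_of_opensRange`: elementary universal
  property (additive maps + semilinearity conditions);
* `existsUnique_of_isAffineOpen`, `isBaseChangeHom_sectionsMap`: for affine opens `V ⊆ X`,
  `V' ⊆ f⁻¹ V` and quasi-coherent `L`, `sectionsMapₛₗ f L hle : Γ(L, V) →ₛₗ[f.appLE V V'] Γ(f^* L, V')`
  is a `Cart36.IsBaseChangeHom`.
-/
import Fermat.Agent.JAC.Bridge.BaseChange85
import Fermat.Agent.JAC.Core.Cart36

set_option autoImplicit false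
universe u
open CategoryTheory CategoryTheory.Limits AlgebraicGeometry

namespace Fermat.Agent.JAC.Bridge.BaseChangeSec85
open Fermat.Agent.JAC.Bridge.BaseChange85

section Chart

variable {R : CommRingCat.{u}} {X : Scheme.{u}} (j : Spec R ⟶ X) [IsOpenImmersion j]
  (L : X.Modules)

/-- The `R`-module structure on `Γ(L|_j, ⊤) = Γ(L, j ''ᵁ ⊤)` in terms of the
`Γ(X, j ''ᵁ ⊤)`-module structure. -/
theorem smul_restrict_top (r : R) (x : Γ(L.restrict j, ⊤)) :
    (r • x : Γ(L.restrict j, ⊤)) =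
      ((j.appIso ⊤).inv ((Scheme.ΓSpecIso R).inv r) • (show Γ(L, j ''ᵁ ⊤) from x) :
        Γ(L, j ''ᵁ ⊤)) := by
  rw [Scheme.Modules.smul_Spec_def]
  have h : (Spec R).presheaf.map (⊤ : (Spec R).Opens).leTop.op = 𝟙 _ :=
    (Spec R).presheaf.map_id _
  rw [h]
  rfl

/-- A ring map `ρ : R → Γ(X, j ''ᵁ ⊤)` compatible with `j` is the canonical one. -/
theorem eq_appIso_inv_of_app_eq (ρ : R →+* Γ(X, j ''ᵁ ⊤))
    (hρ : ∀ r, j.app (j ''ᵁ ⊤) (ρ r) =
      (Spec R).presheaf.map (homOfLE le_top).op ((Scheme.ΓSpecIso R).inv r)) (r : R) :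
    ρ r = (j.appIso ⊤).inv ((Scheme.ΓSpecIso R).inv r) := by
  have h1 : (j.appIso ⊤).hom (ρ r) = (Scheme.ΓSpecIso R).inv r := by
    rw [Scheme.Hom.appIso_hom, CommRingCat.comp_apply, hρ, ← CommRingCat.comp_apply,
      ← Functor.map_comp]
    have : ((homOfLE le_top : j ⁻¹ᵁ (j ''ᵁ ⊤) ⟶ ⊤).op ≫
        (eqToHom (j.preimage_image_eq ⊤).symm).op) = 𝟙 _ := Subsingleton.elim _ _
    rw [this, CategoryTheory.Functor.map_id]
    rfl
  rw [← h1, ← CommRingCat.comp_apply, Iso.hom_inv_id]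
  rfl

end Chart

section Main

variable {X X' : Scheme.{u}} (f : X' ⟶ X) {R R' : CommRingCat.{u}} (φ : R ⟶ R')
  (j : Spec R ⟶ X) (j' : Spec R' ⟶ X') [IsOpenImmersion j] [IsOpenImmersion j']
  (sq : j' ≫ f = Spec.map φ ≫ j) (L : X.Modules)

include sq in
omit [IsOpenImmersion j] [IsOpenImmersion j'] in
theorem preimage_sq (U : X.Opens) : Spec.map φ ⁻¹ᵁ (j ⁻¹ᵁ U) = j' ⁻¹ᵁ (f ⁻¹ᵁ U) := by
  change (Spec.map φ ≫ j) ⁻¹ᵁ U = (j' ≫ f) ⁻¹ᵁ U
  rw [sq]

include sq in
theorem image_top_le : j' ''ᵁ ⊤ ≤ f ⁻¹ᵁ (j ''ᵁ ⊤) := by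
  have h1 : j' ''ᵁ (j' ⁻¹ᵁ (f ⁻¹ᵁ (j ''ᵁ ⊤))) ≤ f ⁻¹ᵁ (j ''ᵁ ⊤) := j'.image_preimage_le _
  have h2 : j' ⁻¹ᵁ (f ⁻¹ᵁ (j ''ᵁ ⊤)) = ⊤ := by
    rw [← preimage_sq f φ j j' sq, j.preimage_image_eq]
    rfl
  rw [h2] at h1
  exact h1

theorem map_map_apply (M' : X'.Modules) {U V W : X'.Opens} (a : U ⟶ V) (b : V ⟶ W)
    (y : Γ(M', W)) :
    M'.presheaf.map a.op (M'.presheaf.map b.op y) = M'.presheaf.map (a ≫ b).op y := by
  rw [op_comp, Functor.map_comp]
  rfl

/-- Elementwise description of `bcMap`: the unit of `f^* ⊣ f_*` followed by restriction. -/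
theorem bcMap_apply (x : Γ(L.restrict j, ⊤)) :
    (bcMap f φ j j' sq L).hom x =
      ((Scheme.Modules.pullback f).obj L).presheaf.map (homOfLE (image_top_le f φ j j' sq)).op
        (((Scheme.Modules.pullbackPushforwardAdjunction f).unit.app L).app (j ''ᵁ ⊤) x) := by
  let M' := (Scheme.Modules.pullback f).obj L
  let W : X'.Opens := f ⁻¹ᵁ (j ''ᵁ ⊤)
  let y1 : Γ(M', W) := ((Scheme.Modules.pullbackPushforwardAdjunction f).unit.app L).app (j ''ᵁ ⊤) x
  let a2 : j' ''ᵁ (j' ⁻¹ᵁ W) ⟶ W := homOfLE (j'.image_preimage_le W)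
  let a3 : j' ''ᵁ (Spec.map φ ⁻¹ᵁ (j ⁻¹ᵁ (j ''ᵁ ⊤))) ⟶ j' ''ᵁ (j' ⁻¹ᵁ W) :=
    j'.opensFunctor.map (eqToHom (preimage_sq f φ j j' sq (j ''ᵁ ⊤)))
  let a4 : j' ''ᵁ (Spec.map φ ⁻¹ᵁ ⊤) ⟶ j' ''ᵁ (Spec.map φ ⁻¹ᵁ (j ⁻¹ᵁ (j ''ᵁ ⊤))) :=
    j'.opensFunctor.map ((TopologicalSpace.Opens.map (Spec.map φ).base).map
      (eqToHom (j.preimage_image_eq ⊤).symm))
  have key : (bcMap f φ j j' sq L).hom x =
      M'.presheaf.map a4.op (M'.presheaf.map a3.op (M'.presheaf.map a2.op y1)) := by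
    unfold bcMap bcSheafMap
    rw [Adjunction.homEquiv_counit]
    rfl
  rw [key, map_map_apply, map_map_apply]
  rfl

/-- The base change map on sections `Γ(L, j ''ᵁ ⊤) → Γ(f^* L, j' ''ᵁ ⊤)`: the unit of
`f^* ⊣ f_*` followed by restriction. -/
noncomputable def secBC :
    Γ(L, j ''ᵁ ⊤) →+ Γ((Scheme.Modules.pullback f).obj L, j' ''ᵁ ⊤) :=
  (((Scheme.Modules.pullback f).obj L).presheaf.map
      (homOfLE (image_top_le f φ j j' sq)).op).hom.comp
    (((Scheme.Modules.pullbackPushforwardAdjunction f).unit.app L).app (j ''ᵁ ⊤)).hom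

theorem secBC_apply (x : Γ(L, j ''ᵁ ⊤)) :
    secBC f φ j j' sq L x = (bcMap f φ j j' sq L).hom x :=
  (bcMap_apply f φ j j' sq L x).symm

/-- `secBC` is semilinear over `φ` for the canonical module structures. -/
theorem secBC_smul (r : R) (x : Γ(L, j ''ᵁ ⊤)) :
    secBC f φ j j' sq L ((j.appIso ⊤).inv ((Scheme.ΓSpecIso R).inv r) • x) =
      (j'.appIso ⊤).inv ((Scheme.ΓSpecIso R').inv (φ r)) • secBC f φ j j' sq L x := by
  rw [secBC_apply, secBC_apply]
  have h0 : ((j.appIso ⊤).inv ((Scheme.ΓSpecIso R).inv r) • x : Γ(L, j ''ᵁ ⊤)) =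
      (r • (show Γ(L.restrict j, ⊤) from x) : Γ(L.restrict j, ⊤)) :=
    (smul_restrict_top j L r x).symm
  rw [h0]
  refine ((bcMap f φ j j' sq L).hom.map_smul r _).trans ?_
  exact smul_restrict_top j' ((Scheme.Modules.pullback f).obj L) (φ r) _

/-- **(BC), elementary form.**  If `L|_j` is quasi-coherent, `secBC` exhibits `Γ(f^* L, j' ''ᵁ ⊤)`
as the base change of `Γ(L, j ''ᵁ ⊤)` along `φ`: every additive map `g` out of `Γ(L, j ''ᵁ ⊤)`
into an `R'`-module `Q` which is `φ`-semilinear factors uniquely through `secBC` by an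
`R'`-linear map.  (Module structures over `R`, `R'`: through the canonical isomorphisms
`R ≅ Γ(Spec R, ⊤) ≅ Γ(X, j ''ᵁ ⊤)`.) -/
theorem existsUnique_secBC [IsIso (L.restrict j).fromTildeΓ]
    (Q : Type u) [AddCommGroup Q] [Module R' Q] (g : Γ(L, j ''ᵁ ⊤) →+ Q)
    (hg : ∀ (r : R) (x : Γ(L, j ''ᵁ ⊤)),
      g ((j.appIso ⊤).inv ((Scheme.ΓSpecIso R).inv r) • x) = φ r • g x) :
    ∃! g' : Γ((Scheme.Modules.pullback f).obj L, j' ''ᵁ ⊤) →+ Q,
      (∀ (r' : R') (y : Γ((Scheme.Modules.pullback f).obj L, j' ''ᵁ ⊤)),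
        g' ((j'.appIso ⊤).inv ((Scheme.ΓSpecIso R').inv r') • y) = r' • g' y) ∧
      ∀ x, g' (secBC f φ j j' sq L x) = g x := by
  let P := moduleSpecΓFunctor.obj (L.restrict j)
  let P' := moduleSpecΓFunctor.obj (pullbackRestrict f j' L)
  let Qm : ModuleCat.{u} R' := ModuleCat.of R' Q
  -- `g` as a morphism of `R`-modules
  let ghat : P ⟶ (ModuleCat.restrictScalars φ.hom).obj Qm :=
    ModuleCat.ofHom (X := P) (Y := (ModuleCat.restrictScalars φ.hom).obj Qm)
      { toFun := fun x => g x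
        map_add' := fun x y => g.map_add x y
        map_smul' := fun r x => by
          have h := hg r x
          rw [← smul_restrict_top j L r x] at h
          exact h }
  obtain ⟨g0, hg0, huniq⟩ := existsUnique_bcMap_comp f φ j j' sq L Qm ghat
  -- from additive maps to morphisms
  have mk : ∀ (g' : Γ((Scheme.Modules.pullback f).obj L, j' ''ᵁ ⊤) →+ Q),
      (∀ (r' : R') (y : Γ((Scheme.Modules.pullback f).obj L, j' ''ᵁ ⊤)),
        g' ((j'.appIso ⊤).inv ((Scheme.ΓSpecIso R').inv r') • y) = r' • g' y) →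
      ∃ G : P' ⟶ Qm, ∀ y, G.hom y = g' y := by
    intro g' hl
    refine ⟨ModuleCat.ofHom (X := P') (Y := Qm)
      { toFun := fun y => g' y
        map_add' := fun x y => g'.map_add x y
        map_smul' := fun r' y => ?_ }, fun y => rfl⟩
    have h := hl r' y
    rw [← smul_restrict_top j' ((Scheme.Modules.pullback f).obj L) r' y] at h
    exact h
  refine ⟨(g0.hom : P' →ₗ[R'] Q).toAddMonoidHom, ⟨fun r' y => ?_, fun x => ?_⟩, ?_⟩
  · have h := (g0.hom : P' →ₗ[R'] Q).map_smul r' y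
    exact (congrArg (g0.hom : P' →ₗ[R'] Q)
      (smul_restrict_top j' ((Scheme.Modules.pullback f).obj L) r' y).symm).trans h
  · rw [secBC_apply]
    exact congrArg (fun m => m.hom x) hg0
  · rintro g' ⟨hl, hc⟩
    obtain ⟨G, hG⟩ := mk g' hl
    have hGg : G = g0 := by
      apply huniq
      ext x
      change G.hom ((bcMap f φ j j' sq L).hom x) = g x
      exact (hG _).trans ((congrArg g' (secBC_apply f φ j j' sq L x).symm).trans (hc x))
    ext y
    rw [← hG y, hGg]
    rfl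

include sq in
/-- **(BC), elementary form for arbitrary names of the opens and of the ring maps.**
`V = j ''ᵁ ⊤`, `V' = j' ''ᵁ ⊤`; the module structures over `R`, `R'` are given through ring maps
`ρ : R → Γ(X, V)`, `ρ' : R' → Γ(X', V')` compatible with the charts. -/
theorem existsUnique_of_chart [IsIso (L.restrict j).fromTildeΓ]
    {V : X.Opens} {V' : X'.Opens} (hV : j ''ᵁ ⊤ = V) (hV' : j' ''ᵁ ⊤ = V')
    (ρ : R →+* Γ(X, V)) (ρ' : R' →+* Γ(X', V'))
    (hρ : ∀ r, j.app V (ρ r) =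
      (Spec R).presheaf.map (homOfLE le_top).op ((Scheme.ΓSpecIso R).inv r))
    (hρ' : ∀ r, j'.app V' (ρ' r) =
      (Spec R').presheaf.map (homOfLE le_top).op ((Scheme.ΓSpecIso R').inv r))
    (hle : V' ≤ f ⁻¹ᵁ V)
    (Q : Type u) [AddCommGroup Q] [Module R' Q] (g : Γ(L, V) →+ Q)
    (hg : ∀ (r : R) (x : Γ(L, V)), g (ρ r • x) = φ r • g x) :
    ∃! g' : Γ((Scheme.Modules.pullback f).obj L, V') →+ Q,
      (∀ (r' : R') (y : Γ((Scheme.Modules.pullback f).obj L, V')),
        g' (ρ' r' • y) = r' • g' y) ∧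
      ∀ x, g' (((Scheme.Modules.pullback f).obj L).presheaf.map (homOfLE hle).op
        (((Scheme.Modules.pullbackPushforwardAdjunction f).unit.app L).app V x)) = g x := by
  subst hV hV'
  have e := eq_appIso_inv_of_app_eq j ρ hρ
  have e' := eq_appIso_inv_of_app_eq j' ρ' hρ'
  simp only [e] at hg
  simp only [e']
  exact existsUnique_secBC f φ j j' sq L Q g hg

include sq in
/-- Semilinearity of the base change map on sections, for arbitrary names of the opens and of
the ring maps. -/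
theorem map_smul_of_chart
    {V : X.Opens} {V' : X'.Opens} (hV : j ''ᵁ ⊤ = V) (hV' : j' ''ᵁ ⊤ = V')
    (ρ : R →+* Γ(X, V)) (ρ' : R' →+* Γ(X', V'))
    (hρ : ∀ r, j.app V (ρ r) =
      (Spec R).presheaf.map (homOfLE le_top).op ((Scheme.ΓSpecIso R).inv r))
    (hρ' : ∀ r, j'.app V' (ρ' r) =
      (Spec R').presheaf.map (homOfLE le_top).op ((Scheme.ΓSpecIso R').inv r))
    (hle : V' ≤ f ⁻¹ᵁ V) (r : R) (x : Γ(L, V)) :
    ((Scheme.Modules.pullback f).obj L).presheaf.map (homOfLE hle).op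
        (((Scheme.Modules.pullbackPushforwardAdjunction f).unit.app L).app V (ρ r • x)) =
      ρ' (φ r) • ((Scheme.Modules.pullback f).obj L).presheaf.map (homOfLE hle).op
        (((Scheme.Modules.pullbackPushforwardAdjunction f).unit.app L).app V x) := by
  subst hV hV'
  rw [eq_appIso_inv_of_app_eq j ρ hρ, eq_appIso_inv_of_app_eq j' ρ' hρ']
  exact secBC_smul f φ j j' sq L r x

end Main

section AffineOpen

variable {X X' : Scheme.{u}} (f : X' ⟶ X) (L : X.Modules)
  {V : X.Opens} {V' : X'.Opens}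

/-- The base change map on sections over opens `V' ≤ f ⁻¹ᵁ V`: the unit of `f^* ⊣ f_*` followed by
restriction. -/
noncomputable def sectionsMap (hle : V' ≤ f ⁻¹ᵁ V) :
    Γ(L, V) →+ Γ((Scheme.Modules.pullback f).obj L, V') :=
  (((Scheme.Modules.pullback f).obj L).presheaf.map (homOfLE hle).op).hom.comp
    (((Scheme.Modules.pullbackPushforwardAdjunction f).unit.app L).app V).hom

/-- **(BC) for affine opens, elementary form.**  `L` quasi-coherent on `X`, `V ⊆ X` and
`V' ⊆ f⁻¹ V` affine opens.  Then `Γ(L, V) → Γ(f^* L, V')` is a base change along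
`Γ(X, V) → Γ(X', V')`. -/
theorem existsUnique_of_isAffineOpen [L.IsQuasicoherent] (hV : IsAffineOpen V)
    (hV' : IsAffineOpen V') (hle : V' ≤ f ⁻¹ᵁ V)
    (Q : Type u) [AddCommGroup Q] [Module Γ(X', V') Q] (g : Γ(L, V) →+ Q)
    (hg : ∀ (r : Γ(X, V)) (x : Γ(L, V)), g (r • x) = f.appLE V V' hle r • g x) :
    ∃! g' : Γ((Scheme.Modules.pullback f).obj L, V') →+ Q,
      (∀ (r' : Γ(X', V')) (y : Γ((Scheme.Modules.pullback f).obj L, V')),
        g' (r' • y) = r' • g' y) ∧
      ∀ x, g' (sectionsMap f L hle x) = g x := by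
  have := isIso_fromTildeΓ_restrict_of_isQuasicoherent hV.fromSpec L
  have hρ : ∀ {Y : Scheme.{u}} {W : Y.Opens} (hW : IsAffineOpen W) (r : Γ(Y, W)),
      hW.fromSpec.app W (RingHom.id _ r) =
        (Spec Γ(Y, W)).presheaf.map (homOfLE le_top).op ((Scheme.ΓSpecIso Γ(Y, W)).inv r) := by
    intro Y W hW r
    rw [hW.fromSpec_app_self]
    rfl
  exact existsUnique_of_chart f (f.appLE V V' hle) hV.fromSpec hV'.fromSpec
    (IsAffineOpen.SpecMap_appLE_fromSpec f hV hV' hle).symm L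
    (by rw [Scheme.Hom.image_top_eq_opensRange, hV.opensRange_fromSpec])
    (by rw [Scheme.Hom.image_top_eq_opensRange, hV'.opensRange_fromSpec])
    (RingHom.id _) (RingHom.id _) (hρ hV) (hρ hV') hle Q g hg

/-- `sectionsMap` is semilinear over `f.appLE V V'`. -/
theorem sectionsMap_smul (hle : V' ≤ f ⁻¹ᵁ V) (r : Γ(X, V)) (x : Γ(L, V)) :
    sectionsMap f L hle (r • x) = f.appLE V V' hle r • sectionsMap f L hle x := by
  unfold sectionsMap
  have h1 := Scheme.Modules.Hom.app_smul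
    ((Scheme.Modules.pullbackPushforwardAdjunction f).unit.app L) r x
  have h2 := Scheme.Modules.map_smul ((Scheme.Modules.pullback f).obj L) (homOfLE hle)
    (f.app V r) (((Scheme.Modules.pullbackPushforwardAdjunction f).unit.app L).app V x)
  exact (congrArg _ h1).trans h2

/-- `sectionsMap` as a semilinear map. -/
noncomputable def sectionsMapₛₗ (hle : V' ≤ f ⁻¹ᵁ V) :
    Γ(L, V) →ₛₗ[(f.appLE V V' hle).hom] Γ((Scheme.Modules.pullback f).obj L, V') where
  toFun := sectionsMap f L hle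
  map_add' := (sectionsMap f L hle).map_add
  map_smul' := sectionsMap_smul f L hle

@[simp] theorem sectionsMapₛₗ_apply (hle : V' ≤ f ⁻¹ᵁ V) (x : Γ(L, V)) :
    sectionsMapₛₗ f L hle x = sectionsMap f L hle x := rfl

/-- **(BC) for affine opens** in the form of `Cart36.IsBaseChangeHom`. -/
theorem isBaseChangeHom_sectionsMap [L.IsQuasicoherent] (hV : IsAffineOpen V)
    (hV' : IsAffineOpen V') (hle : V' ≤ f ⁻¹ᵁ V) :
    Core.Cart36.IsBaseChangeHom (sectionsMapₛₗ f L hle) := by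
  intro Q _ _ g
  obtain ⟨g0, ⟨hl0, hc0⟩, huniq⟩ := existsUnique_of_isAffineOpen f L hV hV' hle Q g.toAddMonoidHom
    (fun r x => g.map_smulₛₗ r x)
  refine ⟨{ toFun := g0, map_add' := g0.map_add, map_smul' := hl0 }, fun x => hc0 x, ?_⟩
  intro g1 hg1
  have := huniq g1.toAddMonoidHom ⟨fun r' y => g1.map_smul r' y, fun x => hg1 x⟩
  ext y
  exact congrArg (fun m : _ →+ Q => m y) this

/-- Invertible version. -/
theorem isBaseChangeHom_sectionsMap_of_isInvertible (hL : Scheme.Modules.IsInvertible L)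
    (hV : IsAffineOpen V) (hV' : IsAffineOpen V') (hle : V' ≤ f ⁻¹ᵁ V) :
    Core.Cart36.IsBaseChangeHom (sectionsMapₛₗ f L hle) := by
  have := Mod.Affine36.isQuasicoherent_of_isInvertible L hL
  exact isBaseChangeHom_sectionsMap f L hV hV' hle

end AffineOpen

section OpensRange

variable {X X' : Scheme.{u}} (f : X' ⟶ X) {R R' : CommRingCat.{u}} (φ : R ⟶ R')
  (j : Spec R ⟶ X) (j' : Spec R' ⟶ X') [IsOpenImmersion j] [IsOpenImmersion j']
  (sq : j' ≫ f = Spec.map φ ≫ j) (L : X.Modules)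

theorem ΓIsoTop_hom_app {X Y : Scheme.{u}} (j : Y ⟶ X) [IsOpenImmersion j] :
    (IsOpenImmersion.ΓIsoTop j).hom ≫ j.app j.opensRange =
      Y.presheaf.map (homOfLE le_top).op := by
  unfold IsOpenImmersion.ΓIsoTop
  simp only [Iso.trans_hom, Iso.symm_hom, Functor.mapIso_hom, Iso.op_hom, eqToIso.hom,
    Category.assoc]
  rw [Scheme.Hom.naturality, ← Category.assoc, Scheme.Hom.appIso_inv_app, ← Functor.map_comp]
  congr 1

/-- The canonical identification `R ≅ Γ(X, j.opensRange)` for a chart `j : Spec R ⟶ X`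
(this is `ChartCover57.sectionsIso` for `j = chartMap ..`). -/
noncomputable def chartSectionsIso : R ≅ Γ(X, j.opensRange) :=
  (Scheme.ΓSpecIso R).symm ≪≫ IsOpenImmersion.ΓIsoTop j

theorem app_chartSectionsIso_hom (r : R) :
    j.app j.opensRange ((chartSectionsIso j).hom r) =
      (Spec R).presheaf.map (homOfLE le_top).op ((Scheme.ΓSpecIso R).inv r) := by
  have h := ΓIsoTop_hom_app j
  exact congr($h ((Scheme.ΓSpecIso R).inv r))

include sq in
theorem opensRange_le : j'.opensRange ≤ f ⁻¹ᵁ j.opensRange := by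
  rw [← Scheme.Hom.image_top_eq_opensRange, ← Scheme.Hom.image_top_eq_opensRange]
  exact image_top_le f φ j j' sq

/-- **(BC) for charts, `opensRange` form.**  Module structures over `R`, `R'` through
`chartSectionsIso`. -/
theorem existsUnique_of_opensRange [IsIso (L.restrict j).fromTildeΓ]
    (Q : Type u) [AddCommGroup Q] [Module R' Q] (g : Γ(L, j.opensRange) →+ Q)
    (hg : ∀ (r : R) (x : Γ(L, j.opensRange)),
      g ((chartSectionsIso j).hom r • x) = φ r • g x) :
    ∃! g' : Γ((Scheme.Modules.pullback f).obj L, j'.opensRange) →+ Q,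
      (∀ (r' : R') (y : Γ((Scheme.Modules.pullback f).obj L, j'.opensRange)),
        g' ((chartSectionsIso j').hom r' • y) = r' • g' y) ∧
      ∀ x, g' (sectionsMap f L (opensRange_le f φ j j' sq) x) = g x :=
  existsUnique_of_chart f φ j j' sq L j.image_top_eq_opensRange j'.image_top_eq_opensRange
    (chartSectionsIso j).hom.hom (chartSectionsIso j').hom.hom
    (app_chartSectionsIso_hom j) (app_chartSectionsIso_hom j')
    (opensRange_le f φ j j' sq) Q g hg

/-- `sectionsMap` between chart ranges is semilinear over `φ` (through `chartSectionsIso`). -/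
theorem sectionsMap_chart_smul (r : R) (x : Γ(L, j.opensRange)) :
    sectionsMap f L (opensRange_le f φ j j' sq) ((chartSectionsIso j).hom r • x) =
      (chartSectionsIso j').hom (φ r) • sectionsMap f L (opensRange_le f φ j j' sq) x :=
  map_smul_of_chart f φ j j' sq L j.image_top_eq_opensRange j'.image_top_eq_opensRange
    (chartSectionsIso j).hom.hom (chartSectionsIso j').hom.hom
    (app_chartSectionsIso_hom j) (app_chartSectionsIso_hom j')
    (opensRange_le f φ j j' sq) r x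

end OpensRange

end Fermat.Agent.JAC.Bridge.BaseChangeSec85
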