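import Mathlib
import Fermat.Prelude.Def_AlgebraicGeometry_RelativePicardFunctor
import Fermat.Agent.JAC.Core.Defs36
import Fermat.Agent.JAC.Mod.AffineInv85
import Fermat.Agent.JAC.Glue.InvStab23

/-!
# Programme JAC, chapter Bridge (B3.1, abstract two-chart form): sheaf ↦ line diagram

Setting: `X` a scheme, `R0 R1 R01 : CommRingCat` with `[Algebra R0 R01] [Algebra R1 R01]`, charts
(affine opens given as immersions) `j0 : Spec R0 ⟶ X`, `j1 : Spec R1 ⟶ X`, `j01 : Spec R01 ⟶ X`
with `Spec (algebraMap R_i R01) ≫ j_i = j01`, and `t : R0`, `s : R1` with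
`IsLocalization.Away t R01`, `IsLocalization.Away s R01`.

For an invertible `L : X.Modules` we build `diag … L hL : Core.Defs36.LineDiag t s R01` with
`M_i := Γ(L.restrict j_i, ⊤)` (Mathlib's `R_i`-module structure for modules on `Spec R_i`, i.e. the
carrier of `moduleSpecΓFunctor.obj (L.restrict j_i)`), `rho_i` := restriction of sections of `L`
from `range j_i` to `range j01`.

* `chartSec j : R ≅ Γ(X, range j)`, `restrictAppIso_smul_chart` (the `R`-action on sections of
  `M.restrict j` is the action through `chartSec`), `map_chartSec` (nested charts);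
* `resChart`, `resChart_smul` (semilinearity along `ψ : R ⟶ R'`), `resChartₗ`, `rho`;
* `isLocalizedModule_rho`: for quasi-coherent `M` the map `rho` is the localisation at the powers
  of `t`;
* `secMap`, `secEquiv`, `rho_secMap`: functoriality in the module;
* `diag`, `diag_rho0_apply`, `diag_rho1_apply`, `diagIso`, `diagClass`, `diagClass_eq_of_iso`.
-/

set_option autoImplicit false

universe u

open CategoryTheory AlgebraicGeometry TopologicalSpace Opposite

namespace Fermat.Agent.JAC.Bridge.TwoChartDiag4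

variable {X : Scheme.{u}}

section ChartSec

variable {R : CommRingCat.{u}} (j : Spec R ⟶ X) [IsOpenImmersion j]

/-- The ring isomorphism `R ≅ Γ(X, range j)` of an affine chart `j : Spec R ⟶ X`. -/
noncomputable def chartSec : R ≅ Γ(X, j.opensRange) :=
  (Scheme.ΓSpecIso R).symm ≪≫ IsOpenImmersion.ΓIsoTop j

theorem ΓIsoTop_inv_eq_appLE :
    (IsOpenImmersion.ΓIsoTop j).inv = j.appLE j.opensRange ⊤ (by simp) := by
  rw [IsOpenImmersion.ΓIsoTop]
  simp only [Iso.trans_inv, Functor.mapIso_inv, Iso.symm_inv, Scheme.Hom.appIso_hom',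
    Scheme.Hom.map_appLE]

theorem chartSec_inv : (chartSec j).inv =
    j.appLE j.opensRange ⊤ (by simp) ≫ (Scheme.ΓSpecIso R).hom := by
  rw [chartSec, Iso.trans_inv, ΓIsoTop_inv_eq_appLE]
  rfl

variable (M : X.Modules)

/-- The `R`-action on sections of `M.restrict j` (Mathlib's module structure for modules on
`Spec R`) is the action of `Γ(X, range j)` through `chartSec j` and restriction. -/
theorem restrictAppIso_smul_chart (U : (Spec R).Opens) (r : R) (x : Γ(M.restrict j, U)) :
    (M.restrictAppIso j U).hom (r • x) =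
      X.presheaf.map (homOfLE (j.image_le_opensRange U)).op ((chartSec j).hom r) •
        (M.restrictAppIso j U).hom x := by
  rw [Scheme.Modules.smul_Spec_def, Scheme.Modules.smul_restrictAppIso_hom_apply]
  congr 1
  have h := j.appIso_inv_naturality (Opens.leTop U).op
  have h2 := congr($h ((Scheme.ΓSpecIso R).inv r))
  refine h2.trans ?_
  simp only [chartSec, IsOpenImmersion.ΓIsoTop, Iso.trans_hom, Iso.symm_hom, Functor.mapIso_hom,
    CommRingCat.comp_apply]
  generalize (ConcreteCategory.hom (Scheme.Hom.appIso j ⊤).inv)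
    ((ConcreteCategory.hom (Scheme.ΓSpecIso R).inv) r) = z
  rw [← CommRingCat.comp_apply (X.presheaf.map _) (X.presheaf.map _), ← Functor.map_comp]
  rfl

end ChartSec

section TwoCharts

variable {R R' : CommRingCat.{u}} (j : Spec R ⟶ X) (j' : Spec R' ⟶ X)
  [IsOpenImmersion j] [IsOpenImmersion j'] (ψ : R ⟶ R') (h : Spec.map ψ ≫ j = j')

include h in
theorem opensRange_le_of_comp : j'.opensRange ≤ j.opensRange := by
  subst h
  rintro x ⟨y, rfl⟩
  exact ⟨Spec.map ψ y, rfl⟩

include h in
/-- Compatibility of the chart isomorphisms `R ≅ Γ(X, range j)` for two nested charts. -/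
theorem map_chartSec (r : R) :
    X.presheaf.map (homOfLE (opensRange_le_of_comp j j' ψ h)).op ((chartSec j).hom r) =
      (chartSec j').hom (ψ r) := by
  have key : X.presheaf.map (homOfLE (opensRange_le_of_comp j j' ψ h)).op ≫ (chartSec j').inv =
      (chartSec j).inv ≫ ψ := by
    subst h
    rw [chartSec_inv, chartSec_inv, Scheme.Hom.map_appLE_assoc, Category.assoc,
      ← Scheme.ΓSpecIso_naturality, ← Category.assoc]
    congr 1
  have e1 : (chartSec j').inv (X.presheaf.map
      (homOfLE (opensRange_le_of_comp j j' ψ h)).op ((chartSec j).hom r)) =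
      ψ ((chartSec j).inv ((chartSec j).hom r)) := congr($key ((chartSec j).hom r))
  rw [Iso.hom_inv_id_apply] at e1
  rw [← e1, Iso.inv_hom_id_apply]

variable (M : X.Modules)

/-- The restriction map of `M` between sections over (images of) opens of two charts. -/
noncomputable def resChart (U : (Spec R).Opens) (U' : (Spec R').Opens)
    (hle : j' ''ᵁ U' ≤ j ''ᵁ U) (x : Γ(M.restrict j, U)) : Γ(M.restrict j', U') :=
  (M.restrictAppIso j' U').inv (M.presheaf.map (homOfLE hle).op ((M.restrictAppIso j U).hom x))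

theorem resChart_add (U : (Spec R).Opens) (U' : (Spec R').Opens)
    (hle : j' ''ᵁ U' ≤ j ''ᵁ U) (x y : Γ(M.restrict j, U)) :
    resChart j j' M U U' hle (x + y) = resChart j j' M U U' hle x + resChart j j' M U U' hle y := by
  simp only [resChart, map_add]

include h in
/-- **Semilinearity** of the restriction between two nested charts. -/
theorem resChart_smul (U : (Spec R).Opens) (U' : (Spec R').Opens)
    (hle : j' ''ᵁ U' ≤ j ''ᵁ U) (r : R) (x : Γ(M.restrict j, U)) :
    resChart j j' M U U' hle (r • x) = (ψ r) • resChart j j' M U U' hle x := by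
  have hinj : Function.Injective (M.restrictAppIso j' U').hom := by
    intro a b hab
    have := congr((M.restrictAppIso j' U').inv $hab)
    simpa using this
  apply hinj
  rw [restrictAppIso_smul_chart j' M U' (ψ r)]
  simp only [resChart, Iso.inv_hom_id_apply]
  rw [restrictAppIso_smul_chart j M U r, M.map_smul]
  congr 1
  rw [← map_chartSec j j' ψ h r]
  rw [← CommRingCat.comp_apply (X.presheaf.map _) (X.presheaf.map _), ← Functor.map_comp,
    ← CommRingCat.comp_apply (X.presheaf.map _) (X.presheaf.map _), ← Functor.map_comp]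
  rfl

end TwoCharts

section OneSide

variable {R R' : CommRingCat.{u}} [Algebra R R']
  (j : Spec R ⟶ X) (j' : Spec R' ⟶ X)
  [IsOpenImmersion j] [IsOpenImmersion j']
  (h : Spec.map (CommRingCat.ofHom (algebraMap R R')) ≫ j = j') (M : X.Modules)

/-- Sections of `M.restrict j'` as a module over the smaller ring `R` (restriction of scalars along
`algebraMap R R'`).  Not an instance: use `letI := moduleLow j' M U'`. -/
@[reducible] noncomputable def moduleLow (U' : (Spec R').Opens) :
    Module R Γ(M.restrict j', U') :=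
  Module.compHom Γ(M.restrict j', U') (algebraMap R R')

theorem moduleLow_smul_def (U' : (Spec R').Opens) (r : R)
    (x : Γ(M.restrict j', U')) :
    letI := moduleLow (R := R) j' M U'
    r • x = algebraMap R R' r • x :=
  rfl

theorem isScalarTower_moduleLow (U' : (Spec R').Opens) :
    letI := moduleLow (R := R) j' M U'
    IsScalarTower R R' Γ(M.restrict j', U') :=
  letI := moduleLow (R := R) j' M U'
  ⟨fun r r' x => by
    rw [Algebra.smul_def, mul_smul]
    rfl⟩

/-- The restriction between two nested charts as an `R`-linear map. -/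
noncomputable def resChartₗ (U : (Spec R).Opens)
    (U' : (Spec R').Opens) (hle : j' ''ᵁ U' ≤ j ''ᵁ U) :
    letI := moduleLow (R := R) j' M U'
    Γ(M.restrict j, U) →ₗ[R] Γ(M.restrict j', U') :=
  letI := moduleLow (R := R) j' M U'
  { toFun := resChart j j' M U U' hle
    map_add' := resChart_add j j' M U U' hle
    map_smul' := fun r x => resChart_smul j j' (CommRingCat.ofHom (algebraMap R R')) h M U U' hle r x }

theorem resChartₗ_apply (U : (Spec R).Opens)
    (U' : (Spec R').Opens) (hle : j' ''ᵁ U' ≤ j ''ᵁ U) (x : Γ(M.restrict j, U)) :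
    letI := moduleLow (R := R) j' M U'
    resChartₗ j j' h M U U' hle x = resChart j j' M U U' hle x :=
  rfl

omit [Algebra R R'] in
theorem resChart_bijective_of_eq (U : (Spec R).Opens)
    (U' : (Spec R').Opens) (heq : j' ''ᵁ U' = j ''ᵁ U) :
    Function.Bijective (resChart j j' M U U' heq.le) := by
  have h1 : ∀ y, M.presheaf.map (homOfLE heq.le).op (M.presheaf.map (homOfLE heq.ge).op y) = y := by
    intro y
    rw [← ConcreteCategory.comp_apply, ← Functor.map_comp]
    have : (homOfLE heq.ge).op ≫ (homOfLE heq.le).op = 𝟙 _ := Subsingleton.elim _ _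
    rw [this, M.presheaf.map_id]
    rfl
  have h2 : ∀ y, M.presheaf.map (homOfLE heq.ge).op (M.presheaf.map (homOfLE heq.le).op y) = y := by
    intro y
    rw [← ConcreteCategory.comp_apply, ← Functor.map_comp]
    have : (homOfLE heq.le).op ≫ (homOfLE heq.ge).op = 𝟙 _ := Subsingleton.elim _ _
    rw [this, M.presheaf.map_id]
    rfl
  refine Function.bijective_iff_has_inverse.mpr
    ⟨fun y => (M.restrictAppIso j U).inv (M.presheaf.map (homOfLE heq.ge).op
      ((M.restrictAppIso j' U').hom y)), ?_, ?_⟩
  · intro x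
    simp only [resChart, Iso.inv_hom_id_apply, h2, Iso.hom_inv_id_apply]
  · intro y
    simp only [resChart, Iso.inv_hom_id_apply, h1, Iso.hom_inv_id_apply]

theorem opensRange_specMap_away (t : R) [IsLocalization.Away t R'] :
    haveI := IsOpenImmersion.of_isLocalization (S := R') t
    Scheme.Hom.opensRange (Spec.map (CommRingCat.ofHom (algebraMap R R'))) =
      PrimeSpectrum.basicOpen t := by
  have := IsOpenImmersion.of_isLocalization (S := R') t
  apply Opens.ext
  rw [Scheme.Hom.coe_opensRange]
  exact PrimeSpectrum.localization_away_comap_range R' t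

include h in
theorem image_basicOpen_eq (t : R) [IsLocalization.Away t R'] :
    j ''ᵁ (PrimeSpectrum.basicOpen t) = j' ''ᵁ ⊤ := by
  have := IsOpenImmersion.of_isLocalization (S := R') t
  subst h
  rw [Scheme.Hom.comp_image, Scheme.Hom.image_top_eq_opensRange, opensRange_specMap_away t]

include h in
theorem image_top_le : j' ''ᵁ ⊤ ≤ j ''ᵁ ⊤ := by
  rw [Scheme.Hom.image_top_eq_opensRange, Scheme.Hom.image_top_eq_opensRange]
  exact opensRange_le_of_comp j j' _ h

/-- The localisation map `Γ(M|_j, ⊤) → Γ(M|_{j'}, ⊤)` of a two-chart situation. -/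
noncomputable def rho :
    letI := moduleLow (R := R) j' M ⊤
    Γ(M.restrict j, ⊤) →ₗ[R] Γ(M.restrict j', ⊤) :=
  resChartₗ j j' h M ⊤ ⊤ (image_top_le j j' h)

theorem isLocalizedModule_rho [M.IsQuasicoherent] (t : R) [IsLocalization.Away t R'] :
    letI := moduleLow (R := R) j' M ⊤
    IsLocalizedModule (.powers t) (rho j j' h M) := by
  let _ := moduleLow (R := R) j' M ⊤
  have hloc : IsLocalizedModule (.powers t)
      ((modulesSpecToSheaf.obj (M.restrict j)).obj.map
        (PrimeSpectrum.basicOpen t).leTop.op).hom :=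
    (isIso_fromTildeΓ_iff_isLocalizing (M.restrict j)).mp inferInstance t
  let D : (Spec R).Opens := PrimeSpectrum.basicOpen t
  let e : Γ(M.restrict j, D) ≃ₗ[R] Γ(M.restrict j', ⊤) :=
    LinearEquiv.ofBijective
      (resChartₗ j j' h M D ⊤ (image_basicOpen_eq j j' h t).ge)
      (resChart_bijective_of_eq j j' M _ _ (image_basicOpen_eq j j' h t).symm)
  have key : rho j j' h M = (e : Γ(M.restrict j, D) →ₗ[R] Γ(M.restrict j', ⊤)) ∘ₗ
      ((modulesSpecToSheaf.obj (M.restrict j)).obj.map
        (PrimeSpectrum.basicOpen t).leTop.op).hom := by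
    apply LinearMap.ext
    intro x
    show (M.restrictAppIso j' ⊤).inv (M.presheaf.map _ ((M.restrictAppIso j ⊤).hom x)) =
      (M.restrictAppIso j' ⊤).inv (M.presheaf.map _ ((M.restrictAppIso j D).hom
        ((M.restrict j).presheaf.map D.leTop.op x)))
    rw [Scheme.Modules.map_restrictAppIso_hom_apply,
      ← ConcreteCategory.comp_apply (M.presheaf.map _) (M.presheaf.map _), ← Functor.map_comp]
    rfl
  rw [key]
  exact IsLocalizedModule.of_linearEquiv (hf := hloc) _ _ e

theorem rho_apply (x : Γ(M.restrict j, ⊤)) :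
    letI := moduleLow (R := R) j' M ⊤
    rho j j' h M x = (M.restrictAppIso j' ⊤).inv (M.presheaf.map
      (homOfLE (image_top_le j j' h)).op ((M.restrictAppIso j ⊤).hom x)) :=
  rfl

/-- Functoriality of global sections over a chart. -/
noncomputable def secMap {L L' : X.Modules} (f : L ⟶ L') :
    Γ(L.restrict j, ⊤) →ₗ[R] Γ(L'.restrict j, ⊤) :=
  (moduleSpecΓFunctor.map ((Scheme.Modules.restrictFunctor j).map f)).hom

theorem secMap_apply {L L' : X.Modules} (f : L ⟶ L') (x : Γ(L.restrict j, ⊤)) :
    secMap j f x = (L'.restrictAppIso j ⊤).inv (f.app (j ''ᵁ ⊤) ((L.restrictAppIso j ⊤).hom x)) :=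
  rfl

theorem secMap_id (L : X.Modules) : secMap j (𝟙 L) = LinearMap.id := by
  apply LinearMap.ext
  intro x
  rfl

theorem secMap_comp {L L' L'' : X.Modules} (f : L ⟶ L') (g : L' ⟶ L'') :
    secMap j (f ≫ g) = secMap j g ∘ₗ secMap j f := by
  apply LinearMap.ext
  intro x
  rfl

/-- Global sections over a chart of isomorphic modules. -/
noncomputable def secEquiv {L L' : X.Modules} (e : L ≅ L') :
    Γ(L.restrict j, ⊤) ≃ₗ[R] Γ(L'.restrict j, ⊤) :=
  LinearEquiv.ofLinearMap (secMap j e.hom) (secMap j e.inv)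
    (by rw [← secMap_comp, e.inv_hom_id, secMap_id])
    (by rw [← secMap_comp, e.hom_inv_id, secMap_id])

theorem rho_secMap {L L' : X.Modules} (f : L ⟶ L') (x : Γ(L.restrict j, ⊤)) :
    letI := moduleLow (R := R) j' L ⊤
    letI := moduleLow (R := R) j' L' ⊤
    rho j j' h L' (secMap j f x) = secMap j' f (rho j j' h L x) := by
  simp only [rho_apply, secMap_apply, Iso.inv_hom_id_apply]
  congr 1
  exact (congr($(f.mapPresheaf.naturality (homOfLE (image_top_le j j' h)).op)
    ((L.restrictAppIso j ⊤).hom x))).symm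

end OneSide

section Diag

open Fermat.Agent.JAC.Core.Defs36 Fermat.Agent.JAC.Mod Fermat.Agent.JAC.Glue

variable {R0 R1 R01 : CommRingCat.{u}} [Algebra R0 R01] [Algebra R1 R01]
  (j0 : Spec R0 ⟶ X) (j1 : Spec R1 ⟶ X) (j01 : Spec R01 ⟶ X)
  [IsOpenImmersion j0] [IsOpenImmersion j1] [IsOpenImmersion j01]
  (h0 : Spec.map (CommRingCat.ofHom (algebraMap R0 R01)) ≫ j0 = j01)
  (h1 : Spec.map (CommRingCat.ofHom (algebraMap R1 R01)) ≫ j1 = j01)
  (t : R0) (s : R1) [IsLocalization.Away t R01] [IsLocalization.Away s R01]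

/-- **B3.1 (abstract two-chart form)**: the line diagram of an invertible module `L` on a scheme
`X` with respect to two affine charts `j0`, `j1` and a chart `j01` of (a part of) their overlap
which is the basic open `D(t)` of the first and `D(s)` of the second. -/
noncomputable def diag (L : X.Modules) (hL : Scheme.Modules.IsInvertible L) :
    LineDiag t s R01 :=
  haveI := Affine36.isQuasicoherent_of_isInvertible L hL
  { M0 := Γ(L.restrict j0, ⊤)
    M1 := Γ(L.restrict j1, ⊤)
    M01 := Γ(L.restrict j01, ⊤)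
    module0' := moduleLow (R := R0) j01 L ⊤
    module1' := moduleLow (R := R1) j01 L ⊤
    isScalarTower0 := isScalarTower_moduleLow j01 L ⊤
    isScalarTower1 := isScalarTower_moduleLow j01 L ⊤
    rho0 := rho j0 j01 h0 L
    rho1 := rho j1 j01 h1 L
    isLocalizedModule0 := isLocalizedModule_rho j0 j01 h0 L t
    isLocalizedModule1 := isLocalizedModule_rho j1 j01 h1 L s
    invertible0 := AffineInv85.invertible_Γ (L.restrict j0) (InvStab23.IsInvertible.restrict j0 hL)
    invertible1 := AffineInv85.invertible_Γ (L.restrict j1) (InvStab23.IsInvertible.restrict j1 hL) }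

@[simp] theorem diag_M0 (L : X.Modules) (hL : Scheme.Modules.IsInvertible L) :
    (diag j0 j1 j01 h0 h1 t s L hL).M0 = Γ(L.restrict j0, ⊤) := rfl

@[simp] theorem diag_M1 (L : X.Modules) (hL : Scheme.Modules.IsInvertible L) :
    (diag j0 j1 j01 h0 h1 t s L hL).M1 = Γ(L.restrict j1, ⊤) := rfl

@[simp] theorem diag_M01 (L : X.Modules) (hL : Scheme.Modules.IsInvertible L) :
    (diag j0 j1 j01 h0 h1 t s L hL).M01 = Γ(L.restrict j01, ⊤) := rfl

theorem diag_rho0_apply (L : X.Modules) (hL : Scheme.Modules.IsInvertible L)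
    (x : Γ(L.restrict j0, ⊤)) :
    (diag j0 j1 j01 h0 h1 t s L hL).rho0 x = (L.restrictAppIso j01 ⊤).inv (L.presheaf.map
      (homOfLE (image_top_le j0 j01 h0)).op ((L.restrictAppIso j0 ⊤).hom x)) :=
  rfl

theorem diag_rho1_apply (L : X.Modules) (hL : Scheme.Modules.IsInvertible L)
    (x : Γ(L.restrict j1, ⊤)) :
    (diag j0 j1 j01 h0 h1 t s L hL).rho1 x = (L.restrictAppIso j01 ⊤).inv (L.presheaf.map
      (homOfLE (image_top_le j1 j01 h1)).op ((L.restrictAppIso j1 ⊤).hom x)) :=
  rfl

/-- Isomorphic invertible modules have isomorphic line diagrams. -/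
noncomputable def diagIso {L L' : X.Modules} (e : L ≅ L') (hL : Scheme.Modules.IsInvertible L)
    (hL' : Scheme.Modules.IsInvertible L') :
    LineDiag.Iso (diag j0 j1 j01 h0 h1 t s L hL) (diag j0 j1 j01 h0 h1 t s L' hL') where
  e0 := secEquiv j0 e
  e1 := secEquiv j1 e
  e01 := secEquiv j01 e
  comm0 x := (rho_secMap j0 j01 h0 e.hom x).symm
  comm1 x := (rho_secMap j1 j01 h1 e.hom x).symm

/-- The class of the line diagram of `L`. -/
noncomputable def diagClass (L : X.Modules) (hL : Scheme.Modules.IsInvertible L) :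
    LineDiag.Classes t s R01 :=
  Quotient.mk _ (diag j0 j1 j01 h0 h1 t s L hL)

theorem diagClass_eq_of_iso {L L' : X.Modules} (e : L ≅ L') (hL : Scheme.Modules.IsInvertible L)
    (hL' : Scheme.Modules.IsInvertible L') :
    diagClass j0 j1 j01 h0 h1 t s L hL = diagClass j0 j1 j01 h0 h1 t s L' hL' :=
  Quotient.sound ⟨diagIso j0 j1 j01 h0 h1 t s e hL hL'⟩

end Diag

end Fermat.Agent.JAC.Bridge.TwoChartDiag4
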