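import Mathlib
import Fermat.Agent.JAC.Bridge.TwoChartDiag4
import Fermat.Agent.JAC.Bridge.ChartCover57
import Fermat.Agent.JAC.Core.ConstFamily36

/-!
# Programme JAC, chapter Bridge (B3.1, concrete form): line diagrams of invertible modules on `C_B`

Instantiation of `Bridge/TwoChartDiag4` for `X := C_B = pullback c (specBase B)`,
`R_i := B ⊗[k] A_i`, `j_i := ChartCover57.chartMap c B ι_i hι_i`, with the `ConstFamily36` algebra
structures `B ⊗[k] A_i → B ⊗[k] A01`.

Input: `k`-algebras `A0 A1 A01` with `[Algebra A_i A01] [IsScalarTower k A_i A01]`, charts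
`ι_i : Spec A_i ⟶ C` over `k` (`hι_i`) with `Spec (algebraMap A_i A01) ≫ ι_i = ι01`
(e.g. `B2/Adapter37`: `ι₀ ι₁ ι₀₁`, `hι₀ …`, `specMap_algebraMap_ι₀/ι₁`), `t s` with
`IsLocalization.Away`.

* `specMap_chartMap`: `Spec (algebraMap (B ⊗ A) (B ⊗ A')) ≫ chartMap ι = chartMap ι'`;
* `diagCB c B … L hL : LineDiag (1 ⊗ₜ t) (1 ⊗ₜ s) (B ⊗[k] A01)`, `diagCB_rho0_apply`,
  `diagCB_rho1_apply`, `diagCBIso`, `clCB` (an element of `AlgAtlas36.Cl k A0 A1 A01 t s B`),
  `clCB_eq_of_iso`.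
-/

set_option autoImplicit false

universe u

open CategoryTheory CategoryTheory.Limits AlgebraicGeometry TensorProduct NeronModelInfra
open AlgebraicGeometry.RelPicard

namespace Fermat.Agent.JAC.Bridge.DiagCB4

open scoped Fermat.Agent.JAC.Core.ConstFamily36
open Fermat.Agent.JAC.Core.Defs36 Fermat.Agent.JAC.Core.ConstFamily36
  Fermat.Agent.JAC.Bridge.ChartCover57 Fermat.Agent.JAC.Bridge

variable {k : Type u} [CommRing k] {C : Scheme.{u}} (c : C ⟶ Spec (CommRingCat.of k))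
  (B : Type u) [CommRing B] [Algebra k B]

section OneSide

variable {A A' : Type u} [CommRing A] [CommRing A'] [Algebra k A] [Algebra k A'] [Algebra A A']
  [IsScalarTower k A A']
  (ι : Spec (CommRingCat.of A) ⟶ C) (ι' : Spec (CommRingCat.of A') ⟶ C)
  (hι : ι ≫ c = Spec.map (CommRingCat.ofHom (algebraMap k A)))
  (hι' : ι' ≫ c = Spec.map (CommRingCat.ofHom (algebraMap k A')))
  (h : Spec.map (CommRingCat.ofHom (algebraMap A A')) ≫ ι = ι')

include h in
/-- The charts of `C_B` attached to two nested charts of `C` are nested, through the algebra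
structure `B ⊗[k] A → B ⊗[k] A'` of `ConstFamily36`. -/
theorem specMap_chartMap :
    Spec.map (CommRingCat.ofHom (algebraMap (B ⊗[k] A) (B ⊗[k] A'))) ≫ chartMap c B ι hι =
      chartMap c B ι' hι' := by
  subst h
  have e : CommRingCat.ofHom (algebraMap (B ⊗[k] A) (B ⊗[k] A')) =
      CommRingCat.ofHom (Algebra.TensorProduct.map (AlgHom.id k B)
        (IsScalarTower.toAlgHom k A A')).toRingHom := by
    congr 1
  rw [e, chartMap_natA c B ι hι (IsScalarTower.toAlgHom k A A')]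
  rfl

end OneSide

section Diag

variable {A0 A1 A01 : Type u} [CommRing A0] [CommRing A1] [CommRing A01]
  [Algebra k A0] [Algebra k A1] [Algebra k A01] [Algebra A0 A01] [Algebra A1 A01]
  [IsScalarTower k A0 A01] [IsScalarTower k A1 A01]
  (ι0 : Spec (CommRingCat.of A0) ⟶ C) (ι1 : Spec (CommRingCat.of A1) ⟶ C)
  (ι01 : Spec (CommRingCat.of A01) ⟶ C)
  [IsOpenImmersion ι0] [IsOpenImmersion ι1] [IsOpenImmersion ι01]
  (hι0 : ι0 ≫ c = Spec.map (CommRingCat.ofHom (algebraMap k A0)))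
  (hι1 : ι1 ≫ c = Spec.map (CommRingCat.ofHom (algebraMap k A1)))
  (hι01 : ι01 ≫ c = Spec.map (CommRingCat.ofHom (algebraMap k A01)))
  (h0 : Spec.map (CommRingCat.ofHom (algebraMap A0 A01)) ≫ ι0 = ι01)
  (h1 : Spec.map (CommRingCat.ofHom (algebraMap A1 A01)) ≫ ι1 = ι01)
  (t : A0) (s : A1) [IsLocalization.Away t A01] [IsLocalization.Away s A01]

/-- **B3.1 (concrete form)**: the line diagram over the constant family
`(B ⊗[k] A0 → B ⊗[k] A01 ← B ⊗[k] A1; 1 ⊗ t, 1 ⊗ s)` of an invertible module on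
`C_B = C ×_k Spec B`. -/
noncomputable def diagCB (L : (pullback c (specBase (k := k) B)).Modules)
    (hL : Scheme.Modules.IsInvertible L) :
    LineDiag ((1 : B) ⊗ₜ[k] t) ((1 : B) ⊗ₜ[k] s) (B ⊗[k] A01) :=
  TwoChartDiag4.diag (R0 := CommRingCat.of (B ⊗[k] A0)) (R1 := CommRingCat.of (B ⊗[k] A1))
    (R01 := CommRingCat.of (B ⊗[k] A01))
    (chartMap c B ι0 hι0) (chartMap c B ι1 hι1) (chartMap c B ι01 hι01)
    (specMap_chartMap c B ι0 ι01 hι0 hι01 h0) (specMap_chartMap c B ι1 ι01 hι1 hι01 h1)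
    ((1 : B) ⊗ₜ[k] t) ((1 : B) ⊗ₜ[k] s) L hL

theorem diagCB_rho0_apply (L : (pullback c (specBase (k := k) B)).Modules)
    (hL : Scheme.Modules.IsInvertible L) (x : Γ(L.restrict (chartMap c B ι0 hι0), ⊤)) :
    (diagCB c B ι0 ι1 ι01 hι0 hι1 hι01 h0 h1 t s L hL).rho0 x =
      (L.restrictAppIso (chartMap c B ι01 hι01) ⊤).inv (L.presheaf.map
        (homOfLE (TwoChartDiag4.image_top_le (R := CommRingCat.of (B ⊗[k] A0))
          (R' := CommRingCat.of (B ⊗[k] A01)) (chartMap c B ι0 hι0) (chartMap c B ι01 hι01)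
          (specMap_chartMap c B ι0 ι01 hι0 hι01 h0))).op
        ((L.restrictAppIso (chartMap c B ι0 hι0) ⊤).hom x)) :=
  rfl

theorem diagCB_rho1_apply (L : (pullback c (specBase (k := k) B)).Modules)
    (hL : Scheme.Modules.IsInvertible L) (x : Γ(L.restrict (chartMap c B ι1 hι1), ⊤)) :
    (diagCB c B ι0 ι1 ι01 hι0 hι1 hι01 h0 h1 t s L hL).rho1 x =
      (L.restrictAppIso (chartMap c B ι01 hι01) ⊤).inv (L.presheaf.map
        (homOfLE (TwoChartDiag4.image_top_le (R := CommRingCat.of (B ⊗[k] A1))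
          (R' := CommRingCat.of (B ⊗[k] A01)) (chartMap c B ι1 hι1) (chartMap c B ι01 hι01)
          (specMap_chartMap c B ι1 ι01 hι1 hι01 h1))).op
        ((L.restrictAppIso (chartMap c B ι1 hι1) ⊤).hom x)) :=
  rfl

/-- Isomorphic invertible modules on `C_B` have isomorphic line diagrams. -/
noncomputable def diagCBIso {L L' : (pullback c (specBase (k := k) B)).Modules} (e : L ≅ L')
    (hL : Scheme.Modules.IsInvertible L) (hL' : Scheme.Modules.IsInvertible L') :
    LineDiag.Iso (diagCB c B ι0 ι1 ι01 hι0 hι1 hι01 h0 h1 t s L hL)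
      (diagCB c B ι0 ι1 ι01 hι0 hι1 hι01 h0 h1 t s L' hL') :=
  TwoChartDiag4.diagIso (R0 := CommRingCat.of (B ⊗[k] A0)) (R1 := CommRingCat.of (B ⊗[k] A1))
    (R01 := CommRingCat.of (B ⊗[k] A01)) _ _ _ _ _ _ _ e hL hL'

/-- The class of the line diagram of an invertible module on `C_B` (an element of
`Core.AlgAtlas36.Cl k A0 A1 A01 t s B`). -/
noncomputable def clCB (L : (pullback c (specBase (k := k) B)).Modules)
    (hL : Scheme.Modules.IsInvertible L) :
    LineDiag.Classes ((1 : B) ⊗ₜ[k] t) ((1 : B) ⊗ₜ[k] s) (B ⊗[k] A01) :=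
  Quotient.mk _ (diagCB c B ι0 ι1 ι01 hι0 hι1 hι01 h0 h1 t s L hL)

theorem clCB_eq_of_iso {L L' : (pullback c (specBase (k := k) B)).Modules} (e : L ≅ L')
    (hL : Scheme.Modules.IsInvertible L) (hL' : Scheme.Modules.IsInvertible L') :
    clCB c B ι0 ι1 ι01 hι0 hι1 hι01 h0 h1 t s L hL =
      clCB c B ι0 ι1 ι01 hι0 hι1 hι01 h0 h1 t s L' hL' :=
  Quotient.sound ⟨diagCBIso c B ι0 ι1 ι01 hι0 hι1 hι01 h0 h1 t s e hL hL'⟩

end Diag

end Fermat.Agent.JAC.Bridge.DiagCB4
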