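/-
JAC brick B3.2 in abstract two-chart form (helper35's #665).  Owner: helper85.

In helper4's setting (`TwoChartDiag4.diag`): two abstract two-chart settings on `X` and `X'`,
`f : X' ⟶ X` and ring maps `φ0 φ1 φ01` with the three squares `j_i' ≫ f = Spec.map φ_i ≫ j_i`,
`φ0 t = t'`, `φ1 s = s'`.  Then `cartHom` is a `Cart36.LineDiag.CartHom` from the line diagram of
an invertible `L` to the line diagram of `f^* L`: "the diagram of the pullback is the base change
of the diagram".  Vertex maps: `bcSL` = `BaseChange85.bcMap` as a semilinear map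
(`bcSL_apply`: unit of `f^* ⊣ f_*` followed by restriction); `cart_i` = (BC);
`comm_i` = `bcSL_rho` (naturality of the unit w.r.t. restriction).
-/
import Fermat.Agent.JAC.Bridge.BaseChangeSec85
import Fermat.Agent.JAC.Bridge.BaseChange35
import Fermat.Agent.JAC.Bridge.TwoChartDiag4

set_option autoImplicit false
universe u
open CategoryTheory CategoryTheory.Limits AlgebraicGeometry

namespace Fermat.Agent.JAC.Bridge.TwoChartCart85

open Fermat.Agent.JAC.Core.Defs36 Fermat.Agent.JAC.Core.Cart36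

section OneChart

variable {X X' : Scheme.{u}} (f : X' ⟶ X) {R R' : CommRingCat.{u}} (φ : R ⟶ R')
  (j : Spec R ⟶ X) (j' : Spec R' ⟶ X') [IsOpenImmersion j] [IsOpenImmersion j']
  (sq : j' ≫ f = Spec.map φ ≫ j) (L : X.Modules)

/-- The base change map of `BaseChange85` as a semilinear map between the section modules used by
`TwoChartDiag4.diag`. -/
noncomputable def bcSL :
    Γ(L.restrict j, ⊤) →ₛₗ[φ.hom] Γ(((Scheme.Modules.pullback f).obj L).restrict j', ⊤) :=
  BaseChange35.semilinearOfHom φ.hom (BaseChange85.bcMap f φ j j' sq L)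

theorem bcSL_apply (x : Γ(L.restrict j, ⊤)) :
    bcSL f φ j j' sq L x =
      ((Scheme.Modules.pullback f).obj L).presheaf.map
        (homOfLE (BaseChangeSec85.image_top_le f φ j j' sq)).op
        (((Scheme.Modules.pullbackPushforwardAdjunction f).unit.app L).app (j ''ᵁ ⊤) x) :=
  BaseChangeSec85.bcMap_apply f φ j j' sq L x

theorem isBaseChangeHom_bcSL [IsIso (L.restrict j).fromTildeΓ] :
    IsBaseChangeHom (bcSL f φ j j' sq L) :=
  BaseChange35.isBaseChangeHom_of_isIso_adjoint φ.hom (BaseChange85.bcMap f φ j j' sq L)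
    (BaseChange85.isIso_bcComparison' f φ j j' sq L)

end OneChart

section Nested

/-! Compatibility of the base change maps with restriction between nested charts. -/

variable {X X' : Scheme.{u}} (f : X' ⟶ X) (L : X.Modules)
  {R S R' S' : CommRingCat.{u}} [Algebra R S] [Algebra R' S']
  (j : Spec R ⟶ X) (i : Spec S ⟶ X) (j' : Spec R' ⟶ X') (i' : Spec S' ⟶ X')
  [IsOpenImmersion j] [IsOpenImmersion i] [IsOpenImmersion j'] [IsOpenImmersion i']
  (h : Spec.map (CommRingCat.ofHom (algebraMap R S)) ≫ j = i)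
  (h' : Spec.map (CommRingCat.ofHom (algebraMap R' S')) ≫ j' = i')
  (φ : R ⟶ R') (χ : S ⟶ S')
  (sq : j' ≫ f = Spec.map φ ≫ j) (sqi : i' ≫ f = Spec.map χ ≫ i)

include h h' sq sqi in
omit [IsOpenImmersion i] [IsOpenImmersion j'] [IsOpenImmersion i'] in
/-- The ring maps of two compatible squares of nested charts commute with the algebra maps. -/
theorem algebraMap_comm (r : R) : χ (algebraMap R S r) = algebraMap R' S' (φ r) := by
  have e : Spec.map (CommRingCat.ofHom (algebraMap R S) ≫ χ) =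
      Spec.map (φ ≫ CommRingCat.ofHom (algebraMap R' S')) := by
    rw [← cancel_mono j, Spec.map_comp, Spec.map_comp, Category.assoc, Category.assoc, h, ← sqi,
      ← h', Category.assoc, sq]
  have e2 := Spec.map_injective e
  exact congr($e2 r)

/-- The base change maps commute with the restriction maps between nested charts. -/
theorem bcSL_rho (x : Γ(L.restrict j, ⊤)) :
    letI := TwoChartDiag4.moduleLow (R := R) i L ⊤
    letI := TwoChartDiag4.moduleLow (R := R') i' ((Scheme.Modules.pullback f).obj L) ⊤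
    bcSL f χ i i' sqi L (TwoChartDiag4.rho j i h L x) =
      TwoChartDiag4.rho j' i' h' ((Scheme.Modules.pullback f).obj L) (bcSL f φ j j' sq L x) := by
  let M' := (Scheme.Modules.pullback f).obj L
  let η := (Scheme.Modules.pullbackPushforwardAdjunction f).unit.app L
  let b : i ''ᵁ ⊤ ⟶ j ''ᵁ ⊤ := homOfLE (TwoChartDiag4.image_top_le j i h)
  let a : i' ''ᵁ ⊤ ⟶ f ⁻¹ᵁ (i ''ᵁ ⊤) := homOfLE (BaseChangeSec85.image_top_le f χ i i' sqi)
  let c : i' ''ᵁ ⊤ ⟶ j' ''ᵁ ⊤ := homOfLE (TwoChartDiag4.image_top_le j' i' h')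
  let d : j' ''ᵁ ⊤ ⟶ f ⁻¹ᵁ (j ''ᵁ ⊤) := homOfLE (BaseChangeSec85.image_top_le f φ j j' sq)
  let y : Γ(M', f ⁻¹ᵁ (j ''ᵁ ⊤)) := η.app (j ''ᵁ ⊤) x
  let fb : f ⁻¹ᵁ (i ''ᵁ ⊤) ⟶ f ⁻¹ᵁ (j ''ᵁ ⊤) := (TopologicalSpace.Opens.map f.base).map b
  have nat : η.app (i ''ᵁ ⊤) (L.presheaf.map b.op x) = M'.presheaf.map fb.op y :=
    congr($(η.mapPresheaf.naturality b.op) x)
  rw [bcSL_apply, bcSL_apply]
  calc M'.presheaf.map a.op (η.app (i ''ᵁ ⊤) (L.presheaf.map b.op x))
      = M'.presheaf.map a.op (M'.presheaf.map fb.op y) := congrArg _ nat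
    _ = M'.presheaf.map (a ≫ fb).op y := BaseChangeSec85.map_map_apply M' a fb y
    _ = M'.presheaf.map (c ≫ d).op y := rfl
    _ = M'.presheaf.map c.op (M'.presheaf.map d.op y) :=
        (BaseChangeSec85.map_map_apply M' c d y).symm

end Nested

section CartHom

variable {X X' : Scheme.{u}} (f : X' ⟶ X)
variable {R0 R1 R01 : CommRingCat.{u}} [Algebra R0 R01] [Algebra R1 R01]
  (j0 : Spec R0 ⟶ X) (j1 : Spec R1 ⟶ X) (j01 : Spec R01 ⟶ X)
  [IsOpenImmersion j0] [IsOpenImmersion j1] [IsOpenImmersion j01]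
  (h0 : Spec.map (CommRingCat.ofHom (algebraMap R0 R01)) ≫ j0 = j01)
  (h1 : Spec.map (CommRingCat.ofHom (algebraMap R1 R01)) ≫ j1 = j01)
  (t : R0) (s : R1) [IsLocalization.Away t R01] [IsLocalization.Away s R01]
variable {R0' R1' R01' : CommRingCat.{u}} [Algebra R0' R01'] [Algebra R1' R01']
  (j0' : Spec R0' ⟶ X') (j1' : Spec R1' ⟶ X') (j01' : Spec R01' ⟶ X')
  [IsOpenImmersion j0'] [IsOpenImmersion j1'] [IsOpenImmersion j01']
  (h0' : Spec.map (CommRingCat.ofHom (algebraMap R0' R01')) ≫ j0' = j01')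
  (h1' : Spec.map (CommRingCat.ofHom (algebraMap R1' R01')) ≫ j1' = j01')
  (t' : R0') (s' : R1') [IsLocalization.Away t' R01'] [IsLocalization.Away s' R01']
variable (φ0 : R0 ⟶ R0') (φ1 : R1 ⟶ R1') (φ01 : R01 ⟶ R01')
  (sq0 : j0' ≫ f = Spec.map φ0 ≫ j0) (sq1 : j1' ≫ f = Spec.map φ1 ≫ j1)
  (sq01 : j01' ≫ f = Spec.map φ01 ≫ j01)
  (ht : φ0 t = t') (hs : φ1 s = s')

include h0 h1 h0' h1' sq0 sq1 sq01 in
/-- The morphism of two-chart families attached to three compatible squares of charts. -/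
noncomputable def familyHom : FamilyHom t s t' s' R01 R01' where
  ψ0 := φ0.hom
  ψ1 := φ1.hom
  ψ01 := φ01.hom
  comm0 := algebraMap_comm f j0 j01 j0' j01' h0 h0' φ0 φ01 sq0 sq01
  comm1 := algebraMap_comm f j1 j01 j1' j01' h1 h1' φ1 φ01 sq1 sq01
  map_t := ht
  map_s := hs

/-- **B3.2 (abstract two-chart form)**: the line diagram of `f^* L` is the base change of the line
diagram of `L`: a cartesian morphism of line diagrams over `familyHom`, with vertex maps the base
change maps `bcSL` (unit of `f^* ⊣ f_*` on sections followed by restriction). -/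
noncomputable def cartHom (L : X.Modules) (hL : Scheme.Modules.IsInvertible L) :
    LineDiag.CartHom
      (familyHom f j0 j1 j01 h0 h1 t s j0' j1' j01' h0' h1' t' s' φ0 φ1 φ01 sq0 sq1 sq01 ht hs)
      (TwoChartDiag4.diag j0 j1 j01 h0 h1 t s L hL)
      (TwoChartDiag4.diag j0' j1' j01' h0' h1' t' s' ((Scheme.Modules.pullback f).obj L)
        (hL.pullback f)) :=
  haveI := Mod.Affine36.isQuasicoherent_of_isInvertible L hL
  haveI := BaseChange85.isIso_fromTildeΓ_restrict_of_isQuasicoherent j0 L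
  haveI := BaseChange85.isIso_fromTildeΓ_restrict_of_isQuasicoherent j1 L
  haveI := BaseChange85.isIso_fromTildeΓ_restrict_of_isQuasicoherent j01 L
  { f0 := bcSL f φ0 j0 j0' sq0 L
    f1 := bcSL f φ1 j1 j1' sq1 L
    f01 := bcSL f φ01 j01 j01' sq01 L
    comm0 := bcSL_rho f L j0 j01 j0' j01' h0 h0' φ0 φ01 sq0 sq01
    comm1 := bcSL_rho f L j1 j01 j1' j01' h1 h1' φ1 φ01 sq1 sq01
    cart0 := isBaseChangeHom_bcSL f φ0 j0 j0' sq0 L
    cart1 := isBaseChangeHom_bcSL f φ1 j1 j1' sq1 L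
    cart01 := isBaseChangeHom_bcSL f φ01 j01 j01' sq01 L }

@[simp] theorem cartHom_f0 (L : X.Modules) (hL : Scheme.Modules.IsInvertible L) :
    (cartHom f j0 j1 j01 h0 h1 t s j0' j1' j01' h0' h1' t' s' φ0 φ1 φ01 sq0 sq1 sq01 ht hs
      L hL).f0 = bcSL f φ0 j0 j0' sq0 L := rfl

@[simp] theorem cartHom_f1 (L : X.Modules) (hL : Scheme.Modules.IsInvertible L) :
    (cartHom f j0 j1 j01 h0 h1 t s j0' j1' j01' h0' h1' t' s' φ0 φ1 φ01 sq0 sq1 sq01 ht hs
      L hL).f1 = bcSL f φ1 j1 j1' sq1 L := rfl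

@[simp] theorem cartHom_f01 (L : X.Modules) (hL : Scheme.Modules.IsInvertible L) :
    (cartHom f j0 j1 j01 h0 h1 t s j0' j1' j01' h0' h1' t' s' φ0 φ1 φ01 sq0 sq1 sq01 ht hs
      L hL).f01 = bcSL f φ01 j01 j01' sq01 L := rfl

end CartHom

end Fermat.Agent.JAC.Bridge.TwoChartCart85
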