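/-
Programme JAC (S25), chapter Bridge (helper37): B3.2 in concrete form, and the instantiation of the
bridge `invertible modules on C_B → line diagrams over B ⊗[k] A_*` for the two-chart data of B2.

* `diagCBCartHom`: for `φ : B →ₐ[k] B'`, the line diagram of the pullback of `L` along
  `C_{B'} ⟶ C_B` is the base change of the line diagram of `L` along
  `ConstFamily36.familyHom φ t s` (a `LineDiag.CartHom`);
* `clCB_baseChange`: in terms of classes;
* the opens `V_i := range (chartMap ι_i)` of `C_B`: cover, intersection;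
* the instantiation for `D : TwoChartData c`.
-/
import Fermat.Agent.JAC.Bridge.DiagCB4
import Fermat.Agent.JAC.Bridge.TwoChartCart85
import Fermat.Agent.JAC.Grp.Cart33
import Fermat.Agent.JAC.B2.Adapter37

set_option autoImplicit false

universe u

open CategoryTheory CategoryTheory.Limits AlgebraicGeometry TensorProduct NeronModelInfra
open AlgebraicGeometry.RelPicard

namespace Fermat.Agent.JAC.Bridge.DiagCB37

open scoped Fermat.Agent.JAC.Core.ConstFamily36
open Fermat.Agent.JAC.Core.Defs36 Fermat.Agent.JAC.Core.Cart36 Fermat.Agent.JAC.Core.ConstFamily36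
  Fermat.Agent.JAC.Bridge.ChartCover57 Fermat.Agent.JAC.Bridge Fermat.Agent.JAC.Bridge.DiagCB4

section Nested

variable {X : Scheme.{u}} {R R' : CommRingCat.{u}} [Algebra R R'] (j : Spec R ⟶ X)
  (j' : Spec R' ⟶ X) [IsOpenImmersion j] [IsOpenImmersion j']
  (h : Spec.map (CommRingCat.ofHom (algebraMap R R')) ≫ j = j')

include h in
/-- In a nested pair of charts `Spec R[1/t] ⟶ Spec R ⟶ X`, the range of the small chart is the
basic open of (the section corresponding to) `t`. -/
theorem opensRange_eq_basicOpen (t : R) [IsLocalization.Away t R'] :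
    j'.opensRange = X.basicOpen ((TwoChartDiag4.chartSec j).hom t) := by
  rw [← Scheme.Hom.image_top_eq_opensRange, ← TwoChartDiag4.image_basicOpen_eq j j' h t]
  rw [← basicOpen_eq_of_affine t, Scheme.image_basicOpen]
  have : (TwoChartDiag4.chartSec j).hom t =
      X.presheaf.map (eqToHom j.image_top_eq_opensRange.symm).op
        ((j.appIso ⊤).inv ((Scheme.ΓSpecIso R).inv t)) := rfl
  rw [this, Scheme.basicOpen_res_eq]

end Nested

section Abstract

variable {k : Type u} [CommRing k] {C : Scheme.{u}} (c : C ⟶ Spec (CommRingCat.of k))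
  {B B' : Type u} [CommRing B] [Algebra k B] [CommRing B'] [Algebra k B'] (φ : B →ₐ[k] B')
  {A0 A1 A01 : Type u} [CommRing A0] [CommRing A1] [CommRing A01]
  [Algebra k A0] [Algebra k A1] [Algebra k A01] [Algebra A0 A01] [Algebra A1 A01]
  [IsScalarTower k A0 A01] [IsScalarTower k A1 A01]
  (ι0 : Spec (CommRingCat.of A0) ⟶ C) (ι1 : Spec (CommRingCat.of A1) ⟶ C)
  (ι01 : Spec (CommRingCat.of A01) ⟶ C)
  [IsOpenImmersion ι0] [IsOpenImmersion ι1] [IsOpenImmersion ι01]
  (hι0 : ι0 ≫ c = Spec.map (CommRingCat.ofHom (algebraMap k A0)))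
  (hι1 : ι1 ≫ c = Spec.map (CommRingCat.ofHom (algebraMap k A1)))
  (hι01 : ι01 ≫ c = Spec.map (CommRingCat.ofHom (algebraMap k A01)))
  (h0 : Spec.map (CommRingCat.ofHom (algebraMap A0 A01)) ≫ ι0 = ι01)
  (h1 : Spec.map (CommRingCat.ofHom (algebraMap A1 A01)) ≫ ι1 = ι01)
  (t : A0) (s : A1) [IsLocalization.Away t A01] [IsLocalization.Away s A01]

/-- **B3.2 (concrete form)**: the line diagram of the pullback of `L` to `C_{B'}` is the base
change of the line diagram of `L` along the morphism of constant families induced by `φ`. -/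
noncomputable def diagCBCartHom (L : (pullback c (specBase (k := k) B)).Modules)
    (hL : Scheme.Modules.IsInvertible L) :
    LineDiag.CartHom (familyHom φ t s)
      (diagCB c B ι0 ι1 ι01 hι0 hι1 hι01 h0 h1 t s L hL)
      (diagCB c B' ι0 ι1 ι01 hι0 hι1 hι01 h0 h1 t s
        ((Scheme.Modules.pullback (baseChangeSnd c (specOver B φ))).obj L)
        (hL.pullback _)) :=
  TwoChartCart85.cartHom (baseChangeSnd c (specOver B φ))
    (R0 := CommRingCat.of (B ⊗[k] A0)) (R1 := CommRingCat.of (B ⊗[k] A1))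
    (R01 := CommRingCat.of (B ⊗[k] A01))
    (chartMap c B ι0 hι0) (chartMap c B ι1 hι1) (chartMap c B ι01 hι01)
    (specMap_chartMap c B ι0 ι01 hι0 hι01 h0) (specMap_chartMap c B ι1 ι01 hι1 hι01 h1)
    ((1 : B) ⊗ₜ[k] t) ((1 : B) ⊗ₜ[k] s)
    (R0' := CommRingCat.of (B' ⊗[k] A0)) (R1' := CommRingCat.of (B' ⊗[k] A1))
    (R01' := CommRingCat.of (B' ⊗[k] A01))
    (chartMap c B' ι0 hι0) (chartMap c B' ι1 hι1) (chartMap c B' ι01 hι01)
    (specMap_chartMap c B' ι0 ι01 hι0 hι01 h0) (specMap_chartMap c B' ι1 ι01 hι1 hι01 h1)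
    ((1 : B') ⊗ₜ[k] t) ((1 : B') ⊗ₜ[k] s)
    (CommRingCat.ofHom (Algebra.TensorProduct.map φ (AlgHom.id k A0)).toRingHom)
    (CommRingCat.ofHom (Algebra.TensorProduct.map φ (AlgHom.id k A1)).toRingHom)
    (CommRingCat.ofHom (Algebra.TensorProduct.map φ (AlgHom.id k A01)).toRingHom)
    (chartMap_natB c B ι0 hι0 φ).symm (chartMap_natB c B ι1 hι1 φ).symm
    (chartMap_natB c B ι01 hι01 φ).symm (by simp) (by simp) L hL

/-- The class of the pullback is the base change of the class. -/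
theorem clCB_baseChange (L : (pullback c (specBase (k := k) B)).Modules)
    (hL : Scheme.Modules.IsInvertible L) :
    Grp.Cart33.baseChangeClass (familyHom φ t s)
        (clCB c B ι0 ι1 ι01 hι0 hι1 hι01 h0 h1 t s L hL) =
      clCB c B' ι0 ι1 ι01 hι0 hι1 hι01 h0 h1 t s
        ((Scheme.Modules.pullback (baseChangeSnd c (specOver B φ))).obj L) (hL.pullback _) :=
  (Grp.Cart33.baseChangeClass_cls_eq_iff (familyHom φ t s) _ _).mpr
    ⟨diagCBCartHom c φ ι0 ι1 ι01 hι0 hι1 hι01 h0 h1 t s L hL⟩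

section Opens

variable (B)

/-- the two charts cover `C_B` -/
theorem opensRange_sup (hcov : ι0.opensRange ⊔ ι1.opensRange = ⊤) :
    (chartMap c B ι0 hι0).opensRange ⊔ (chartMap c B ι1 hι1).opensRange = ⊤ :=
  opensRange_chartMap_sup c B ι0 hι0 ι1 hι1 hcov

omit [Algebra A0 A01] [Algebra A1 A01] [IsScalarTower k A0 A01] [IsScalarTower k A1 A01] in
/-- the overlap of the two charts of `C_B` is the third chart -/
theorem opensRange_inf (hinf : ι0.opensRange ⊓ ι1.opensRange = ι01.opensRange) :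
    (chartMap c B ι0 hι0).opensRange ⊓ (chartMap c B ι1 hι1).opensRange =
      (chartMap c B ι01 hι01).opensRange := by
  rw [opensRange_chartMap_inf, hinf, ← opensRange_chartMap]

include h0 in
/-- the overlap is the basic open of `1 ⊗ t` in the first chart -/
theorem opensRange_eq_basicOpen₀ :
    (chartMap c B ι01 hι01).opensRange =
      (pullback c (specBase (k := k) B)).basicOpen
        ((TwoChartDiag4.chartSec (R := CommRingCat.of (B ⊗[k] A0)) (chartMap c B ι0 hι0)).hom
          ((1 : B) ⊗ₜ[k] t)) :=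
  opensRange_eq_basicOpen (R := CommRingCat.of (B ⊗[k] A0)) (R' := CommRingCat.of (B ⊗[k] A01))
    (chartMap c B ι0 hι0) (chartMap c B ι01 hι01) (specMap_chartMap c B ι0 ι01 hι0 hι01 h0)
    ((1 : B) ⊗ₜ[k] t)

include h1 in
/-- the overlap is the basic open of `1 ⊗ s` in the second chart -/
theorem opensRange_eq_basicOpen₁ :
    (chartMap c B ι01 hι01).opensRange =
      (pullback c (specBase (k := k) B)).basicOpen
        ((TwoChartDiag4.chartSec (R := CommRingCat.of (B ⊗[k] A1)) (chartMap c B ι1 hι1)).hom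
          ((1 : B) ⊗ₜ[k] s)) :=
  opensRange_eq_basicOpen (R := CommRingCat.of (B ⊗[k] A1)) (R' := CommRingCat.of (B ⊗[k] A01))
    (chartMap c B ι1 hι1) (chartMap c B ι01 hι01) (specMap_chartMap c B ι1 ι01 hι1 hι01 h1)
    ((1 : B) ⊗ₜ[k] s)

end Opens

end Abstract

section Curve

open Fermat.Agent.JAC.B2 Fermat.Agent.JAC.B2.TwoChart37 Fermat.Agent.JAC.B2.CurveBlock37
  Fermat.Agent.JAC.B2.Adapter37

variable {k : Type u} [Field k] {C : Scheme.{u}} {c : C ⟶ Spec (CommRingCat.of k)}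
  (D : TwoChartData c) (B : Type u) [CommRing B] [Algebra k B]

attribute [local instance] algK₀ algK₁ algK₀₁ alg₀ alg₁

/-- The line diagram over `(B ⊗[k] A₀ → B ⊗[k] A₀₁ ← B ⊗[k] A₁; 1 ⊗ t, 1 ⊗ s)` of an invertible
module on `C_B`, for the two-chart data `D` of the curve. -/
noncomputable def curveDiag (L : (pullback c (specBase (k := k) B)).Modules)
    (hL : Scheme.Modules.IsInvertible L) :
    LineDiag ((1 : B) ⊗ₜ[k] D.t) ((1 : B) ⊗ₜ[k] D.s) (B ⊗[k] A₀₁ D) :=
  diagCB c B (ι₀ D) (ι₁ D) (ι₀₁ D) (hι₀ D) (hι₁ D) (hι₀₁ D) (specMap_algebraMap_ι₀ D)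
    (specMap_algebraMap_ι₁ D) D.t D.s L hL

/-- Isomorphic invertible modules have isomorphic line diagrams. -/
noncomputable def curveDiagIso {L L' : (pullback c (specBase (k := k) B)).Modules} (e : L ≅ L')
    (hL : Scheme.Modules.IsInvertible L) (hL' : Scheme.Modules.IsInvertible L') :
    LineDiag.Iso (curveDiag D B L hL) (curveDiag D B L' hL') :=
  diagCBIso c B (ι₀ D) (ι₁ D) (ι₀₁ D) (hι₀ D) (hι₁ D) (hι₀₁ D) (specMap_algebraMap_ι₀ D)
    (specMap_algebraMap_ι₁ D) D.t D.s e hL hL'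

/-- The class of the line diagram of an invertible module on `C_B`. -/
noncomputable def curveCl (L : (pullback c (specBase (k := k) B)).Modules)
    (hL : Scheme.Modules.IsInvertible L) :
    LineDiag.Classes ((1 : B) ⊗ₜ[k] D.t) ((1 : B) ⊗ₜ[k] D.s) (B ⊗[k] A₀₁ D) :=
  clCB c B (ι₀ D) (ι₁ D) (ι₀₁ D) (hι₀ D) (hι₁ D) (hι₀₁ D) (specMap_algebraMap_ι₀ D)
    (specMap_algebraMap_ι₁ D) D.t D.s L hL

theorem curveCl_eq_cls (L : (pullback c (specBase (k := k) B)).Modules)
    (hL : Scheme.Modules.IsInvertible L) :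
    curveCl D B L hL = Grp.Diag33.cls (curveDiag D B L hL) := rfl

theorem curveCl_eq_of_iso {L L' : (pullback c (specBase (k := k) B)).Modules} (e : L ≅ L')
    (hL : Scheme.Modules.IsInvertible L) (hL' : Scheme.Modules.IsInvertible L') :
    curveCl D B L hL = curveCl D B L' hL' :=
  clCB_eq_of_iso c B (ι₀ D) (ι₁ D) (ι₀₁ D) (hι₀ D) (hι₁ D) (hι₀₁ D) (specMap_algebraMap_ι₀ D)
    (specMap_algebraMap_ι₁ D) D.t D.s e hL hL'

variable {B} {B' : Type u} [CommRing B'] [Algebra k B'] (φ : B →ₐ[k] B')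

/-- **B3.2 for the curve**: pullback along `C_{B'} ⟶ C_B` is base change of line diagrams. -/
noncomputable def curveDiagCartHom (L : (pullback c (specBase (k := k) B)).Modules)
    (hL : Scheme.Modules.IsInvertible L) :
    LineDiag.CartHom (familyHom φ D.t D.s) (curveDiag D B L hL)
      (curveDiag D B' ((Scheme.Modules.pullback (baseChangeSnd c (specOver B φ))).obj L)
        (hL.pullback _)) :=
  diagCBCartHom c φ (ι₀ D) (ι₁ D) (ι₀₁ D) (hι₀ D) (hι₁ D) (hι₀₁ D) (specMap_algebraMap_ι₀ D)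
    (specMap_algebraMap_ι₁ D) D.t D.s L hL

/-- in terms of classes -/
theorem curveCl_baseChange (L : (pullback c (specBase (k := k) B)).Modules)
    (hL : Scheme.Modules.IsInvertible L) :
    Grp.Cart33.baseChangeClass (familyHom φ D.t D.s) (curveCl D B L hL) =
      curveCl D B' ((Scheme.Modules.pullback (baseChangeSnd c (specOver B φ))).obj L)
        (hL.pullback _) :=
  clCB_baseChange c φ (ι₀ D) (ι₁ D) (ι₀₁ D) (hι₀ D) (hι₁ D) (hι₀₁ D) (specMap_algebraMap_ι₀ D)
    (specMap_algebraMap_ι₁ D) D.t D.s L hL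

variable (B)

/-- the two charts of `C_B` cover -/
theorem curve_opensRange_sup :
    (chartMap c B (ι₀ D) (hι₀ D)).opensRange ⊔ (chartMap c B (ι₁ D) (hι₁ D)).opensRange = ⊤ :=
  opensRange_sup c B (ι₀ D) (ι₁ D) (hι₀ D) (hι₁ D) (Adapter37.opensRange_sup D)

/-- the overlap of the two charts of `C_B` -/
theorem curve_opensRange_inf :
    (chartMap c B (ι₀ D) (hι₀ D)).opensRange ⊓ (chartMap c B (ι₁ D) (hι₁ D)).opensRange =
      (chartMap c B (ι₀₁ D) (hι₀₁ D)).opensRange :=
  opensRange_inf c B (ι₀ D) (ι₁ D) (ι₀₁ D) (hι₀ D) (hι₁ D) (hι₀₁ D) (Adapter37.opensRange_inf D)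

end Curve

end Fermat.Agent.JAC.Bridge.DiagCB37
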