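import Mathlib
import Fermat.Agent.JAC.Bridge.TwoChartDiag4

/-!
# Programme JAC, chapter Bridge: rigidity in the abstract two-chart setting

`X` a scheme, `j : Spec R ⟶ X` a chart, `e : R ⟶ B`, `σ : Spec B ⟶ X` with
`Spec.map e ≫ j = σ` (a `B`-point of `X` lying in the chart), `L : X.Modules` quasi-coherent.

* `pullbackPointIso`: `σ^* L ≅ (Spec e)^* (L.restrict j)`;
* `pullbackPointIsoTilde`: `σ^* L ≅ tilde (B ⊗_R Γ(L.restrict j, ⊤))` (extension of scalars form);
* `nonempty_pullback_iso_unit_iff`: `σ^* L` is trivial iff `B ⊗[R] Γ(L.restrict j, ⊤) ≃ₗ[B] B`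
  (`B` an `R`-algebra through `e.hom.toAlgebra`);
* `isRigid_diag_iff`: for the line diagram of `Bridge/TwoChartDiag4`,
  `LineDiag.IsRigid (B := B) (diag … L hL) ↔ Nonempty (σ^* L ≅ 𝒪)`.
-/

set_option autoImplicit false

universe u

open CategoryTheory AlgebraicGeometry TopologicalSpace Opposite TensorProduct

namespace Fermat.Agent.JAC.Bridge.TwoChartRigid4

open Fermat.Agent.JAC.Core.Defs36 Fermat.Agent.JAC.Mod Fermat.Agent.JAC.Glue
  Fermat.Agent.JAC.Bridge

variable {X : Scheme.{u}}

section OneChart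

variable {R B : CommRingCat.{u}} (j : Spec R ⟶ X) [IsOpenImmersion j] (e : R ⟶ B)
  (σ : Spec B ⟶ X) (hσ : Spec.map e ≫ j = σ) (L : X.Modules)

/-- The pullback of `L` along a `B`-point `σ` of `X` lying in the chart `j` is the pullback along
`Spec e` of the restriction of `L` to the chart. -/
noncomputable def pullbackPointIso :
    (Scheme.Modules.pullback σ).obj L ≅
      (Scheme.Modules.pullback (Spec.map e)).obj (L.restrict j) :=
  (Scheme.Modules.pullbackCongr hσ.symm).app L ≪≫
    ((Scheme.Modules.pullbackComp (Spec.map e) j).app L).symm ≪≫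
    (Scheme.Modules.pullback (Spec.map e)).mapIso (InvStab23.restrictIsoPullback j L).symm

/-- The pullback of a quasi-coherent `L` along a `B`-point `σ` lying in the chart `j` is the
`tilde` of the extension of scalars of the sections over the chart. -/
noncomputable def pullbackPointIsoTilde [L.IsQuasicoherent] :
    (Scheme.Modules.pullback σ).obj L ≅
      tilde ((ModuleCat.extendScalars e.hom).obj (moduleSpecΓFunctor.obj (L.restrict j))) :=
  pullbackPointIso j e σ hσ L ≪≫ AffineInv85.pullbackIsoTilde e (L.restrict j)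

include hσ in
/-- **Rigidity, one chart**: the pullback of a quasi-coherent `L` along a `B`-point of the chart
`j` is trivial iff the base change of the sections over the chart is free of rank one. -/
theorem nonempty_pullback_iso_unit_iff [L.IsQuasicoherent] :
    letI := e.hom.toAlgebra
    Nonempty ((Scheme.Modules.pullback σ).obj L ≅ SheafOfModules.unit (Spec B).ringCatSheaf) ↔
      Nonempty (B ⊗[R] Γ(L.restrict j, ⊤) ≃ₗ[B] B) := by
  let _ := e.hom.toAlgebra
  have i1 := pullbackPointIsoTilde j e σ hσ L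
  rw [show Nonempty ((Scheme.Modules.pullback σ).obj L ≅
      SheafOfModules.unit (Spec B).ringCatSheaf) ↔
      Nonempty (tilde ((ModuleCat.extendScalars e.hom).obj
        (moduleSpecΓFunctor.obj (L.restrict j))) ≅ SheafOfModules.unit (Spec B).ringCatSheaf) from
    ⟨fun ⟨a⟩ => ⟨i1.symm ≪≫ a⟩, fun ⟨a⟩ => ⟨i1 ≪≫ a⟩⟩]
  rw [AffineInv85.nonempty_tilde_iso_unit_iff]
  exact Iff.rfl

end OneChart

section Diag

variable {R0 R1 R01 : CommRingCat.{u}} [Algebra R0 R01] [Algebra R1 R01]
  (j0 : Spec R0 ⟶ X) (j1 : Spec R1 ⟶ X) (j01 : Spec R01 ⟶ X)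
  [IsOpenImmersion j0] [IsOpenImmersion j1] [IsOpenImmersion j01]
  (h0 : Spec.map (CommRingCat.ofHom (algebraMap R0 R01)) ≫ j0 = j01)
  (h1 : Spec.map (CommRingCat.ofHom (algebraMap R1 R01)) ≫ j1 = j01)
  (t : R0) (s : R1) [IsLocalization.Away t R01] [IsLocalization.Away s R01]
  {B : CommRingCat.{u}} (e : R01 ⟶ B) (σ : Spec B ⟶ X) (hσ : Spec.map e ≫ j01 = σ)

include hσ in
/-- **Rigidity (abstract two-chart form)**: for a `B`-point `σ` of `X` lying in the chart `j01`
(through `e : R01 ⟶ B`), the line diagram of `L` is rigid along `e` iff the pullback of `L` along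
`σ` is trivial. -/
theorem isRigid_diag_iff (L : X.Modules) (hL : Scheme.Modules.IsInvertible L) :
    letI := e.hom.toAlgebra
    LineDiag.IsRigid (B := B) (TwoChartDiag4.diag j0 j1 j01 h0 h1 t s L hL) ↔
      Nonempty ((Scheme.Modules.pullback σ).obj L ≅ SheafOfModules.unit (Spec B).ringCatSheaf) := by
  have := Affine36.isQuasicoherent_of_isInvertible L hL
  exact (nonempty_pullback_iso_unit_iff j01 e σ hσ L).symm

end Diag

end Fermat.Agent.JAC.Bridge.TwoChartRigid4
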