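import Mathlib
import Fermat.Agent.JAC.Bridge.DiagCB4
import Fermat.Agent.JAC.Bridge.TwoChartRigid4
import Fermat.Agent.JAC.Core.AlgAtlas36

/-!
# Programme JAC, chapter Bridge: rigidity of the line diagram of a line bundle on `C_B`

Concrete corollary of `Bridge/TwoChartRigid4` for `Bridge/DiagCB4`: if the base point
`ε : Spec k ⟶ C` lies in the chart `ι01` as the `k`-point `e : A01 →ₐ[k] k`, then for an invertible
`L` on `C_B = pullback c (specBase B)`:

* `isRigidCl_clCB_iff`: `AlgAtlas36.IsRigidCl e B (clCB … L hL) ↔ Nonempty (rigSection^* L ≅ 𝒪)`;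
* `isRigidCl_clCB_of_rigidified`: the class of a `RigidifiedLineBundle` is rigid;
* `rigidifiedOfIsRigidCl`: conversely an invertible `L` with rigid class is a
  `RigidifiedLineBundle`.
-/

set_option autoImplicit false

universe u

open CategoryTheory CategoryTheory.Limits AlgebraicGeometry TensorProduct NeronModelInfra
open AlgebraicGeometry.RelPicard

namespace Fermat.Agent.JAC.Bridge.DiagCBRigid4

open scoped Fermat.Agent.JAC.Core.ConstFamily36
open Fermat.Agent.JAC.Core.Defs36 Fermat.Agent.JAC.Core.ConstFamily36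
  Fermat.Agent.JAC.Core.AlgAtlas36 Fermat.Agent.JAC.Grp.Diag33
  Fermat.Agent.JAC.Bridge.ChartCover57 Fermat.Agent.JAC.Bridge Fermat.Agent.JAC.Bridge.DiagCB4

variable {k : Type u} [Field k] {C : Scheme.{u}} (c : C ⟶ Spec (CommRingCat.of k))
  (B : Type u) [CommRing B] [Algebra k B]
  {A0 A1 A01 : Type u} [CommRing A0] [CommRing A1] [CommRing A01]
  [Algebra k A0] [Algebra k A1] [Algebra k A01] [Algebra A0 A01] [Algebra A1 A01]
  [IsScalarTower k A0 A01] [IsScalarTower k A1 A01]
  (ι0 : Spec (CommRingCat.of A0) ⟶ C) (ι1 : Spec (CommRingCat.of A1) ⟶ C)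
  (ι01 : Spec (CommRingCat.of A01) ⟶ C)
  [IsOpenImmersion ι0] [IsOpenImmersion ι1] [IsOpenImmersion ι01]
  (hι0 : ι0 ≫ c = Spec.map (CommRingCat.ofHom (algebraMap k A0)))
  (hι1 : ι1 ≫ c = Spec.map (CommRingCat.ofHom (algebraMap k A1)))
  (hι01 : ι01 ≫ c = Spec.map (CommRingCat.ofHom (algebraMap k A01)))
  (h0 : Spec.map (CommRingCat.ofHom (algebraMap A0 A01)) ≫ ι0 = ι01)
  (h1 : Spec.map (CommRingCat.ofHom (algebraMap A1 A01)) ≫ ι1 = ι01)
  (t : A0) (s : A1) [IsLocalization.Away t A01] [IsLocalization.Away s A01]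
  (ε : SchemeHomOver (𝟙 (Spec (CommRingCat.of k))) c) (e : A01 →ₐ[k] k)
  (he : Spec.map (CommRingCat.ofHom e.toRingHom) ≫ ι01 = ε.1)

include he in
/-- **Rigidity (concrete form)**: the class of the line diagram of an invertible `L` on `C_B` is
rigid along the base point `e` iff the pullback of `L` along the rigidifying section is trivial. -/
theorem isRigidCl_clCB_iff (L : (pullback c (specBase (k := k) B)).Modules)
    (hL : Scheme.Modules.IsInvertible L) :
    IsRigidCl e B (clCB c B ι0 ι1 ι01 hι0 hι1 hι01 h0 h1 t s L hL) ↔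
      Nonempty ((Scheme.Modules.pullback (rigSection c (specBase (k := k) B) ε)).obj L ≅
        SheafOfModules.unit (Spec (CommRingCat.of B)).ringCatSheaf) := by
  let _ := rigAlgebra B e
  have h1' : IsRigidCl e B (clCB c B ι0 ι1 ι01 hι0 hι1 hι01 h0 h1 t s L hL) ↔
      LineDiag.IsRigid (B := B) (diagCB c B ι0 ι1 ι01 hι0 hι1 hι01 h0 h1 t s L hL) :=
    mem_rigidSubgroup_iff (B := B) (diagCB c B ι0 ι1 ι01 hι0 hι1 hι01 h0 h1 t s L hL)
  rw [h1']
  exact TwoChartRigid4.isRigid_diag_iff (R0 := CommRingCat.of (B ⊗[k] A0))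
    (R1 := CommRingCat.of (B ⊗[k] A1)) (R01 := CommRingCat.of (B ⊗[k] A01))
    (B := CommRingCat.of B) _ _ _ _ _ _ _
    (CommRingCat.ofHom (ChartCover57.rigHom B e).toRingHom)
    (rigSection c (specBase (k := k) B) ε)
    (rigSection_eq c B ι01 hι01 ε e he).symm L hL

include he in
/-- The class of the line diagram of a rigidified line bundle over `Spec B` is rigid. -/
theorem isRigidCl_clCB_of_rigidified (M : RigidifiedLineBundle c ε (specBase (k := k) B)) :
    IsRigidCl e B (clCB c B ι0 ι1 ι01 hι0 hι1 hι01 h0 h1 t s M.L M.isInvertible) :=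
  (isRigidCl_clCB_iff c B ι0 ι1 ι01 hι0 hι1 hι01 h0 h1 t s ε e he M.L M.isInvertible).mpr
    M.rigidified

include he in
/-- An invertible module on `C_B` whose line diagram is rigid underlies a rigidified line
bundle. -/
noncomputable def rigidifiedOfIsRigidCl (L : (pullback c (specBase (k := k) B)).Modules)
    (hL : Scheme.Modules.IsInvertible L)
    (h : IsRigidCl e B (clCB c B ι0 ι1 ι01 hι0 hι1 hι01 h0 h1 t s L hL)) :
    RigidifiedLineBundle c ε (specBase (k := k) B) where
  L := L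
  isInvertible := hL
  rigidified := (isRigidCl_clCB_iff c B ι0 ι1 ι01 hι0 hι1 hι01 h0 h1 t s ε e he L hL).mp h

end Fermat.Agent.JAC.Bridge.DiagCBRigid4
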