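/-
Programme JAC, work package B3.0 (e) (helper57): global sections of `C ×ₖ T`.

Hypothesis (H) of the rigidified descent (`helper30`, G4): for `c : C ⟶ Spec k` quasi-compact
and quasi-separated over a field `k` with `H⁰(C, 𝒪_C) = k` (`IsIso c.appTop`), and ANY
`t : T ⟶ Spec k`, the map `Γ(T, V) ⟶ Γ(C ×ₖ T, pr₂⁻¹ V)` is an isomorphism for EVERY open `V` of `T`.

* `isIso_snd_app_of_isAffineOpen`: affine `V` (Mathlib's flat base change for sections,
  `isIso_pushoutSection_of_isQuasiSeparated_of_flat_right`; every `k`-scheme is flat over a field);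
* `isIso_snd_app`: all `V` (a morphism of sheaves which is an isomorphism on a basis);
* `bijective_snd_app`: the same, as a bijection;
* `isIso_appTop_of_cover`: the two-chart form of `H⁰(C, 𝒪) = k` exported by B2(ii) gives
  `IsIso c.appTop`;
* `bijective_kToSections_top_iff`: `IsIso c.appTop ↔ Function.Bijective (kToSections c ⊤)`.
-/
import Mathlib
import Fermat.Agent.JAC.Bridge.ChartCover57

set_option autoImplicit false
universe u
open CategoryTheory CategoryTheory.Limits AlgebraicGeometry TensorProduct
open Fermat.Agent.JAC.Bridge.ChartCover57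

namespace Fermat.Agent.JAC.Bridge.GlobalSections57

variable {k : Type u} [Field k] {C : Scheme.{u}} (c : C ⟶ Spec (CommRingCat.of k))
variable {T : Scheme.{u}} (t : T ⟶ Spec (CommRingCat.of k))

/-- Flat base change for global sections of `C`, over an affine open of the base `T`. -/
theorem isIso_snd_app_of_isAffineOpen [CompactSpace C] [QuasiSeparatedSpace C]
    (hc : IsIso c.appTop) {V : T.Opens} (hV : IsAffineOpen V) :
    IsIso ((pullback.snd c t).app V) := by
  have H := IsPullback.of_hasPullback c t
  have h1 : IsIso (pushoutSection H (US := ⊤) (UT := V) (UX := ⊤)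
      (UY := (pullback.snd c t) ⁻¹ᵁ V) le_top le_top (by simp)) :=
    isIso_pushoutSection_of_isQuasiSeparated_of_flat_right H le_top le_top (by simp)
      (isAffineOpen_top _) hV isCompact_univ (isQuasiSeparated_univ_iff.mpr inferInstance)
  have h2 : IsIso (c.appLE ⊤ ⊤ le_top) := by
    have : c.appLE ⊤ ⊤ le_top = c.appTop := by
      simp [Scheme.Hom.appLE, Scheme.Hom.appTop]
    rw [this]; exact hc
  have h3 : pushout.inr (c.appLE ⊤ ⊤ le_top) (t.appLE ⊤ V le_top) ≫
      pushoutSection H (US := ⊤) (UT := V) (UX := ⊤)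
      (UY := (pullback.snd c t) ⁻¹ᵁ V) le_top le_top (by simp) =
      (pullback.snd c t).app V := by
    rw [Scheme.Hom.app_eq_appLE]
    exact pushout.inr_desc _ _ _
  rw [← h3]
  infer_instance

/-- Hypothesis (H): `Γ(T, V) ⟶ Γ(C ×ₖ T, pr₂⁻¹ V)` is an isomorphism for every open `V`. -/
theorem isIso_snd_app [CompactSpace C] [QuasiSeparatedSpace C]
    (hc : IsIso c.appTop) (V : T.Opens) :
    IsIso ((pullback.snd c t).app V) := by
  let f := pullback.snd c t
  let φ : T.sheaf ⟶ (TopCat.Sheaf.pushforward CommRingCat f.base).obj (pullback c t).sheaf :=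
    ⟨f.c⟩
  have hφ : IsIso φ := by
    refine TopCat.Sheaf.isIso_iff_isIso_basis (B := fun V : T.affineOpens => V.1) ?_ ?_
    · have hB : TopologicalSpace.Opens.IsBasis
          (Set.range (fun V : T.affineOpens => (V.1 : T.Opens))) := by
        rw [Subtype.range_coe]; exact T.isBasis_affineOpens
      exact hB
    · intro W
      exact isIso_snd_app_of_isAffineOpen c t hc W.2
  have h2 : IsIso φ.hom := (inferInstance : IsIso ((TopCat.Sheaf.forget _ _).map φ))
  exact (NatTrans.isIso_iff_isIso_app φ.hom).mp h2 (Opposite.op V)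

/-- Hypothesis (H), as a bijection. -/
theorem bijective_snd_app [CompactSpace C] [QuasiSeparatedSpace C]
    (hc : IsIso c.appTop) (V : T.Opens) :
    Function.Bijective ((pullback.snd c t).app V).hom := by
  have := isIso_snd_app c t hc V
  exact ConcreteCategory.bijective_of_isIso ((pullback.snd c t).app V)

/-- Hypothesis (H) for the affine base `Spec B` and `V = ⊤`: `H⁰(C_B, 𝒪) = B`. -/
theorem bijective_snd_appTop [CompactSpace C] [QuasiSeparatedSpace C]
    (hc : IsIso c.appTop) (B : Type u) [CommRing B] [Algebra k B] :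
    Function.Bijective ((pullback.snd c (specBase (k := k) B)).appTop).hom :=
  bijective_snd_app c (specBase (k := k) B) hc ⊤

/-! ### `H⁰(C, 𝒪) = k` from the two-chart form -/

theorem kToSections_top (x : k) :
    kToSections c ⊤ x = c.appTop ((Scheme.ΓSpecIso (CommRingCat.of k)).inv x) := by
  simp [kToSections, Scheme.Hom.appLE, Scheme.Hom.appTop]

theorem bijective_kToSections_top_iff :
    Function.Bijective (kToSections c ⊤) ↔ IsIso c.appTop := by
  rw [ConcreteCategory.isIso_iff_bijective]
  have e : (kToSections c ⊤ : k → Γ(C, ⊤)) =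
      (c.appTop : _ → _) ∘ ((Scheme.ΓSpecIso (CommRingCat.of k)).inv : _ → _) := by
    funext x
    exact kToSections_top c x
  have hb : Function.Bijective ((Scheme.ΓSpecIso (CommRingCat.of k)).inv : _ → _) :=
    ConcreteCategory.bijective_of_isIso _
  rw [e]
  constructor
  · intro h
    exact (Function.Bijective.of_comp_iff _ hb).mp h
  · intro h
    exact h.comp hb

/-- `H⁰(C, 𝒪) = k`, in the two-chart form exported by B2(ii), implies that `c.appTop` is an
isomorphism. -/
theorem isIso_appTop_of_cover [Nonempty C] (U0 U1 : C.Opens) (hcov : U0 ⊔ U1 = ⊤)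
    (h : ∀ (a0 : Γ(C, U0)) (a1 : Γ(C, U1)),
      C.presheaf.map (homOfLE (inf_le_left : U0 ⊓ U1 ≤ U0)).op a0 =
        C.presheaf.map (homOfLE (inf_le_right : U0 ⊓ U1 ≤ U1)).op a1 →
      ∃ x : k, a0 = kToSections c U0 x ∧ a1 = kToSections c U1 x) :
    IsIso c.appTop := by
  rw [ConcreteCategory.isIso_iff_bijective]
  constructor
  · have hne : Nonempty (⊤ : C.Opens) := ⟨⟨Classical.arbitrary C, trivial⟩⟩
    have : Nontrivial Γ(C, ⊤) := Scheme.component_nontrivial C ⊤
    have hf : IsField Γ(Spec (CommRingCat.of k), ⊤) :=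
      MulEquiv.isField (Field.toIsField k)
        (Scheme.ΓSpecIso (CommRingCat.of k)).commRingCatIsoToRingEquiv.toMulEquiv
    let _ := hf.toField
    exact (c.appTop.hom).injective
  · intro a
    obtain ⟨x, hx0, hx1⟩ := h (C.presheaf.map (homOfLE (le_top : U0 ≤ ⊤)).op a)
      (C.presheaf.map (homOfLE (le_top : U1 ≤ ⊤)).op a) (by
        rw [← CommRingCat.comp_apply, ← CommRingCat.comp_apply, ← Functor.map_comp,
          ← Functor.map_comp]
        rfl)
    refine ⟨(Scheme.ΓSpecIso (CommRingCat.of k)).inv x, ?_⟩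
    rw [← kToSections_top]
    apply C.IsSheaf.section_ext
    intro p _
    have hp : p ∈ U0 ⊔ U1 := by rw [hcov]; trivial
    rcases hp with hp | hp
    · exact ⟨U0, le_top, hp, by rw [hx0]; exact kToSections_res c le_top x⟩
    · exact ⟨U1, le_top, hp, by rw [hx1]; exact kToSections_res c le_top x⟩

end Fermat.Agent.JAC.Bridge.GlobalSections57
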