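/-
Programme JAC, B2(ii) / B3.0(e) (helper57): `H⁰(C, 𝒪_C) = k` for `C` integral and universally closed
over an algebraically closed field `k` (from Mathlib's `isIntegral_appTop_of_universallyClosed` and
`isField_of_universallyClosed`), and hypothesis (H) under the hypotheses of S25.
-/
import Mathlib
import Fermat.Agent.JAC.Bridge.GlobalSections57

set_option autoImplicit false
universe u
open CategoryTheory CategoryTheory.Limits AlgebraicGeometry
open Fermat.Agent.JAC.Bridge.ChartCover57 Fermat.Agent.JAC.Bridge.GlobalSections57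

namespace Fermat.Agent.JAC.Bridge.H0Proper57

section general

variable {k : Type u} [Field k] {C : Scheme.{u}} (c : C ⟶ Spec (CommRingCat.of k))

/-- The two-chart form of `H⁰(C, 𝒪) = k` (the literal form of B2(ii)). -/
theorem exists_const_of_cover (hc : Function.Bijective (kToSections c ⊤))
    (U0 U1 : C.Opens) (hcov : U0 ⊔ U1 = ⊤) (a0 : Γ(C, U0)) (a1 : Γ(C, U1))
    (h : C.presheaf.map (homOfLE (inf_le_left : U0 ⊓ U1 ≤ U0)).op a0 =
        C.presheaf.map (homOfLE (inf_le_right : U0 ⊓ U1 ≤ U1)).op a1) :
    ∃ x : k, a0 = kToSections c U0 x ∧ a1 = kToSections c U1 x := by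
  let p : RingHom.eqLocus
      (RingHom.comp (C.sheaf.obj.map (homOfLE inf_le_left : U0 ⊓ U1 ⟶ U0).op).hom
        (RingHom.fst (C.sheaf.obj.obj <| .op U0) (C.sheaf.obj.obj <| .op U1)))
      (RingHom.comp (C.sheaf.obj.map (homOfLE inf_le_right : U0 ⊓ U1 ⟶ U1).op).hom
        (RingHom.snd (C.sheaf.obj.obj <| .op U0) (C.sheaf.obj.obj <| .op U1))) :=
    ⟨(a0, a1), h⟩
  let a := (C.sheaf.objSupIsoProdEqLocus U0 U1).inv p
  have ha0 : C.presheaf.map (homOfLE le_sup_left).op a = a0 :=
    TopCat.Sheaf.objSupIsoProdEqLocus_inv_fst C.sheaf U0 U1 p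
  have ha1 : C.presheaf.map (homOfLE le_sup_right).op a = a1 :=
    TopCat.Sheaf.objSupIsoProdEqLocus_inv_snd C.sheaf U0 U1 p
  have hle : (⊤ : C.Opens) ≤ U0 ⊔ U1 := by rw [hcov]
  obtain ⟨x, hx⟩ := hc.2 (C.presheaf.map (homOfLE hle).op a)
  refine ⟨x, ?_, ?_⟩
  · rw [← ha0, ← kToSections_res c (le_top : U0 ≤ ⊤) x, hx, ← CommRingCat.comp_apply,
      ← Functor.map_comp]
    rfl
  · rw [← ha1, ← kToSections_res c (le_top : U1 ≤ ⊤) x, hx, ← CommRingCat.comp_apply,
      ← Functor.map_comp]
    rfl


end general

variable {k : Type u} [Field k] [IsAlgClosed k] {C : Scheme.{u}} (c : C ⟶ Spec (CommRingCat.of k))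

/-- `H⁰(C, 𝒪_C) = k` for an integral scheme, universally closed over an algebraically closed
field `k`. -/
theorem bijective_kToSections_top [IsIntegral C] [UniversallyClosed c] :
    Function.Bijective (kToSections c ⊤) := by
  have hint : (kToSections c ⊤).IsIntegral := by
    have h := isIntegral_appTop_of_universallyClosed c
    have h2 : (c.appLE ⊤ ⊤ le_top).hom.IsIntegral := by
      have : c.appLE ⊤ ⊤ le_top = c.appTop := by
        simp [Scheme.Hom.appLE, Scheme.Hom.appTop]
      rw [this]; exact h
    exact RingHom.isIntegral_respectsIso.2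
      (e := (Scheme.ΓSpecIso _).symm.commRingCatIsoToRingEquiv) _ h2
  have hfield : IsField Γ(C, ⊤) := isField_of_universallyClosed k c
  let _ := hfield.toField
  algebraize [kToSections c ⊤]
  have : Algebra.IsIntegral k Γ(C, ⊤) := ⟨hint⟩
  exact IsAlgClosed.algebraMap_bijective_of_isIntegral

theorem isIso_appTop [IsIntegral C] [UniversallyClosed c] : IsIso c.appTop :=
  (bijective_kToSections_top_iff c).mp (bijective_kToSections_top c)

variable {T : Scheme.{u}} (t : T ⟶ Spec (CommRingCat.of k))

omit [IsAlgClosed k] in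
theorem compactSpace_of_isProper [IsProper c] : CompactSpace C :=
  (quasiCompact_iff_compactSpace c).mp inferInstance

omit [IsAlgClosed k] in
theorem quasiSeparatedSpace_of_isProper [IsProper c] : QuasiSeparatedSpace C :=
  (quasiSeparated_iff_quasiSeparatedSpace c).mp inferInstance

/-- Hypothesis (H) under the hypotheses of S25: for a proper integral `C` over an algebraically
closed field, `Γ(T, V) ⟶ Γ(C ×ₖ T, pr₂⁻¹ V)` is bijective for every open `V` of every
`k`-scheme `T`. -/
theorem bijective_snd_app_of_isProper [IsProper c] [IsIntegral C] (V : T.Opens) :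
    Function.Bijective ((pullback.snd c t).app V).hom := by
  have := compactSpace_of_isProper c
  have := quasiSeparatedSpace_of_isProper c
  exact bijective_snd_app c t (isIso_appTop c) V

/-- B2(ii), literal form: under the hypotheses of S25, two sections on the two charts which agree
on the overlap are the same constant. -/
theorem exists_const_of_cover_of_isProper [IsIntegral C] [UniversallyClosed c]
    (U0 U1 : C.Opens) (hcov : U0 ⊔ U1 = ⊤) (a0 : Γ(C, U0)) (a1 : Γ(C, U1))
    (h : C.presheaf.map (homOfLE (inf_le_left : U0 ⊓ U1 ≤ U0)).op a0 =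
        C.presheaf.map (homOfLE (inf_le_right : U0 ⊓ U1 ≤ U1)).op a1) :
    ∃ x : k, a0 = kToSections c U0 x ∧ a1 = kToSections c U1 x :=
  exists_const_of_cover c (bijective_kToSections_top c) U0 U1 hcov a0 a1 h

end Fermat.Agent.JAC.Bridge.H0Proper57
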