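/-
JAC brick "rigidity bridge" (helper35's #727 (2), for B3.4).  Owner: helper85.

* `nonempty_pullback_iso_unit_iff`: for a `B`-point `σ : Spec B ⟶ X` lying in an affine chart
  `j : Spec R ⟶ X` (through `algebraMap R B`) and `L` with `L|_j` quasi-coherent:
  `σ^* L ≅ 𝒪` iff `B ⊗[R] Γ(L|_j) ≃ B`.
* `isRigid_diag_iff`: in helper4's two-chart setting, `LineDiag.IsRigid (B := B) (diag .. L hL)`
  iff `σ^* L` is trivial, for `σ = Spec (algebraMap R01 B) ≫ j01`
  (for `C_B`: `σ = rigSection`, by `ChartCover57.rigSection_eq`, `Algebra := rigAlgebra B e`).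
-/
import Fermat.Agent.JAC.Bridge.TwoChartDiag4
import Fermat.Agent.JAC.Mod.AffineInv85

set_option autoImplicit false
universe u
open CategoryTheory CategoryTheory.Limits AlgebraicGeometry TensorProduct

namespace Fermat.Agent.JAC.Bridge.RigidBridge85

open Fermat.Agent.JAC.Core.Defs36 Fermat.Agent.JAC.Mod

section Abstract

variable {X : Scheme.{u}} {R : CommRingCat.{u}} (j : Spec R ⟶ X) [IsOpenImmersion j]
  {B : Type u} [CommRing B] [Algebra R B] (σ : Spec (CommRingCat.of B) ⟶ X)
  (hσ : σ = Spec.map (CommRingCat.ofHom (algebraMap R B)) ≫ j) (L : X.Modules)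

/-- The pullback of `L` along a `B`-point `σ` lying in the chart `j` is the pullback of `L|_j`
along the corresponding map of affine schemes. -/
noncomputable def pullbackPointIso :
    (Scheme.Modules.pullback σ).obj L ≅
      (Scheme.Modules.pullback (Spec.map (CommRingCat.ofHom (algebraMap R B)))).obj
        (L.restrict j) :=
  (Scheme.Modules.pullbackCongr hσ).app L ≪≫
    ((Scheme.Modules.pullbackComp (Spec.map (CommRingCat.ofHom (algebraMap R B))) j).app L).symm ≪≫
    (Scheme.Modules.pullback (Spec.map (CommRingCat.ofHom (algebraMap R B)))).mapIso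
      ((Scheme.Modules.restrictFunctorIsoPullback j).app L).symm

include hσ in
/-- **Rigidification bridge (abstract form).**  For a `B`-point `σ` of `X` lying in the affine
chart `j : Spec R ⟶ X` and `L` with `L|_j` quasi-coherent: `σ^* L` is trivial iff
`B ⊗[R] Γ(L|_j)` is free of rank one. -/
theorem nonempty_pullback_iso_unit_iff [(L.restrict j).IsQuasicoherent] :
    Nonempty ((Scheme.Modules.pullback σ).obj L ≅
        SheafOfModules.unit (Spec (CommRingCat.of B)).ringCatSheaf) ↔
      Nonempty (B ⊗[R] Γ(L.restrict j, ⊤) ≃ₗ[B] B) := by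
  let ρ : R ⟶ CommRingCat.of B := CommRingCat.ofHom (algebraMap R B)
  let N : ModuleCat.{u} (CommRingCat.of B) :=
    (ModuleCat.extendScalars ρ.hom).obj (moduleSpecΓFunctor.obj (L.restrict j))
  have e : (Scheme.Modules.pullback σ).obj L ≅ tilde N :=
    pullbackPointIso j σ hσ L ≪≫ AffineInv85.pullbackIsoTilde ρ (L.restrict j)
  have h1 : Nonempty ((Scheme.Modules.pullback σ).obj L ≅
        SheafOfModules.unit (Spec (CommRingCat.of B)).ringCatSheaf) ↔
      Nonempty (tilde N ≅ SheafOfModules.unit (Spec (CommRingCat.of B)).ringCatSheaf) :=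
    ⟨fun ⟨a⟩ => ⟨e.symm ≪≫ a⟩, fun ⟨a⟩ => ⟨e ≪≫ a⟩⟩
  rw [h1, AffineInv85.nonempty_tilde_iso_unit_iff]
  obtain ⟨e2⟩ := AffineInv85.nonempty_extendScalars_equiv (R := R) (S := B)
    (moduleSpecΓFunctor.obj (L.restrict j))
  exact ⟨fun ⟨a⟩ => ⟨e2.symm ≪≫ₗ a⟩, fun ⟨a⟩ => ⟨e2 ≪≫ₗ a⟩⟩

end Abstract

section Diag

variable {X : Scheme.{u}}
variable {R0 R1 R01 : CommRingCat.{u}} [Algebra R0 R01] [Algebra R1 R01]
  (j0 : Spec R0 ⟶ X) (j1 : Spec R1 ⟶ X) (j01 : Spec R01 ⟶ X)
  [IsOpenImmersion j0] [IsOpenImmersion j1] [IsOpenImmersion j01]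
  (h0 : Spec.map (CommRingCat.ofHom (algebraMap R0 R01)) ≫ j0 = j01)
  (h1 : Spec.map (CommRingCat.ofHom (algebraMap R1 R01)) ≫ j1 = j01)
  (t : R0) (s : R1) [IsLocalization.Away t R01] [IsLocalization.Away s R01]
  {B : Type u} [CommRing B] [Algebra R01 B] (σ : Spec (CommRingCat.of B) ⟶ X)
  (hσ : σ = Spec.map (CommRingCat.ofHom (algebraMap R01 B)) ≫ j01)

include hσ in
/-- **Rigidification bridge for line diagrams**: for a `B`-point `σ` of `X` lying in the overlap
chart `j01` (through `algebraMap R01 B`), the line diagram of an invertible `L` is rigid along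
`R01 → B` iff `σ^* L` is trivial. -/
theorem isRigid_diag_iff (L : X.Modules) (hL : Scheme.Modules.IsInvertible L) :
    LineDiag.IsRigid (B := B) (TwoChartDiag4.diag j0 j1 j01 h0 h1 t s L hL) ↔
      Nonempty ((Scheme.Modules.pullback σ).obj L ≅
        SheafOfModules.unit (Spec (CommRingCat.of B)).ringCatSheaf) := by
  have := Affine36.isQuasicoherent_of_isInvertible L hL
  exact (nonempty_pullback_iso_unit_iff j01 σ hσ L).symm

end Diag

end Fermat.Agent.JAC.Bridge.RigidBridge85
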