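/-
Programme JAC (S25), chapter Bridge (B3).  Owner: helper35.

The canonical map on sections `Γ(F, U) ⟶ Γ(f^* F, W)` for a morphism `f : Y ⟶ X` of schemes, an
`𝒪_X`-module `F`, opens `U ⊆ X`, `W ⊆ Y` with `W ≤ f ⁻¹ᵁ U` (the unit of the adjunction
`f^* ⊣ f_*` on sections, followed by restriction), and its calculus: naturality in `F`,
compatibility with restriction, composition, equality of morphisms, semilinearity, and bijectivity
for open immersions.  Mathlib only.
-/
import Mathlib

set_option autoImplicit false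

universe u

open CategoryTheory CategoryTheory.Limits AlgebraicGeometry

namespace Fermat.Agent.JAC.Bridge.SecPull35

variable {X Y Z : Scheme.{u}}

/-- The canonical map `Γ(F, U) ⟶ Γ(f^* F, f ⁻¹ᵁ U)`: the unit of the pullback-pushforward
adjunction on sections over `U`. -/
noncomputable def secPull (f : Y ⟶ X) (F : X.Modules) (U : X.Opens) :
    Γ(F, U) ⟶ Γ((Scheme.Modules.pullback f).obj F, f ⁻¹ᵁ U) :=
  ((Scheme.Modules.pullbackPushforwardAdjunction f).unit.app F).app U

/-- The canonical map `Γ(F, U) ⟶ Γ(f^* F, W)` for `W ≤ f ⁻¹ᵁ U`. -/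
noncomputable def secPullLE (f : Y ⟶ X) (F : X.Modules) (U : X.Opens) (W : Y.Opens)
    (h : W ≤ f ⁻¹ᵁ U) : Γ(F, U) ⟶ Γ((Scheme.Modules.pullback f).obj F, W) :=
  secPull f F U ≫ ((Scheme.Modules.pullback f).obj F).presheaf.map (homOfLE h).op

/-- Naturality of `secPull` in the sheaf. -/
theorem secPull_naturality (f : Y ⟶ X) {F G : X.Modules} (α : F ⟶ G) (U : X.Opens) :
    α.app U ≫ secPull f G U =
      secPull f F U ≫ ((Scheme.Modules.pullback f).map α).app (f ⁻¹ᵁ U) := by
  have h := (Scheme.Modules.pullbackPushforwardAdjunction f).unit.naturality α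
  exact congrArg (fun φ => Scheme.Modules.Hom.app φ U) h

/-- A morphism of modules commutes with restriction. -/
theorem app_res {F G : X.Modules} (α : F ⟶ G) {U U' : X.Opens} (h : U' ≤ U) :
    F.presheaf.map (homOfLE h).op ≫ α.app U' = α.app U ≫ G.presheaf.map (homOfLE h).op :=
  α.mapPresheaf.naturality (homOfLE h).op

/-- Compatibility of `secPull` with restriction. -/
theorem secPull_res (f : Y ⟶ X) (F : X.Modules) {U U' : X.Opens} (h : U' ≤ U) :
    F.presheaf.map (homOfLE h).op ≫ secPull f F U' =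
      secPull f F U ≫ ((Scheme.Modules.pullback f).obj F).presheaf.map
        (homOfLE (show f ⁻¹ᵁ U' ≤ f ⁻¹ᵁ U from f.preimage_mono h)).op :=
  app_res ((Scheme.Modules.pullbackPushforwardAdjunction f).unit.app F) h

/-- Naturality of `secPullLE` in the sheaf. -/
theorem secPullLE_naturality (f : Y ⟶ X) {F G : X.Modules} (α : F ⟶ G) (U : X.Opens)
    (W : Y.Opens) (h : W ≤ f ⁻¹ᵁ U) :
    α.app U ≫ secPullLE f G U W h =
      secPullLE f F U W h ≫ ((Scheme.Modules.pullback f).map α).app W := by
  unfold secPullLE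
  rw [← Category.assoc, secPull_naturality, Category.assoc, Category.assoc, app_res]

/-- Compatibility of `secPullLE` with restriction on the source. -/
theorem secPullLE_res_left (f : Y ⟶ X) (F : X.Modules) {U U' : X.Opens} (hU : U' ≤ U)
    (W : Y.Opens) (h : W ≤ f ⁻¹ᵁ U') :
    F.presheaf.map (homOfLE hU).op ≫ secPullLE f F U' W h =
      secPullLE f F U W (h.trans (f.preimage_mono hU)) := by
  unfold secPullLE
  rw [← Category.assoc, secPull_res, Category.assoc, ← Functor.map_comp]
  rfl

/-- Compatibility of `secPullLE` with restriction on the target. -/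
theorem secPullLE_res_right (f : Y ⟶ X) (F : X.Modules) (U : X.Opens)
    {W W' : Y.Opens} (h : W ≤ f ⁻¹ᵁ U) (hW : W' ≤ W) :
    secPullLE f F U W h ≫ ((Scheme.Modules.pullback f).obj F).presheaf.map (homOfLE hW).op =
      secPullLE f F U W' (hW.trans h) := by
  unfold secPullLE
  rw [Category.assoc, ← Functor.map_comp]
  rfl

theorem secPullLE_self (f : Y ⟶ X) (F : X.Modules) (U : X.Opens) :
    secPullLE f F U (f ⁻¹ᵁ U) le_rfl = secPull f F U := by
  unfold secPullLE
  have : (homOfLE (le_refl (f ⁻¹ᵁ U))).op = 𝟙 _ := rfl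
  rw [this, CategoryTheory.Functor.map_id, Category.comp_id]

/-- Compatibility of `secPull` with composition. -/
theorem secPull_comp (f : Y ⟶ X) (g : X ⟶ Z) (F : Z.Modules) (U : Z.Opens) :
    secPull (f ≫ g) F U =
      secPull g F U ≫ secPull f ((Scheme.Modules.pullback g).obj F) (g ⁻¹ᵁ U) ≫
        ((Scheme.Modules.pullbackComp f g).hom.app F).app ((f ≫ g) ⁻¹ᵁ U) := by
  have h := unit_conjugateEquiv
    ((Scheme.Modules.pullbackPushforwardAdjunction g).comp
      (Scheme.Modules.pullbackPushforwardAdjunction f))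
    (Scheme.Modules.pullbackPushforwardAdjunction (f ≫ g))
    (Scheme.Modules.pullbackComp f g).inv F
  rw [Scheme.Modules.conjugateEquiv_pullbackComp_inv, Adjunction.comp_unit_app] at h
  have h2 := congrArg (fun φ => φ ≫ (Scheme.Modules.pushforward (f ≫ g)).map
    ((Scheme.Modules.pullbackComp f g).hom.app F)) h
  simp only [Category.assoc, ← Functor.map_comp, Iso.inv_hom_id_app, Functor.map_id,
    Category.comp_id] at h2
  have h3 := congrArg (fun φ => Scheme.Modules.Hom.app φ U) h2
  simp only [Scheme.Modules.Hom.comp_app, Scheme.Modules.pushforward_map_app,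
    Scheme.Modules.pushforwardComp_hom_app_app, Category.id_comp, Category.assoc] at h3
  exact h3.symm

/-- Compatibility of `secPullLE` with composition. -/
theorem secPullLE_comp (f : Y ⟶ X) (g : X ⟶ Z) (F : Z.Modules) (U : Z.Opens) (W' : X.Opens)
    (W : Y.Opens) (h' : W' ≤ g ⁻¹ᵁ U) (h : W ≤ f ⁻¹ᵁ W') :
    secPullLE (f ≫ g) F U W (h.trans (f.preimage_mono h')) =
      secPullLE g F U W' h' ≫ secPullLE f ((Scheme.Modules.pullback g).obj F) W' W h ≫
        ((Scheme.Modules.pullbackComp f g).hom.app F).app W := by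
  have e1 : secPullLE g F U W' h' ≫ secPullLE f ((Scheme.Modules.pullback g).obj F) W' W h =
      secPull g F U ≫ secPullLE f ((Scheme.Modules.pullback g).obj F) (g ⁻¹ᵁ U) W
        (h.trans (f.preimage_mono h')) := by
    conv_lhs => unfold secPullLE
    rw [Category.assoc]
    congr 1
    exact secPullLE_res_left f ((Scheme.Modules.pullback g).obj F) h' W h
  rw [← Category.assoc, e1]
  have e2 := app_res ((Scheme.Modules.pullbackComp f g).hom.app F) (U := (f ≫ g) ⁻¹ᵁ U)
    (U' := W) (h.trans (f.preimage_mono h'))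
  unfold secPullLE
  rw [secPull_comp]
  ext x
  exact (congrArg (fun φ => φ.hom ((secPull f ((Scheme.Modules.pullback g).obj F) (g ⁻¹ᵁ U)).hom
    ((secPull g F U).hom x))) e2).symm

/-- Compatibility of `secPullLE` with equalities of morphisms. -/
theorem secPullLE_congr {f f' : Y ⟶ X} (e : f = f') (F : X.Modules) (U : X.Opens) (W : Y.Opens)
    (h : W ≤ f ⁻¹ᵁ U) :
    secPullLE f' F U W (e ▸ h) =
      secPullLE f F U W h ≫ ((Scheme.Modules.pullbackCongr e).hom.app F).app W := by
  subst e
  simp [Scheme.Modules.pullbackCongr]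

/-- `secPull` is semilinear with respect to `f.app U`. -/
theorem secPull_smul (f : Y ⟶ X) (F : X.Modules) (U : X.Opens) (r : Γ(X, U)) (x : Γ(F, U)) :
    (secPull f F U).hom (r • x) =
      (f.app U r : Γ(Y, f ⁻¹ᵁ U)) • ((secPull f F U).hom x :
        Γ((Scheme.Modules.pullback f).obj F, f ⁻¹ᵁ U)) :=
  Scheme.Modules.Hom.app_smul
    ((Scheme.Modules.pullbackPushforwardAdjunction f).unit.app F) r x

/-- `secPullLE` is semilinear with respect to `f.appLE U W h`. -/
theorem secPullLE_smul (f : Y ⟶ X) (F : X.Modules) (U : X.Opens) (W : Y.Opens)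
    (h : W ≤ f ⁻¹ᵁ U) (r : Γ(X, U)) (x : Γ(F, U)) :
    (secPullLE f F U W h).hom (r • x) =
      (f.appLE U W h r : Γ(Y, W)) • ((secPullLE f F U W h).hom x :
        Γ((Scheme.Modules.pullback f).obj F, W)) := by
  unfold secPullLE
  rw [AddCommGrpCat.hom_comp, AddMonoidHom.comp_apply, secPull_smul]
  exact Scheme.Modules.map_smul ((Scheme.Modules.pullback f).obj F) (homOfLE h) _ _

section OpenImmersion

variable (j : Y ⟶ X) [IsOpenImmersion j]

/-- The unit of `j^* ⊣ j_*` factors through the unit of `restrict ⊣ j_*`. -/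
theorem secPull_eq_of_isOpenImmersion (F : X.Modules) (U : X.Opens) :
    secPull j F U = F.presheaf.map (homOfLE (j.image_preimage_le U)).op ≫
      ((Scheme.Modules.restrictFunctorIsoPullback j).hom.app F).app (j ⁻¹ᵁ U) := by
  have h := Adjunction.unit_leftAdjointUniq_hom_app (Scheme.Modules.restrictAdjunction j)
    (Scheme.Modules.pullbackPushforwardAdjunction j) F
  have h2 := congrArg (fun φ => Scheme.Modules.Hom.app φ U) h
  exact h2.symm

/-- For an open immersion `j` and `U` inside its range, `Γ(F, U) ⟶ Γ(j^* F, j ⁻¹ᵁ U)` is an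
isomorphism. -/
theorem isIso_secPull_of_isOpenImmersion (F : X.Modules) (U : X.Opens)
    (hU : U ≤ j.opensRange) : IsIso (secPull j F U) := by
  rw [secPull_eq_of_isOpenImmersion]
  have e : j ''ᵁ j ⁻¹ᵁ U = U := by
    rw [Scheme.Hom.image_preimage_eq_opensRange_inf]
    exact inf_eq_right.mpr hU
  haveI : IsIso (homOfLE (j.image_preimage_le U)) :=
    ⟨⟨homOfLE (le_of_eq e.symm), Subsingleton.elim _ _, Subsingleton.elim _ _⟩⟩
  have h1 : IsIso (F.presheaf.map (homOfLE (j.image_preimage_le U)).op) := inferInstance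
  have h2 : IsIso (((Scheme.Modules.restrictFunctorIsoPullback j).hom.app F).app (j ⁻¹ᵁ U)) :=
    inferInstance
  exact @IsIso.comp_isIso _ _ _ _ _ _ _ h1 h2

/-- For an open immersion `j` and `W` with image `U`, `Γ(F, U) ⟶ Γ(j^* F, W)` is an
isomorphism. -/
theorem isIso_secPullLE_of_isOpenImmersion (F : X.Modules) (U : X.Opens) (W : Y.Opens)
    (hW : j ''ᵁ W = U) :
    IsIso (secPullLE j F U W (by rw [← hW, j.preimage_image_eq])) := by
  have hU : U ≤ j.opensRange := by
    rw [← hW]
    exact j.image_le_opensRange W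
  have e : W = j ⁻¹ᵁ U := by rw [← hW, j.preimage_image_eq]
  have := isIso_secPull_of_isOpenImmersion j F U hU
  unfold secPullLE
  have : IsIso (homOfLE (show W ≤ j ⁻¹ᵁ U from le_of_eq e)) :=
    ⟨⟨homOfLE (le_of_eq e.symm), Subsingleton.elim _ _, Subsingleton.elim _ _⟩⟩
  infer_instance

end OpenImmersion

end Fermat.Agent.JAC.Bridge.SecPull35
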