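/-
Programme JAC (S25), chapter Bridge, brick B3.3 (Surj) (helper87).

`X` a scheme covered by two affine opens `V0`, `V1` whose intersection is a basic open of both
(`V0 ⊓ V1 = D(t) = D(s)`).  Every "line diagram" of modules
`M0 --ρ0--> M01 <--ρ1-- M1` over `Γ(X, V0) → Γ(X, V0 ⊓ V1) ← Γ(X, V1)` with `ρ0`, `ρ1` base
changes (`Core.Cart36.IsBaseChangeHom`) is the diagram of sections of a sheaf of modules `L` on `X`,
quasi-coherent on `V0` and `V1`, and invertible if `M0`, `M1` are invertible modules.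

* `isBaseChangeHom_of_isLocalizedModule` : localisation of modules ⇒ `IsBaseChangeHom`;
* `isLocalizedModule_resₗ_of_eq_basicOpen'` : helper4's B1.4 assuming quasi-coherence on `V` only;
* `isIso_fromTildeΓ_restrict_of_le` : quasi-coherent on an affine `V` ⇒ on every affine `V' ≤ V`;
* `pushTilde hV M` : the sheaf `(hV.fromSpec)_* (tilde M)` on `X`, and `pushTildeSec`;
* `exists_glue_of_linearEquiv` : glue `L0|V0` and `L1|V1` along a linear equivalence
  `Γ(L0, V0 ⊓ V1) ≃ₗ Γ(L1, V0 ⊓ V1)` (affine intersection, quasi-coherence there);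
* `exists_modules_of_diagram` : **(Surj)**.
-/
import Mathlib
import Fermat.Prelude.Def_AlgebraicGeometry_RelativePicardFunctor
import Fermat.Agent.JAC.Core.Cart36
import Fermat.Agent.JAC.Glue.TwoGlue1
import Fermat.Agent.JAC.Glue.InvStab23
import Fermat.Agent.JAC.Mod.AffineInv85
import Fermat.Agent.JAC.Mod.SectionsLoc4
import Fermat.Agent.JAC.Bridge.AffineSec87

set_option autoImplicit false
set_option linter.style.haveILetI false

universe u

open CategoryTheory AlgebraicGeometry TopologicalSpace Opposite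

namespace Fermat.Agent.JAC.Bridge.TwoAffine87

open Fermat.Agent.JAC.Core.Cart36 Fermat.Agent.JAC.Glue.HomGlue1
  Fermat.Agent.JAC.Glue.RestrictHom1 Fermat.Agent.JAC.Glue.TwoGlue1
  Fermat.Agent.JAC.Mod.SectionsLoc4 Fermat.Agent.JAC.Bridge.AffineSec87

noncomputable section

/-! ### Algebra: a localisation of modules along a localisation of rings is a base change -/

section Alg

variable {R R' : Type u} [CommRing R] [CommRing R'] {φ : R →+* R'}
  {P P' : Type u} [AddCommGroup P] [Module R P] [AddCommGroup P'] [Module R' P']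

/-- A localisation of modules along a localisation of rings is a base change. -/
theorem isBaseChangeHom_of_isLocalizedModule (f : R)
    (hloc : @IsLocalization.Away R _ f R' _ φ.toAlgebra) (θ : P →ₛₗ[φ] P')
    [Module R P'] (hcompat : ∀ (r : R) (y : P'), r • y = φ r • y)
    (θ₀ : P →ₗ[R] P') (hθ₀ : ∀ x, θ₀ x = θ x) [IsLocalizedModule (.powers f) θ₀] :
    IsBaseChangeHom θ := by
  intro Q _ _ g
  letI : Algebra R R' := φ.toAlgebra
  letI : Module R Q := Module.compHom Q φ
  haveI : IsScalarTower R R' Q := IsScalarTower.of_algebraMap_smul (fun r x => rfl)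
  haveI : IsScalarTower R R' P' := IsScalarTower.of_algebraMap_smul (fun r x => (hcompat r x).symm)
  let g₀ : P →ₗ[R] Q :=
    { toFun := g
      map_add' := map_add g
      map_smul' := fun r x => by rw [g.map_smulₛₗ]; rfl }
  have hunit : ∀ x : Submonoid.powers f, IsUnit (algebraMap R (Module.End R Q) x) := by
    rintro ⟨_, n, rfl⟩
    have hu : IsUnit (algebraMap R R' (f ^ n)) :=
      IsLocalization.map_units R' (⟨f ^ n, n, rfl⟩ : Submonoid.powers f)
    obtain ⟨u, hu⟩ := hu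
    have h1 : ∀ c : Q, (f ^ n) • c = (u : R') • c := fun c => by
      rw [hu]; rfl
    rw [Module.End.isUnit_iff]
    constructor
    · intro a b hab
      simp only [Module.algebraMap_end_apply] at hab
      rw [h1, h1] at hab
      have := congrArg (fun c => (↑u⁻¹ : R') • c) hab
      simpa [smul_smul] using this
    · intro a
      refine ⟨(↑u⁻¹ : R') • a, ?_⟩
      simp only [Module.algebraMap_end_apply]
      rw [h1, smul_smul, Units.mul_inv, one_smul]
  let g₁ : P' →ₗ[R] Q := IsLocalizedModule.lift (.powers f) θ₀ g₀ hunit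
  let g' : P' →ₗ[R'] Q := LinearMap.extendScalarsOfIsLocalization (.powers f) R' g₁
  refine ⟨g', fun x => ?_, fun g'' hg'' => ?_⟩
  · change g₁ (θ x) = g x
    rw [← hθ₀]
    exact IsLocalizedModule.lift_apply (.powers f) θ₀ g₀ hunit x
  · have h2 : g₁ = g''.restrictScalars R := by
      apply IsLocalizedModule.lift_unique (.powers f) θ₀ g₀ hunit
      ext x
      simp only [LinearMap.coe_comp, Function.comp_apply, LinearMap.coe_restrictScalars]
      rw [hθ₀, hg'']
      rfl
    ext y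
    exact congr($h2 y).symm

end Alg

/-! ### helper4's B1.4 (`Mod/SectionsLoc4`) under the weaker hypothesis that only the restriction
of `M` to `Spec Γ(X, V)` is quasi-coherent (same proofs) -/

section LocWeak

variable {X : Scheme.{u}} (M : X.Modules) {V : X.Opens} (hV : IsAffineOpen V)
  [IsIso (M.restrict hV.fromSpec).fromTildeΓ] (f : Γ(X, V))

theorem isLocalizedModule_restrict_fromSpec' : IsLocalizedModule (.powers f)
    ((modulesSpecToSheaf.obj (M.restrict hV.fromSpec)).obj.map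
      (PrimeSpectrum.basicOpen f).leTop.op).hom :=
  (isIso_fromTildeΓ_iff_isLocalizing (M.restrict hV.fromSpec)).mp inferInstance f

theorem exists_pow_smul_eq_res_aux' (W₁ W₂ : X.Opens) (h₁ : hV.fromSpec ''ᵁ ⊤ = W₁)
    (h₂ : hV.fromSpec ''ᵁ (PrimeSpectrum.basicOpen f) = W₂) (h₁V : W₁ ≤ V) (h₂₁ : W₂ ≤ W₁)
    (x : Γ(M, W₂)) :
    ∃ (n : ℕ) (y : Γ(M, W₁)),
      (X.presheaf.map (homOfLE (h₂₁.trans h₁V)).op f) ^ n • x =
        M.presheaf.map (homOfLE h₂₁).op y := by
  subst h₁ h₂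
  have hloc := isLocalizedModule_restrict_fromSpec' M hV f
  obtain ⟨⟨y, ⟨_, n, rfl⟩⟩, hy⟩ :=
    hloc.surj (show Γ(M.restrict hV.fromSpec, PrimeSpectrum.basicOpen f) from x)
  refine ⟨n, y, ?_⟩
  have h3 := restrictAppIso_smul_fromSpec M hV (PrimeSpectrum.basicOpen f) (f ^ n) x
  rw [map_pow] at h3
  exact h3.symm.trans hy

theorem exists_pow_smul_eq_of_res_eq_aux' (W₁ W₂ : X.Opens) (h₁ : hV.fromSpec ''ᵁ ⊤ = W₁)
    (h₂ : hV.fromSpec ''ᵁ (PrimeSpectrum.basicOpen f) = W₂) (h₁V : W₁ ≤ V) (h₂₁ : W₂ ≤ W₁)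
    (y₁ y₂ : Γ(M, W₁))
    (h : M.presheaf.map (homOfLE h₂₁).op y₁ = M.presheaf.map (homOfLE h₂₁).op y₂) :
    ∃ n : ℕ, (X.presheaf.map (homOfLE h₁V).op f) ^ n • y₁ =
      (X.presheaf.map (homOfLE h₁V).op f) ^ n • y₂ := by
  subst h₁ h₂
  have hloc := isLocalizedModule_restrict_fromSpec' M hV f
  obtain ⟨⟨_, n, rfl⟩, hc⟩ := hloc.exists_of_eq
    (x₁ := (show Γ(M.restrict hV.fromSpec, ⊤) from y₁))
    (x₂ := (show Γ(M.restrict hV.fromSpec, ⊤) from y₂)) h
  refine ⟨n, ?_⟩
  have h3 := restrictAppIso_smul_fromSpec M hV ⊤ (f ^ n) y₁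
  have h4 := restrictAppIso_smul_fromSpec M hV ⊤ (f ^ n) y₂
  rw [map_pow] at h3 h4
  exact h3.symm.trans (hc.trans h4)

include hV in
theorem exists_pow_smul_eq_res' (x : Γ(M, X.basicOpen f)) :
    ∃ (n : ℕ) (y : Γ(M, V)),
      (X.presheaf.map (homOfLE (X.basicOpen_le f)).op f) ^ n • x =
        M.presheaf.map (homOfLE (X.basicOpen_le f)).op y :=
  exists_pow_smul_eq_res_aux' M hV f V (X.basicOpen f)
    (hV.fromSpec.image_top_eq_opensRange.trans hV.opensRange_fromSpec)
    (hV.fromSpec_image_basicOpen f) le_rfl (X.basicOpen_le f) x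

include hV in
theorem exists_pow_smul_eq_of_res_eq' (y₁ y₂ : Γ(M, V))
    (h : M.presheaf.map (homOfLE (X.basicOpen_le f)).op y₁ =
      M.presheaf.map (homOfLE (X.basicOpen_le f)).op y₂) :
    ∃ n : ℕ, f ^ n • y₁ = f ^ n • y₂ := by
  obtain ⟨n, hn⟩ := exists_pow_smul_eq_of_res_eq_aux' M hV f V (X.basicOpen f)
    (hV.fromSpec.image_top_eq_opensRange.trans hV.opensRange_fromSpec)
    (hV.fromSpec_image_basicOpen f) le_rfl (X.basicOpen_le f) y₁ y₂ h
  refine ⟨n, ?_⟩
  have e : X.presheaf.map (homOfLE (le_refl V)).op f = f := by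
    show X.presheaf.map (𝟙 (op V)) f = f
    rw [X.presheaf.map_id]; rfl
  rwa [e] at hn

include hV in
/-- B1.4 for a module which is quasi-coherent on the affine open `V`. -/
theorem isLocalizedModule_resₗ_basicOpen' :
    letI := moduleOfLE M (X.basicOpen_le f)
    IsLocalizedModule (.powers f) (resₗ M (X.basicOpen_le f)) := by
  let _ := moduleOfLE M (X.basicOpen_le f)
  have hu : IsUnit (X.presheaf.map (homOfLE (X.basicOpen_le f)).op f) :=
    RingedSpace.isUnit_res_basicOpen X.toRingedSpace f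
  refine ⟨?_, ?_, ?_⟩
  · rintro ⟨_, n, rfl⟩
    rw [Module.End.isUnit_iff]
    have hun := hu.pow n
    constructor
    · intro a b hab
      rw [Module.algebraMap_end_apply, Module.algebraMap_end_apply, moduleOfLE_smul_def,
        moduleOfLE_smul_def, map_pow] at hab
      exact hun.smul_left_cancel.mp hab
    · intro a
      obtain ⟨u, hu'⟩ := hun
      refine ⟨(↑u⁻¹ : Γ(X, X.basicOpen f)) • a, ?_⟩
      simp only [Module.algebraMap_end_apply]
      rw [moduleOfLE_smul_def, map_pow, ← hu', smul_smul, Units.mul_inv, one_smul]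
  · intro x
    obtain ⟨n, y, h⟩ := exists_pow_smul_eq_res' M hV f x
    refine ⟨⟨y, ⟨f ^ n, n, rfl⟩⟩, ?_⟩
    show (f ^ n) • x = resₗ M (X.basicOpen_le f) y
    rw [moduleOfLE_smul_def, map_pow, resₗ_apply]
    exact h
  · intro y₁ y₂ h
    obtain ⟨n, hn⟩ := exists_pow_smul_eq_of_res_eq' M hV f y₁ y₂ h
    exact ⟨⟨f ^ n, n, rfl⟩, hn⟩

include hV in
/-- Variant for an open `W` which is only propositionally equal to `D(f)`. -/
theorem isLocalizedModule_resₗ_of_eq_basicOpen' {W : X.Opens} (hWV : W ≤ V)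
    (hW : W = X.basicOpen f) :
    letI := moduleOfLE M hWV
    IsLocalizedModule (.powers f) (resₗ M hWV) := by
  subst hW
  exact isLocalizedModule_resₗ_basicOpen' M hV f

end LocWeak

/-! ### Quasi-coherence on smaller affine opens -/

section QCRestrict

/-- Quasi-coherence on `Spec R` (in the form `IsIso fromTildeΓ`) is invariant under isomorphism. -/
theorem isIso_fromTildeΓ_of_iso {R : CommRingCat.{u}} {N N' : (Spec R).Modules} (e : N ≅ N')
    [IsIso N.fromTildeΓ] : IsIso N'.fromTildeΓ := by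
  rw [← isQuasicoherent_iff_isIso_fromTildeΓ] at *
  exact (SheafOfModules.isQuasicoherent (Spec R).ringCatSheaf).prop_of_iso e ‹_›

variable {X : Scheme.{u}} (F : X.Modules) {V V' : X.Opens} (hV : IsAffineOpen V)
  (hV' : IsAffineOpen V')

/-- If `F` is quasi-coherent on the affine open `V` then it is quasi-coherent on every smaller
affine open. -/
theorem isIso_fromTildeΓ_restrict_of_le (h : V' ≤ V) [IsIso (F.restrict hV.fromSpec).fromTildeΓ] :
    IsIso (F.restrict hV'.fromSpec).fromTildeΓ := by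
  have hcomp : Spec.map (X.presheaf.map (homOfLE h).op) ≫ hV.fromSpec = hV'.fromSpec :=
    hV.map_fromSpec hV' (homOfLE h).op
  haveI : IsOpenImmersion (Spec.map (X.presheaf.map (homOfLE h).op) ≫ hV.fromSpec) := by
    rw [hcomp]; infer_instance
  haveI : IsOpenImmersion (Spec.map (X.presheaf.map (homOfLE h).op)) :=
    IsOpenImmersion.of_comp _ hV.fromSpec
  let iso : (F.restrict hV.fromSpec).restrict (Spec.map (X.presheaf.map (homOfLE h).op)) ≅
      F.restrict hV'.fromSpec :=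
    ((Scheme.Modules.restrictFunctorComp (Spec.map (X.presheaf.map (homOfLE h).op))
      hV.fromSpec).app F).symm ≪≫ (Scheme.Modules.restrictFunctorCongr hcomp).app F
  haveI : (F.restrict hV.fromSpec).IsQuasicoherent :=
    (isQuasicoherent_iff_isIso_fromTildeΓ _).mpr inferInstance
  haveI : IsIso ((F.restrict hV.fromSpec).restrict
      (Spec.map (X.presheaf.map (homOfLE h).op))).fromTildeΓ := inferInstance
  exact isIso_fromTildeΓ_of_iso iso

end QCRestrict

/-! ### Local isomorphisms and sections -/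

section LocalIsoSec

variable {X : Scheme.{u}} {L L' : X.Modules} {U : X.Opens}

/-- The linear equivalence on sections over `W ≤ U` induced by a local isomorphism on `U`. -/
def localIsoAppₗ (a : LocalIso L L' U) (W : X.Opens) (h : W ≤ U) :
    Γ(L, W) ≃ₗ[Γ(X, W)] Γ(L', W) where
  toFun := a.hom.app W h
  invFun := a.inv.app W h
  map_add' := map_add _
  map_smul' r x := a.hom.map_smul h r x
  left_inv := a.inv_hom_apply W h
  right_inv := a.hom_inv_apply W h

@[simp] lemma localIsoAppₗ_apply (a : LocalIso L L' U) (W : X.Opens) (h : W ≤ U) (x : Γ(L, W)) :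
    localIsoAppₗ a W h x = a.hom.app W h x := rfl

/-- A local isomorphism on an affine open `V` gives an isomorphism between the restrictions to
`Spec Γ(X, V)`. -/
def restrictIsoOfLocalIso {V : X.Opens} (hV : IsAffineOpen V) (a : LocalIso L L' V) :
    L.restrict hV.fromSpec ≅ L'.restrict hV.fromSpec :=
  toRestrictIso hV.fromSpec (a.restrict (le_of_eq hV.opensRange_fromSpec))

end LocalIsoSec

/-! ### The sheaf `(hV.fromSpec)_* (tilde M)` -/

section PushTilde

variable {X : Scheme.{u}} {V : X.Opens} (hV : IsAffineOpen V) (M : ModuleCat.{u} Γ(X, V))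

/-- The pushforward to `X` of the sheaf `tilde M` on `Spec Γ(X, V)`. -/
noncomputable def pushTilde : X.Modules :=
  (Scheme.Modules.pushforward hV.fromSpec).obj (tilde M)

/-- The restriction of `pushTilde hV M` to `Spec Γ(X, V)` is `tilde M`. -/
noncomputable def pushTildeRestrictIso : (pushTilde hV M).restrict hV.fromSpec ≅ tilde M :=
  (Scheme.Modules.restrictFunctorAdjCounitIso hV.fromSpec).app (tilde M)

instance isIso_fromTildeΓ_pushTilde : IsIso ((pushTilde hV M).restrict hV.fromSpec).fromTildeΓ :=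
  isIso_fromTildeΓ_of_iso (pushTildeRestrictIso hV M).symm

/-- The sections of `pushTilde hV M` over `V` are `M`. -/
noncomputable def pushTildeSec : Γ(pushTilde hV M, V) ≃ₗ[Γ(X, V)] M :=
  (secTopₗ hV (pushTilde hV M)).trans
    ((moduleSpecΓFunctor.mapIso (pushTildeRestrictIso hV M)).toLinearEquiv.trans
      (tilde.isoTop M).toLinearEquiv.symm)

end PushTilde

/-! ### Gluing along a linear equivalence on an affine intersection -/

section Glue

variable {X : Scheme.{u}} {V0 V1 : X.Opens}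

/-- Two sheaves of modules `L0`, `L1`, quasi-coherent on the affine open `V0 ⊓ V1`, glue along any
linear equivalence between their modules of sections over `V0 ⊓ V1`. -/
theorem exists_glue_of_linearEquiv (hV01 : IsAffineOpen (V0 ⊓ V1)) (L0 L1 : X.Modules)
    [IsIso (L0.restrict hV01.fromSpec).fromTildeΓ] [IsIso (L1.restrict hV01.fromSpec).fromTildeΓ]
    (g : Γ(L0, V0 ⊓ V1) ≃ₗ[Γ(X, V0 ⊓ V1)] Γ(L1, V0 ⊓ V1)) :
    ∃ (L : X.Modules) (a0 : LocalIso L L0 V0) (a1 : LocalIso L L1 V1),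
      ∀ y : Γ(L, V0 ⊓ V1), g (a0.hom.app (V0 ⊓ V1) inf_le_left y) =
        a1.hom.app (V0 ⊓ V1) inf_le_right y := by
  obtain ⟨e, he, -⟩ := exists_localIso hV01 g
  refine ⟨glueTwo e, glueTwoIso₀ e, glueTwoIso₁ e, fun y => ?_⟩
  rw [← he]
  exact glueTwoIso_compat_apply e (V0 ⊓ V1) inf_le_left inf_le_right y

end Glue

/-! ### One chart: sections over a basic open as a base change -/

section Chart

variable {X : Scheme.{u}} {V W : X.Opens}

/-- Restriction of sections as a semilinear map. -/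
def resSL (F : X.Modules) (hWV : W ≤ V) :
    Γ(F, V) →ₛₗ[(X.presheaf.map (homOfLE hWV).op).hom] Γ(F, W) where
  toFun := res F hWV
  map_add' := map_add _
  map_smul' r x := res_smul F hWV r x

@[simp] lemma resSL_apply (F : X.Modules) (hWV : W ≤ V) (x : Γ(F, V)) :
    resSL F hWV x = res F hWV x := rfl

/-- For `F` quasi-coherent on the affine open `V` and `W = D(f) ⊆ V`, the restriction
`Γ(F, V) → Γ(F, W)` is a base change along `Γ(X, V) → Γ(X, W)`. -/
theorem isBaseChangeHom_resSL (hV : IsAffineOpen V) (hWV : W ≤ V) (f : Γ(X, V))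
    (hW : W = X.basicOpen f) (F : X.Modules) [IsIso (F.restrict hV.fromSpec).fromTildeΓ] :
    IsBaseChangeHom (resSL F hWV) := by
  letI := moduleOfLE F hWV
  haveI := isLocalizedModule_resₗ_of_eq_basicOpen' F hV f hWV hW
  exact isBaseChangeHom_of_isLocalizedModule f
    (hV.isLocalization_of_eq_basicOpen f (homOfLE hWV) hW) (resSL F hWV)
    (fun r y => rfl) (resₗ F hWV) (fun x => rfl)

variable {R R' : Type u} [CommRing R] [CommRing R'] {φ : R →+* R'}
  {P P₁ P' : Type u} [AddCommGroup P] [Module R P] [AddCommGroup P₁] [Module R P₁]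
  [AddCommGroup P'] [Module R' P']

/-- Precomposing a base change with a linear equivalence gives a base change. -/
theorem isBaseChangeHom_comp_linearEquiv {θ : P →ₛₗ[φ] P'} (hθ : IsBaseChangeHom θ)
    (c : P₁ ≃ₗ[R] P) : IsBaseChangeHom (θ.comp c.toLinearMap) := by
  intro Q _ _ g
  obtain ⟨g', hg', huniq⟩ := hθ Q (g.comp c.symm.toLinearMap)
  refine ⟨g', fun x => ?_, fun g'' hg'' => huniq g'' fun y => ?_⟩
  · have := hg' (c x)
    simpa using this
  · have := hg'' (c.symm y)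
    simpa using this

/-- One chart of (Surj): if `Γ(F, V) ≃ M` and `ρ : M → M'` is a base change along
`Γ(X, V) → Γ(X, W)`, `W = D(f)`, then `Γ(F, W) ≃ M'` compatibly. -/
theorem exists_equiv_of_isBaseChangeHom (hV : IsAffineOpen V) (hWV : W ≤ V) (f : Γ(X, V))
    (hW : W = X.basicOpen f) (F : X.Modules) [IsIso (F.restrict hV.fromSpec).fromTildeΓ]
    {M M' : Type u} [AddCommGroup M] [Module Γ(X, V) M] [AddCommGroup M'] [Module Γ(X, W) M']
    (c : Γ(F, V) ≃ₗ[Γ(X, V)] M) (ρ : M →ₛₗ[(X.presheaf.map (homOfLE hWV).op).hom] M')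
    (hρ : IsBaseChangeHom ρ) :
    ∃ d : Γ(F, W) ≃ₗ[Γ(X, W)] M', ∀ x : Γ(F, V), d (res F hWV x) = ρ (c x) := by
  obtain ⟨d, hd⟩ := (isBaseChangeHom_resSL hV hWV f hW F).exists_linearEquiv
    (isBaseChangeHom_comp_linearEquiv hρ c)
  exact ⟨d, fun x => hd x⟩

end Chart

/-! ### (Surj): realisation of a diagram of modules by a sheaf of modules -/

section Surj

variable {X : Scheme.{u}} {V0 V1 : X.Opens}

/-- A realisation of a diagram of modules `M0 --ρ0--> M01 <--ρ1-- M1` over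
`Γ(X, V0) → Γ(X, V0 ⊓ V1) ← Γ(X, V1)` by a sheaf of modules on `X`, quasi-coherent on `V0`, `V1`. -/
structure Realization (hV0 : IsAffineOpen V0) (hV1 : IsAffineOpen V1)
    {M0 M1 M01 : Type u} [AddCommGroup M0] [Module Γ(X, V0) M0] [AddCommGroup M1]
    [Module Γ(X, V1) M1] [AddCommGroup M01] [Module Γ(X, V0 ⊓ V1) M01]
    (ρ0 : M0 →ₛₗ[(X.presheaf.map (homOfLE (inf_le_left : V0 ⊓ V1 ≤ V0)).op).hom] M01)
    (ρ1 : M1 →ₛₗ[(X.presheaf.map (homOfLE (inf_le_right : V0 ⊓ V1 ≤ V1)).op).hom] M01) where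
  /-- the sheaf of modules -/
  L : X.Modules
  /-- sections over `V0` -/
  e0 : Γ(L, V0) ≃ₗ[Γ(X, V0)] M0
  /-- sections over `V1` -/
  e1 : Γ(L, V1) ≃ₗ[Γ(X, V1)] M1
  /-- sections over `V0 ⊓ V1` -/
  e01 : Γ(L, V0 ⊓ V1) ≃ₗ[Γ(X, V0 ⊓ V1)] M01
  comm0 : ∀ x : Γ(L, V0), e01 (res L inf_le_left x) = ρ0 (e0 x)
  comm1 : ∀ x : Γ(L, V1), e01 (res L inf_le_right x) = ρ1 (e1 x)
  qc0 : IsIso (L.restrict hV0.fromSpec).fromTildeΓ
  qc1 : IsIso (L.restrict hV1.fromSpec).fromTildeΓ

variable (hV0 : IsAffineOpen V0) (hV1 : IsAffineOpen V1)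
  (t : Γ(X, V0)) (ht : V0 ⊓ V1 = X.basicOpen t) (s : Γ(X, V1)) (hs : V0 ⊓ V1 = X.basicOpen s)
  {M0 M1 M01 : Type u} [AddCommGroup M0] [Module Γ(X, V0) M0] [AddCommGroup M1]
  [Module Γ(X, V1) M1] [AddCommGroup M01] [Module Γ(X, V0 ⊓ V1) M01]
  (ρ0 : M0 →ₛₗ[(X.presheaf.map (homOfLE (inf_le_left : V0 ⊓ V1 ≤ V0)).op).hom] M01)
  (ρ1 : M1 →ₛₗ[(X.presheaf.map (homOfLE (inf_le_right : V0 ⊓ V1 ≤ V1)).op).hom] M01)

include t ht s hs in
/-- **(Surj)**: every diagram of modules with base-change maps is realised by a sheaf of modules. -/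
theorem nonempty_realization (h0 : IsBaseChangeHom ρ0) (h1 : IsBaseChangeHom ρ1) :
    Nonempty (Realization hV0 hV1 ρ0 ρ1) := by
  have hV01 : IsAffineOpen (V0 ⊓ V1) := ht ▸ hV0.basicOpen t
  let L0 : X.Modules := pushTilde hV0 (ModuleCat.of Γ(X, V0) M0)
  let L1 : X.Modules := pushTilde hV1 (ModuleCat.of Γ(X, V1) M1)
  let c0 : Γ(L0, V0) ≃ₗ[Γ(X, V0)] M0 := pushTildeSec hV0 (ModuleCat.of Γ(X, V0) M0)
  let c1 : Γ(L1, V1) ≃ₗ[Γ(X, V1)] M1 := pushTildeSec hV1 (ModuleCat.of Γ(X, V1) M1)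
  haveI q0 : IsIso (L0.restrict hV0.fromSpec).fromTildeΓ := isIso_fromTildeΓ_pushTilde hV0 _
  haveI q1 : IsIso (L1.restrict hV1.fromSpec).fromTildeΓ := isIso_fromTildeΓ_pushTilde hV1 _
  haveI : IsIso (L0.restrict hV01.fromSpec).fromTildeΓ :=
    isIso_fromTildeΓ_restrict_of_le L0 hV0 hV01 inf_le_left
  haveI : IsIso (L1.restrict hV01.fromSpec).fromTildeΓ :=
    isIso_fromTildeΓ_restrict_of_le L1 hV1 hV01 inf_le_right
  obtain ⟨d0, hd0⟩ := exists_equiv_of_isBaseChangeHom hV0 inf_le_left t ht L0 c0 ρ0 h0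
  obtain ⟨d1, hd1⟩ := exists_equiv_of_isBaseChangeHom hV1 inf_le_right s hs L1 c1 ρ1 h1
  obtain ⟨L, a0, a1, ha⟩ := exists_glue_of_linearEquiv hV01 L0 L1 (d0.trans d1.symm)
  refine ⟨{
    L := L
    e0 := (localIsoAppₗ a0 V0 le_rfl).trans c0
    e1 := (localIsoAppₗ a1 V1 le_rfl).trans c1
    e01 := (localIsoAppₗ a0 (V0 ⊓ V1) inf_le_left).trans d0
    comm0 := fun x => ?_
    comm1 := fun x => ?_
    qc0 := isIso_fromTildeΓ_of_iso (restrictIsoOfLocalIso hV0 a0).symm
    qc1 := isIso_fromTildeΓ_of_iso (restrictIsoOfLocalIso hV1 a1).symm }⟩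
  · simp only [LinearEquiv.trans_apply, localIsoAppₗ_apply]
    rw [← a0.hom.naturality, hd0]
  · simp only [LinearEquiv.trans_apply, localIsoAppₗ_apply]
    have h2 := ha (res L inf_le_right x)
    rw [LinearEquiv.trans_apply, LinearEquiv.symm_apply_eq] at h2
    rw [h2, ← a1.hom.naturality, hd1]

end Surj

/-! ### Invertibility -/

section Invertible

variable {X : Scheme.{u}}

/-- If `F` is quasi-coherent on the affine open `V` and `Γ(F, V)` is an invertible
`Γ(X, V)`-module, then the restriction of `F` to `Spec Γ(X, V)` is an invertible sheaf. -/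
theorem isInvertible_restrict_of_invertible {V : X.Opens} (hV : IsAffineOpen V) (F : X.Modules)
    [IsIso (F.restrict hV.fromSpec).fromTildeΓ] {M : Type u} [AddCommGroup M] [Module Γ(X, V) M]
    [Module.Invertible Γ(X, V) M] (c : Γ(F, V) ≃ₗ[Γ(X, V)] M) :
    Scheme.Modules.IsInvertible (F.restrict hV.fromSpec) := by
  rw [Fermat.Agent.JAC.Mod.AffineInv85.isInvertible_iff]
  refine ⟨(isQuasicoherent_iff_isIso_fromTildeΓ _).mpr inferInstance, ?_⟩
  exact Module.Invertible.congr (c.symm.trans (secTopₗ hV F))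

/-- A sheaf of modules which is quasi-coherent on two affine opens covering `X`, with invertible
modules of sections there, is invertible. -/
theorem isInvertible_of_two_affine {V0 V1 : X.Opens} (hV0 : IsAffineOpen V0)
    (hV1 : IsAffineOpen V1) (hcov : V0 ⊔ V1 = ⊤) (F : X.Modules)
    [IsIso (F.restrict hV0.fromSpec).fromTildeΓ] [IsIso (F.restrict hV1.fromSpec).fromTildeΓ]
    {M0 M1 : Type u} [AddCommGroup M0] [Module Γ(X, V0) M0] [Module.Invertible Γ(X, V0) M0]
    [AddCommGroup M1] [Module Γ(X, V1) M1] [Module.Invertible Γ(X, V1) M1]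
    (c0 : Γ(F, V0) ≃ₗ[Γ(X, V0)] M0) (c1 : Γ(F, V1) ≃ₗ[Γ(X, V1)] M1) :
    Scheme.Modules.IsInvertible F := by
  let Y : Bool → Scheme.{u} := fun b => match b with
    | false => Spec Γ(X, V0)
    | true => Spec Γ(X, V1)
  let j : ∀ b, Y b ⟶ X := fun b => match b with
    | false => hV0.fromSpec
    | true => hV1.fromSpec
  haveI : ∀ b, IsOpenImmersion (j b) := fun b => by
    cases b
    · exact inferInstanceAs (IsOpenImmersion hV0.fromSpec)
    · exact inferInstanceAs (IsOpenImmersion hV1.fromSpec)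
  refine Fermat.Agent.JAC.Glue.InvStab23.isInvertible_of_cover j (fun x => ?_) (fun b => ?_)
  · have hx : x ∈ V0 ⊔ V1 := by rw [hcov]; trivial
    rcases hx with hx | hx
    · refine ⟨false, ?_⟩
      change x ∈ hV0.fromSpec.opensRange
      rw [hV0.opensRange_fromSpec]; exact hx
    · refine ⟨true, ?_⟩
      change x ∈ hV1.fromSpec.opensRange
      rw [hV1.opensRange_fromSpec]; exact hx
  · cases b
    · exact isInvertible_restrict_of_invertible hV0 F c0
    · exact isInvertible_restrict_of_invertible hV1 F c1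

variable {V0 V1 : X.Opens} {hV0 : IsAffineOpen V0} {hV1 : IsAffineOpen V1}
  {M0 M1 M01 : Type u} [AddCommGroup M0] [Module Γ(X, V0) M0] [AddCommGroup M1]
  [Module Γ(X, V1) M1] [AddCommGroup M01] [Module Γ(X, V0 ⊓ V1) M01]
  {ρ0 : M0 →ₛₗ[(X.presheaf.map (homOfLE (inf_le_left : V0 ⊓ V1 ≤ V0)).op).hom] M01}
  {ρ1 : M1 →ₛₗ[(X.presheaf.map (homOfLE (inf_le_right : V0 ⊓ V1 ≤ V1)).op).hom] M01}

/-- The sheaf realising a diagram of invertible modules is invertible. -/
theorem Realization.isInvertible (r : Realization hV0 hV1 ρ0 ρ1) (hcov : V0 ⊔ V1 = ⊤)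
    [Module.Invertible Γ(X, V0) M0] [Module.Invertible Γ(X, V1) M1] :
    Scheme.Modules.IsInvertible r.L :=
  haveI := r.qc0
  haveI := r.qc1
  isInvertible_of_two_affine hV0 hV1 hcov r.L r.e0 r.e1

end Invertible

/-! ### Final form -/

section Final

variable {X : Scheme.{u}} {V0 V1 : X.Opens}

/-- **B3.3 (Surj)**, existential form.  `X` covered by two affine opens `V0`, `V1` with
`V0 ⊓ V1 = D(t) = D(s)`; a diagram of invertible modules `M0 --ρ0--> M01 <--ρ1-- M1` with base change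
maps is the diagram of sections of an invertible sheaf of modules on `X`. -/
theorem exists_isInvertible_of_diagram (hV0 : IsAffineOpen V0) (hV1 : IsAffineOpen V1)
    (hcov : V0 ⊔ V1 = ⊤) (t : Γ(X, V0)) (ht : V0 ⊓ V1 = X.basicOpen t) (s : Γ(X, V1))
    (hs : V0 ⊓ V1 = X.basicOpen s)
    {M0 M1 M01 : Type u} [AddCommGroup M0] [Module Γ(X, V0) M0] [AddCommGroup M1]
    [Module Γ(X, V1) M1] [AddCommGroup M01] [Module Γ(X, V0 ⊓ V1) M01]
    [Module.Invertible Γ(X, V0) M0] [Module.Invertible Γ(X, V1) M1]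
    (ρ0 : M0 →ₛₗ[(X.presheaf.map (homOfLE (inf_le_left : V0 ⊓ V1 ≤ V0)).op).hom] M01)
    (ρ1 : M1 →ₛₗ[(X.presheaf.map (homOfLE (inf_le_right : V0 ⊓ V1 ≤ V1)).op).hom] M01)
    (h0 : IsBaseChangeHom ρ0) (h1 : IsBaseChangeHom ρ1) :
    ∃ (L : X.Modules) (_ : Scheme.Modules.IsInvertible L)
      (e0 : Γ(L, V0) ≃ₗ[Γ(X, V0)] M0) (e1 : Γ(L, V1) ≃ₗ[Γ(X, V1)] M1)
      (e01 : Γ(L, V0 ⊓ V1) ≃ₗ[Γ(X, V0 ⊓ V1)] M01),
      (∀ x : Γ(L, V0), e01 (res L inf_le_left x) = ρ0 (e0 x)) ∧
      (∀ x : Γ(L, V1), e01 (res L inf_le_right x) = ρ1 (e1 x)) := by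
  obtain ⟨r⟩ := nonempty_realization hV0 hV1 t ht s hs ρ0 ρ1 h0 h1
  exact ⟨r.L, r.isInvertible hcov, r.e0, r.e1, r.e01, r.comm0, r.comm1⟩

end Final

end

end Fermat.Agent.JAC.Bridge.TwoAffine87
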