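/-
Programme JAC (S25), brick B3.3 (Inj) of COORD #3: on a scheme covered by two affine opens
`V0, V1`, an isomorphism between quasi-coherent modules is the same as compatible linear
isomorphisms between their modules of sections over `V0`, `V1`, `V0 ⊓ V1`.

Main results (`X : Scheme`, `L L' : X.Modules`):
* `bijective_Γmap`: on `Spec R`, global sections are fully faithful out of a quasi-coherent module;
* `localHom_ext_of_affine`, `exists_localHom_of_affine`, `existsUnique_localHom_of_affine`: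
  for `V` affine and `L` quasi-coherent, a local homomorphism `L|_V ⟶ L'|_V` (helper1's
  `HomGlue1.LocalHom`) is the same as a `Γ(X, V)`-linear map `Γ(L, V) → Γ(L', V)`;
* `existsUnique_hom_of_two_affine`: morphisms `L ⟶ L'` from compatible linear maps on sections over
  `V0`, `V1`, `V0 ⊓ V1`;
* `exists_iso_of_two_affine`, `nonempty_iso_of_two_affine`: the statement (Inj).
The hypothesis `GenBy L V W` ("sections over `W` are generated, up to units, by restrictions of
sections over `V`") holds when `W` is a basic open of the affine `V` (B1.4).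
-/
import Mathlib
import Fermat.Agent.JAC.Glue.Basic
import Fermat.Agent.JAC.Mod.SectionsLoc4

set_option autoImplicit false

universe u

open CategoryTheory CategoryTheory.Limits AlgebraicGeometry TopologicalSpace Opposite

namespace Fermat.Agent.JAC.Bridge.TwoAffineInj23

open Fermat.Agent.JAC.Glue.HomGlue1 Fermat.Agent.JAC.Glue.RestrictHom1 Fermat.Agent.JAC.Glue

/-! ### Part 1: full faithfulness of global sections on `Spec R` -/

/-- For an adjunction `F ⊣ G` and an object `M` at which the counit is an isomorphism,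
`G` is bijective on morphisms out of `M`. -/
theorem adj_bijective_map {C D : Type*} [Category C] [Category D] {F : C ⥤ D} {G : D ⥤ C}
    (adj : F ⊣ G) (M N : D) [IsIso (adj.counit.app M)] :
    Function.Bijective (fun φ : M ⟶ N => G.map φ) := by
  have h1 : Function.Bijective (fun φ : M ⟶ N => adj.counit.app M ≫ φ) :=
    ⟨fun a b h => (cancel_epi (adj.counit.app M)).mp h,
      fun g => ⟨inv (adj.counit.app M) ≫ g, by simp⟩⟩
  have h3 := (adj.homEquiv (G.obj M) N).bijective.comp h1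
  convert h3 using 1
  funext φ
  simp only [Function.comp_apply, Adjunction.homEquiv_unit, Functor.map_comp]
  rw [← Category.assoc, adj.right_triangle_components, Category.id_comp]

/-- Global sections are fully faithful out of a quasi-coherent module on `Spec R`. -/
theorem bijective_Γmap {R : CommRingCat.{u}} (M N : (Spec R).Modules) [h : IsIso M.fromTildeΓ] :
    Function.Bijective (fun φ : M ⟶ N => moduleSpecΓFunctor.map φ) := by
  have : IsIso ((tilde.adjunction (R := R)).counit.app M) := h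
  exact adj_bijective_map (tilde.adjunction (R := R)) M N

/-- Every `R`-linear map between global sections comes from a morphism of modules, if the source
is quasi-coherent. -/
theorem exists_hom_of_linear {R : CommRingCat.{u}} (M N : (Spec R).Modules) [IsIso M.fromTildeΓ]
    (g : Γ(M, ⊤) →ₗ[R] Γ(N, ⊤)) : ∃ φ : M ⟶ N, ∀ y : Γ(M, ⊤), φ.app ⊤ y = g y := by
  let g' : ModuleCat.of R Γ(M, ⊤) ⟶ ModuleCat.of R Γ(N, ⊤) := ModuleCat.ofHom g
  obtain ⟨φ, hφ⟩ := (bijective_Γmap M N).2 g'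
  refine ⟨φ, fun y => ?_⟩
  have := congrArg (fun g => g.hom y) hφ
  exact this

/-! ### Part 2: local homomorphisms on an affine open -/

variable {X : Scheme.{u}}

section Affine

variable {V : X.Opens} (hV : IsAffineOpen V)

lemma image_top_fromSpec : hV.fromSpec ''ᵁ ⊤ = V := by
  rw [Scheme.Hom.image_top_eq_opensRange, hV.opensRange_fromSpec]

/-- Compatibility of the two ways `Γ(X, V)` acts on sections over `Spec Γ(X, V)`. -/
lemma appIso_inv_ΓSpecIso_inv (r : Γ(X, V)) :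
    (hV.fromSpec.appIso ⊤).inv ((Scheme.ΓSpecIso Γ(X, V)).inv r) =
      resO X (image_top_fromSpec hV).le r := by
  apply (ConcreteCategory.bijective_of_isIso (hV.fromSpec.appIso ⊤).hom).1
  rw [← CommRingCat.comp_apply, Iso.inv_hom_id]
  rw [Scheme.Hom.appIso_hom]
  simp only [CommRingCat.id_apply, CommRingCat.comp_apply]
  have h1 := hV.fromSpec.naturality (homOfLE (image_top_fromSpec hV).le).op
  have h2 := congr($h1 r)
  simp only [CommRingCat.comp_apply] at h2
  have h3 : resO X (image_top_fromSpec hV).le r =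
    (X.presheaf.map (homOfLE (image_top_fromSpec hV).le).op) r := rfl
  rw [h3, h2, hV.fromSpec_app_self]
  simp only [CommRingCat.comp_apply]
  rw [← CommRingCat.comp_apply, ← CommRingCat.comp_apply, ← Functor.map_comp, ← Functor.map_comp]
  have : ∀ (i : (⊤ : (Spec Γ(X, V)).Opens) ⟶ ⊤), (Spec Γ(X, V)).presheaf.map i.op = 𝟙 _ := by
    intro i
    rw [Subsingleton.elim i (𝟙 _), op_id, CategoryTheory.Functor.map_id]
  erw [this]
  rfl

lemma ofR_smul_Spec (M : X.Modules) (r : Γ(X, V)) (x : Γ(M.restrict hV.fromSpec, ⊤)) :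
    ofR hV.fromSpec M ⊤ (r • x) =
      resO X (image_top_fromSpec hV).le r • ofR hV.fromSpec M ⊤ x := by
  rw [Scheme.Modules.smul_Spec_def, ofR_smul]
  congr 1
  rw [← appIso_inv_ΓSpecIso_inv]
  congr 1

lemma toR_smul_Spec (M : X.Modules) (r : Γ(X, V)) (y : Γ(M, hV.fromSpec ''ᵁ ⊤)) :
    toR hV.fromSpec M ⊤ (resO X (image_top_fromSpec hV).le r • y) =
      r • toR hV.fromSpec M ⊤ y := by
  apply (show Function.Injective (ofR hV.fromSpec M ⊤) from fun a b h => h)
  rw [ofR_smul_Spec, ofR_toR, ofR_toR]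

variable {L L' : X.Modules}

/-- For `V` affine and `L` quasi-coherent, a local homomorphism on `V` is determined by its
value on sections over `V`. -/
theorem localHom_ext_of_affine [IsIso (L.restrict hV.fromSpec).fromTildeΓ]
    (a b : LocalHom L L' V) (h : a.app V le_rfl = b.app V le_rfl) : a = b := by
  have hge : hV.fromSpec.opensRange ≤ V := hV.opensRange_fromSpec.le
  have hle : V ≤ hV.fromSpec.opensRange := hV.opensRange_fromSpec.ge
  have key : toRestrictHom hV.fromSpec (a.restrict hge) =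
      toRestrictHom hV.fromSpec (b.restrict hge) := by
    apply (bijective_Γmap (L.restrict hV.fromSpec) (L'.restrict hV.fromSpec)).1
    have aux : ∀ y : Γ(L.restrict hV.fromSpec, ⊤),
        (toRestrictHom hV.fromSpec (a.restrict hge)).app ⊤ y =
          (toRestrictHom hV.fromSpec (b.restrict hge)).app ⊤ y := by
      intro y
      rw [toRestrictHom_app, toRestrictHom_app]
      congr 1
      rw [LocalHom.restrict_app, LocalHom.restrict_app,
        LocalHom_app_congr a (image_top_fromSpec hV),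
        LocalHom_app_congr b (image_top_fromSpec hV), h]
    ext x
    exact aux x
  have h' : a.restrict hge = b.restrict hge := by
    rw [← ofRestrictHom_toRestrictHom hV.fromSpec (a.restrict hge), key,
      ofRestrictHom_toRestrictHom]
  ext W hW x
  exact congrArg (fun c : LocalHom L L' hV.fromSpec.opensRange => c.app W (hW.trans hle) x) h'

/-- The linear map on global sections of the restrictions to `Spec Γ(X, V)` attached to a
`Γ(X, V)`-linear map on sections over `V`. -/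
noncomputable def ΓlinOf (e : Γ(L, V) →+ Γ(L', V))
    (he : ∀ (r : Γ(X, V)) (x : Γ(L, V)), e (r • x) = r • e x) :
    Γ(L.restrict hV.fromSpec, ⊤) →ₗ[Γ(X, V)] Γ(L'.restrict hV.fromSpec, ⊤) where
  toFun x := toR hV.fromSpec L' ⊤ (res L' (image_top_fromSpec hV).le
    (e (res L (image_top_fromSpec hV).ge (ofR hV.fromSpec L ⊤ x))))
  map_add' x y := by simp only [map_add]
  map_smul' r x := by
    simp only [RingHom.id_apply]
    rw [ofR_smul_Spec, res_smul, resO_resO, resO_self, he, res_smul, toR_smul_Spec]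

/-- For `V` affine and `L` quasi-coherent, every `Γ(X, V)`-linear map `Γ(L, V) → Γ(L', V)` is the
value of a local homomorphism on `V`. -/
theorem exists_localHom_of_affine [IsIso (L.restrict hV.fromSpec).fromTildeΓ]
    (e : Γ(L, V) →+ Γ(L', V)) (he : ∀ (r : Γ(X, V)) (x : Γ(L, V)), e (r • x) = r • e x) :
    ∃ a : LocalHom L L' V, a.app V le_rfl = e := by
  have hle : V ≤ hV.fromSpec.opensRange := hV.opensRange_fromSpec.ge
  obtain ⟨φ, hφ'⟩ := exists_hom_of_linear (L.restrict hV.fromSpec) (L'.restrict hV.fromSpec)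
    (ΓlinOf hV e he)
  refine ⟨(ofRestrictHom hV.fromSpec φ).restrict hle, ?_⟩
  ext x
  rw [LocalHom.restrict_app, LocalHom_app_congr _ (image_top_fromSpec hV).symm,
    ofRestrictHom_app_image, hφ']
  show res L' _ (ofR _ _ _ (toR _ _ _ (res L' _ (e (res L _
    (ofR _ _ _ (toR _ _ _ (res L _ x)))))))) = _
  rw [ofR_toR, ofR_toR, res_res, res_res, res_self, res_self]

instance isIso_fromTildeΓ_restrict_fromSpec (L : X.Modules) [L.IsQuasicoherent] :
    IsIso (L.restrict hV.fromSpec).fromTildeΓ :=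
  inferInstance

include hV in
/-- For `V` affine and `L` quasi-coherent: local homomorphisms `L|_V ⟶ L'|_V` are the same as
`Γ(X, V)`-linear maps `Γ(L, V) → Γ(L', V)`. -/
theorem existsUnique_localHom_of_affine [L.IsQuasicoherent]
    (e : Γ(L, V) →+ Γ(L', V)) (he : ∀ (r : Γ(X, V)) (x : Γ(L, V)), e (r • x) = r • e x) :
    ∃! a : LocalHom L L' V, a.app V le_rfl = e := by
  obtain ⟨a, ha⟩ := exists_localHom_of_affine hV e he
  exact ⟨a, ha, fun b hb => localHom_ext_of_affine hV b a (hb.trans ha.symm)⟩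

end Affine

/-! ### Part 3: two affine opens -/

section Two

variable {M N : X.Modules} {V0 V1 : X.Opens}

/-- Two local homomorphisms on `V0`, `V1` that agree on `V0 ⊓ V1` glue to a global morphism,
if `V0 ⊔ V1 = ⊤`. -/
theorem exists_hom_of_two (hcov : V0 ⊔ V1 = ⊤) (a0 : LocalHom M N V0) (a1 : LocalHom M N V1)
    (h : a0.restrict (inf_le_left : V0 ⊓ V1 ≤ V0) = a1.restrict (inf_le_right : V0 ⊓ V1 ≤ V1)) :
    ∃ g : M ⟶ N, LocalHom.ofHom g V0 = a0 ∧ LocalHom.ofHom g V1 = a1 := by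
  let 𝒰 : Bool → X.Opens := fun b => cond b V1 V0
  let a : ∀ b, LocalHom M N (𝒰 b) := fun b => Bool.rec a0 a1 b
  have h01 : ∀ (W : X.Opens) (hi : W ≤ V0) (hj : W ≤ V1) (x : Γ(M, W)),
      a0.app W hi x = a1.app W hj x := fun W hi hj x =>
    congrArg (fun c : LocalHom M N (V0 ⊓ V1) => c.app W (le_inf hi hj) x) h
  have ha : ∀ i j (W : X.Opens) (hi : W ≤ 𝒰 i) (hj : W ≤ 𝒰 j) (x : Γ(M, W)),
      (a i).app W hi x = (a j).app W hj x := by
    intro i j W hi hj x
    cases i <;> cases j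
    · rfl
    · exact h01 W hi hj x
    · exact (h01 W hj hi x).symm
    · rfl
  have htop : (⊤ : X.Opens) ≤ ⨆ b, 𝒰 b := by
    rw [iSup_bool_eq, ← hcov, sup_comm]
    exact le_rfl
  refine ⟨LocalHom.toHom ((LocalHom.glue 𝒰 a ha).restrict htop), ?_, ?_⟩
  · ext W hW x
    exact LocalHom.glue_app_of_le 𝒰 a ha false hW x
  · ext W hW x
    exact LocalHom.glue_app_of_le 𝒰 a ha true hW x

/-- Two global morphisms whose local homomorphisms on `V0` and `V1` agree are equal. -/
theorem hom_ext_of_two (hcov : V0 ⊔ V1 = ⊤) (g g' : M ⟶ N)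
    (h0 : LocalHom.ofHom g V0 = LocalHom.ofHom g' V0)
    (h1 : LocalHom.ofHom g V1 = LocalHom.ofHom g' V1) : g = g' := by
  apply LocalHom.homEquiv.injective
  refine LocalHom.eq_of_cover (fun b : Bool => cond b V1 V0)
    (by rw [iSup_bool_eq, ← hcov, sup_comm]; exact le_rfl) _ _ (fun b W hW hWb x => ?_)
  cases b
  · exact congrArg (fun c : LocalHom M N V0 => c.app W hWb x) h0
  · exact congrArg (fun c : LocalHom M N V1 => c.app W hWb x) h1

/-- Sections of `L` over `W ≤ V` are generated, up to units of `Γ(X, W)`, by restrictions of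
sections over `V`.  This holds when `V` is affine, `L` is quasi-coherent and `W` is a basic open
of `V`. -/
def GenBy (L : X.Modules) (V W : X.Opens) (h : W ≤ V) : Prop :=
  ∀ y : Γ(L, W), ∃ (u : Γ(X, W)) (x : Γ(L, V)), IsUnit u ∧ u • y = res L h x

/-- Two `Γ(X, W)`-linear maps out of `Γ(L, W)` agreeing on restrictions from `V` are equal. -/
lemma eq_of_genBy {L L' : X.Modules} {V W : X.Opens} {h : W ≤ V} (hgen : GenBy L V W h)
    (φ ψ : Γ(L, W) →+ Γ(L', W))
    (hφ : ∀ (r : Γ(X, W)) (y : Γ(L, W)), φ (r • y) = r • φ y)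
    (hψ : ∀ (r : Γ(X, W)) (y : Γ(L, W)), ψ (r • y) = r • ψ y)
    (hres : ∀ x : Γ(L, V), φ (res L h x) = ψ (res L h x)) : φ = ψ := by
  ext y
  obtain ⟨u, x, hu, hux⟩ := hgen y
  obtain ⟨v, rfl⟩ := hu
  have h1 : (v : Γ(X, W)) • φ y = (v : Γ(X, W)) • ψ y := by
    rw [← hφ, ← hψ, hux, hres]
  have h2 := congrArg (fun z => ((v⁻¹ : Γ(X, W)ˣ) : Γ(X, W)) • z) h1
  simpa [smul_smul] using h2

variable {L L' : X.Modules}

/-- (B3.3, morphism form) On a scheme covered by two affine opens `V0`, `V1` with affine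
intersection, compatible linear maps between the modules of sections of a quasi-coherent module
`L` and a module `L'` over `V0`, `V1` and `V0 ⊓ V1` come from a unique morphism `L ⟶ L'`. -/
theorem existsUnique_hom_of_two_affine [L.IsQuasicoherent]
    (h0 : IsAffineOpen V0) (h1 : IsAffineOpen V1) (h01 : IsAffineOpen (V0 ⊓ V1))
    (hcov : V0 ⊔ V1 = ⊤)
    (hgen0 : GenBy L V0 (V0 ⊓ V1) inf_le_left) (hgen1 : GenBy L V1 (V0 ⊓ V1) inf_le_right)
    (e0 : Γ(L, V0) →+ Γ(L', V0)) (he0 : ∀ (r : Γ(X, V0)) x, e0 (r • x) = r • e0 x)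
    (e1 : Γ(L, V1) →+ Γ(L', V1)) (he1 : ∀ (r : Γ(X, V1)) x, e1 (r • x) = r • e1 x)
    (e01 : Γ(L, V0 ⊓ V1) →+ Γ(L', V0 ⊓ V1))
    (he01 : ∀ (r : Γ(X, V0 ⊓ V1)) x, e01 (r • x) = r • e01 x)
    (c0 : ∀ x, e01 (res L inf_le_left x) = res L' inf_le_left (e0 x))
    (c1 : ∀ x, e01 (res L inf_le_right x) = res L' inf_le_right (e1 x)) :
    ∃! g : L ⟶ L', (∀ x : Γ(L, V0), g.app V0 x = e0 x) ∧ (∀ x : Γ(L, V1), g.app V1 x = e1 x) := by
  obtain ⟨a0, ha0⟩ := exists_localHom_of_affine h0 e0 he0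
  obtain ⟨a1, ha1⟩ := exists_localHom_of_affine h1 e1 he1
  have k0 : (a0.restrict (inf_le_left : V0 ⊓ V1 ≤ V0)).app (V0 ⊓ V1) le_rfl = e01 := by
    refine eq_of_genBy hgen0 _ _ (fun r y => LocalHom.map_smul _ _ r y) he01 (fun x => ?_)
    rw [LocalHom.restrict_app, ← a0.naturality le_rfl inf_le_left x, ha0, c0]
  have k1 : (a1.restrict (inf_le_right : V0 ⊓ V1 ≤ V1)).app (V0 ⊓ V1) le_rfl = e01 := by
    refine eq_of_genBy hgen1 _ _ (fun r y => LocalHom.map_smul _ _ r y) he01 (fun x => ?_)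
    rw [LocalHom.restrict_app, ← a1.naturality le_rfl inf_le_right x, ha1, c1]
  have hcomp : a0.restrict (inf_le_left : V0 ⊓ V1 ≤ V0) =
      a1.restrict (inf_le_right : V0 ⊓ V1 ≤ V1) :=
    localHom_ext_of_affine h01 _ _ (k0.trans k1.symm)
  obtain ⟨g, hg0, hg1⟩ := exists_hom_of_two hcov a0 a1 hcomp
  refine ⟨g, ⟨fun x => ?_, fun x => ?_⟩, fun g' hg' => ?_⟩
  · have := congrArg (fun c : LocalHom L L' V0 => c.app V0 le_rfl x) hg0
    exact this.trans (congrArg (fun f : Γ(L, V0) →+ Γ(L', V0) => f x) ha0)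
  · have := congrArg (fun c : LocalHom L L' V1 => c.app V1 le_rfl x) hg1
    exact this.trans (congrArg (fun f : Γ(L, V1) →+ Γ(L', V1) => f x) ha1)
  · refine hom_ext_of_two hcov g' g ?_ ?_
    · rw [hg0]
      refine localHom_ext_of_affine h0 _ _ ?_
      ext x
      exact (hg'.1 x).trans (congrArg (fun f : Γ(L, V0) →+ Γ(L', V0) => f x) ha0).symm
    · rw [hg1]
      refine localHom_ext_of_affine h1 _ _ ?_
      ext x
      exact (hg'.2 x).trans (congrArg (fun f : Γ(L, V1) →+ Γ(L', V1) => f x) ha1).symm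

/-- Two morphisms out of a quasi-coherent module that agree on sections over two affine opens
covering `X` are equal. -/
theorem hom_ext_of_two_affine [L.IsQuasicoherent]
    (h0 : IsAffineOpen V0) (h1 : IsAffineOpen V1) (hcov : V0 ⊔ V1 = ⊤) (g g' : L ⟶ L')
    (k0 : ∀ x : Γ(L, V0), g.app V0 x = g'.app V0 x)
    (k1 : ∀ x : Γ(L, V1), g.app V1 x = g'.app V1 x) : g = g' :=
  hom_ext_of_two hcov g g'
    (localHom_ext_of_affine h0 _ _ (by ext x; exact k0 x))
    (localHom_ext_of_affine h1 _ _ (by ext x; exact k1 x))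

/-- (B3.3 (Inj), additive-equivalence form) On a scheme covered by two affine opens `V0`, `V1`
with affine intersection, compatible linear isomorphisms between the modules of sections of two
quasi-coherent modules over `V0`, `V1`, `V0 ⊓ V1` come from an isomorphism `L ≅ L'`. -/
theorem exists_iso_of_two_affine [L.IsQuasicoherent] [L'.IsQuasicoherent]
    (h0 : IsAffineOpen V0) (h1 : IsAffineOpen V1) (h01 : IsAffineOpen (V0 ⊓ V1))
    (hcov : V0 ⊔ V1 = ⊤)
    (hgen0 : GenBy L V0 (V0 ⊓ V1) inf_le_left) (hgen1 : GenBy L V1 (V0 ⊓ V1) inf_le_right)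
    (hgen0' : GenBy L' V0 (V0 ⊓ V1) inf_le_left) (hgen1' : GenBy L' V1 (V0 ⊓ V1) inf_le_right)
    (e0 : Γ(L, V0) ≃+ Γ(L', V0)) (he0 : ∀ (r : Γ(X, V0)) x, e0 (r • x) = r • e0 x)
    (e1 : Γ(L, V1) ≃+ Γ(L', V1)) (he1 : ∀ (r : Γ(X, V1)) x, e1 (r • x) = r • e1 x)
    (e01 : Γ(L, V0 ⊓ V1) ≃+ Γ(L', V0 ⊓ V1))
    (he01 : ∀ (r : Γ(X, V0 ⊓ V1)) x, e01 (r • x) = r • e01 x)
    (c0 : ∀ x, e01 (res L inf_le_left x) = res L' inf_le_left (e0 x))
    (c1 : ∀ x, e01 (res L inf_le_right x) = res L' inf_le_right (e1 x)) :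
    ∃ g : L ≅ L', (∀ x : Γ(L, V0), g.hom.app V0 x = e0 x) ∧
      (∀ x : Γ(L, V1), g.hom.app V1 x = e1 x) := by
  have symm_smul : ∀ {U : X.Opens} (e : Γ(L, U) ≃+ Γ(L', U))
      (_ : ∀ (r : Γ(X, U)) x, e (r • x) = r • e x) (r : Γ(X, U)) (y : Γ(L', U)),
      e.symm (r • y) = r • e.symm y := by
    intro U e he r y
    apply e.injective
    rw [he, e.apply_symm_apply, e.apply_symm_apply]
  obtain ⟨g, ⟨hg0, hg1⟩, -⟩ := existsUnique_hom_of_two_affine h0 h1 h01 hcov hgen0 hgen1
    e0.toAddMonoidHom he0 e1.toAddMonoidHom he1 e01.toAddMonoidHom he01 c0 c1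
  obtain ⟨g', ⟨hg0', hg1'⟩, -⟩ := existsUnique_hom_of_two_affine h0 h1 h01 hcov hgen0' hgen1'
    e0.symm.toAddMonoidHom (symm_smul e0 he0) e1.symm.toAddMonoidHom (symm_smul e1 he1)
    e01.symm.toAddMonoidHom (symm_smul e01 he01)
    (fun y => by
      apply e01.injective
      show e01 (e01.symm (res L' inf_le_left y)) = e01 (res L inf_le_left (e0.symm y))
      rw [c0, e01.apply_symm_apply, e0.apply_symm_apply])
    (fun y => by
      apply e01.injective
      show e01 (e01.symm (res L' inf_le_right y)) = e01 (res L inf_le_right (e1.symm y))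
      rw [c1, e01.apply_symm_apply, e1.apply_symm_apply])
  refine ⟨⟨g, g', ?_, ?_⟩, hg0, hg1⟩
  · refine hom_ext_of_two_affine h0 h1 hcov _ _ (fun x => ?_) (fun x => ?_)
    · show g'.app V0 (g.app V0 x) = x
      rw [hg0, hg0']
      exact e0.symm_apply_apply x
    · show g'.app V1 (g.app V1 x) = x
      rw [hg1, hg1']
      exact e1.symm_apply_apply x
  · refine hom_ext_of_two_affine h0 h1 hcov _ _ (fun x => ?_) (fun x => ?_)
    · show g.app V0 (g'.app V0 x) = x
      rw [hg0', hg0]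
      exact e0.apply_symm_apply x
    · show g.app V1 (g'.app V1 x) = x
      rw [hg1', hg1]
      exact e1.apply_symm_apply x

/-- (B3.3 (Inj), the statement of COORD #3) -/
theorem nonempty_iso_of_two_affine [L.IsQuasicoherent] [L'.IsQuasicoherent]
    (h0 : IsAffineOpen V0) (h1 : IsAffineOpen V1) (h01 : IsAffineOpen (V0 ⊓ V1))
    (hcov : V0 ⊔ V1 = ⊤)
    (hgen0 : GenBy L V0 (V0 ⊓ V1) inf_le_left) (hgen1 : GenBy L V1 (V0 ⊓ V1) inf_le_right)
    (hgen0' : GenBy L' V0 (V0 ⊓ V1) inf_le_left) (hgen1' : GenBy L' V1 (V0 ⊓ V1) inf_le_right)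
    (e0 : Γ(L, V0) ≃ₗ[Γ(X, V0)] Γ(L', V0)) (e1 : Γ(L, V1) ≃ₗ[Γ(X, V1)] Γ(L', V1))
    (e01 : Γ(L, V0 ⊓ V1) ≃ₗ[Γ(X, V0 ⊓ V1)] Γ(L', V0 ⊓ V1))
    (c0 : ∀ x, e01 (res L inf_le_left x) = res L' inf_le_left (e0 x))
    (c1 : ∀ x, e01 (res L inf_le_right x) = res L' inf_le_right (e1 x)) :
    Nonempty (L ≅ L') := by
  obtain ⟨g, -, -⟩ := exists_iso_of_two_affine h0 h1 h01 hcov hgen0 hgen1 hgen0' hgen1'
    e0.toAddEquiv (fun r x => e0.map_smul r x) e1.toAddEquiv (fun r x => e1.map_smul r x)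
    e01.toAddEquiv (fun r x => e01.map_smul r x) c0 c1
  exact ⟨g⟩

end Two

/-! ### Part 4: the generation hypothesis for basic opens, and the final form -/

section Basic

open Fermat.Agent.JAC.Mod

variable {V : X.Opens}

/-- Sections of a quasi-coherent module over a basic open `D(f)` of an affine open `V` are
generated, up to units, by restrictions of sections over `V` (helper4's B1.4). -/
theorem genBy_basicOpen (L : X.Modules) [L.IsQuasicoherent] (hV : IsAffineOpen V) (f : Γ(X, V)) :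
    GenBy L V (X.basicOpen f) (X.basicOpen_le f) := by
  intro y
  obtain ⟨n, x, h⟩ := SectionsLoc4.exists_pow_smul_eq_res L hV f y
  exact ⟨_, x, (X.toRingedSpace.isUnit_res_basicOpen f).pow n, h⟩

theorem genBy_of_eq_basicOpen (L : X.Modules) [L.IsQuasicoherent] (hV : IsAffineOpen V)
    (f : Γ(X, V)) {W : X.Opens} (hWV : W ≤ V) (hW : W = X.basicOpen f) : GenBy L V W hWV := by
  subst hW
  exact genBy_basicOpen L hV f

variable {V0 V1 : X.Opens} {L L' : X.Modules}

/-- (B3.3 (Inj), final form of COORD #3)  `X` a scheme, `V0`, `V1` affine opens covering `X`,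
`t ∈ Γ(X, V0)`, `s ∈ Γ(X, V1)` with `D(t) = V0 ⊓ V1 = D(s)`; `L`, `L'` quasi-coherent.
Compatible linear isomorphisms on sections over `V0`, `V1`, `V0 ⊓ V1` come from an isomorphism
`L ≅ L'` inducing them. -/
theorem exists_iso_of_two_affine_basicOpen [L.IsQuasicoherent] [L'.IsQuasicoherent]
    (h0 : IsAffineOpen V0) (h1 : IsAffineOpen V1) (hcov : V0 ⊔ V1 = ⊤)
    (t : Γ(X, V0)) (ht : V0 ⊓ V1 = X.basicOpen t) (s : Γ(X, V1)) (hs : V0 ⊓ V1 = X.basicOpen s)
    (e0 : Γ(L, V0) ≃+ Γ(L', V0)) (he0 : ∀ (r : Γ(X, V0)) x, e0 (r • x) = r • e0 x)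
    (e1 : Γ(L, V1) ≃+ Γ(L', V1)) (he1 : ∀ (r : Γ(X, V1)) x, e1 (r • x) = r • e1 x)
    (e01 : Γ(L, V0 ⊓ V1) ≃+ Γ(L', V0 ⊓ V1))
    (he01 : ∀ (r : Γ(X, V0 ⊓ V1)) x, e01 (r • x) = r • e01 x)
    (c0 : ∀ x, e01 (res L inf_le_left x) = res L' inf_le_left (e0 x))
    (c1 : ∀ x, e01 (res L inf_le_right x) = res L' inf_le_right (e1 x)) :
    ∃ g : L ≅ L', (∀ x : Γ(L, V0), g.hom.app V0 x = e0 x) ∧
      (∀ x : Γ(L, V1), g.hom.app V1 x = e1 x) :=
  exists_iso_of_two_affine h0 h1 (ht ▸ h0.basicOpen t) hcov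
    (genBy_of_eq_basicOpen L h0 t inf_le_left ht) (genBy_of_eq_basicOpen L h1 s inf_le_right hs)
    (genBy_of_eq_basicOpen L' h0 t inf_le_left ht) (genBy_of_eq_basicOpen L' h1 s inf_le_right hs)
    e0 he0 e1 he1 e01 he01 c0 c1

/-- (B3.3 (Inj)) the `≃ₗ` form. -/
theorem nonempty_iso_of_two_affine_basicOpen [L.IsQuasicoherent] [L'.IsQuasicoherent]
    (h0 : IsAffineOpen V0) (h1 : IsAffineOpen V1) (hcov : V0 ⊔ V1 = ⊤)
    (t : Γ(X, V0)) (ht : V0 ⊓ V1 = X.basicOpen t) (s : Γ(X, V1)) (hs : V0 ⊓ V1 = X.basicOpen s)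
    (e0 : Γ(L, V0) ≃ₗ[Γ(X, V0)] Γ(L', V0)) (e1 : Γ(L, V1) ≃ₗ[Γ(X, V1)] Γ(L', V1))
    (e01 : Γ(L, V0 ⊓ V1) ≃ₗ[Γ(X, V0 ⊓ V1)] Γ(L', V0 ⊓ V1))
    (c0 : ∀ x, e01 (res L inf_le_left x) = res L' inf_le_left (e0 x))
    (c1 : ∀ x, e01 (res L inf_le_right x) = res L' inf_le_right (e1 x)) :
    Nonempty (L ≅ L') := by
  obtain ⟨g, -, -⟩ := exists_iso_of_two_affine_basicOpen h0 h1 hcov t ht s hs
    e0.toAddEquiv (fun r x => e0.map_smul r x) e1.toAddEquiv (fun r x => e1.map_smul r x)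
    e01.toAddEquiv (fun r x => e01.map_smul r x) c0 c1
  exact ⟨g⟩

end Basic

end Fermat.Agent.JAC.Bridge.TwoAffineInj23
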