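/-
Programme JAC (S25), chapter Bridge, work package B3.3/B3.4 adapter.  Owner: helper87.

ABSTRACT TWO-CHART FORMS OF (Inj) AND (Surj) in the vocabulary of `TwoChartDiag4`:
for a scheme `X` covered by two affine charts `j0 : Spec R0 ⟶ X`, `j1 : Spec R1 ⟶ X` whose
intersection is the chart `j01 : Spec R01 ⟶ X` (`R01 = R0[1/t] = R1[1/s]`),

* `nonempty_iso_of_diagIso`, `nonempty_iso_of_diagClass_eq`: invertible modules on `X` with
  isomorphic line diagrams (`TwoChartDiag4.diag`) are isomorphic;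
* `exists_diagIso`, `exists_diagClass_eq`: every line diagram `N : LineDiag t s R01` is isomorphic
  to the line diagram of an invertible module on `X`.

These are obtained from `TwoAffineInj23` (helper23) and `TwoAffine87`, which are stated for opens
`V0`, `V1` of `X` and modules over `Γ(X, V_i)`, by transport along the ring isomorphisms
`chartTop j : R ≃+* Γ(X, j ''ᵁ ⊤)`.

Reusable: `chartTop`, `restrictAppIso_smul_chartTop`, `chartTop_eq` (comparison with
`TwoChartDiag4.chartSec`), `image_basicOpen_eq_basicOpen`, `map_chartTop`, `secAddEquiv`,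
`invertible_of_ringEquiv`, `isLocalizedModule_of_ringEquiv`, `isBaseChangeHom_of_chart`,
`image_top_sup`, `image_top_inf`, `image_top_eq_basicOpen₀/₁`, `isAffineOpen_image_top`.
-/
import Mathlib
import Fermat.Agent.JAC.Bridge.TwoChartDiag4
import Fermat.Agent.JAC.Bridge.TwoAffineInj23
import Fermat.Agent.JAC.Bridge.TwoAffine87

set_option autoImplicit false
set_option linter.style.haveILetI false

universe u

open CategoryTheory AlgebraicGeometry TopologicalSpace Opposite

namespace Fermat.Agent.JAC.Bridge.TwoChartGlue87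

open Fermat.Agent.JAC.Core.Cart36 Fermat.Agent.JAC.Glue.HomGlue1
  Fermat.Agent.JAC.Bridge.TwoChartDiag4 Fermat.Agent.JAC.Core.Defs36

noncomputable section

/-! ### Part 1: (Inj) and (Surj) with the intersection as a third open -/

section Three

variable {X : Scheme.{u}} {V0 V1 W : X.Opens}

/-- (Inj) with the intersection given as a third open `W = V0 ⊓ V1`. -/
theorem nonempty_iso_of_three {L L' : X.Modules} [L.IsQuasicoherent] [L'.IsQuasicoherent]
    (hW : W = V0 ⊓ V1) (hW0 : W ≤ V0) (hW1 : W ≤ V1)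
    (hV0 : IsAffineOpen V0) (hV1 : IsAffineOpen V1) (hcov : V0 ⊔ V1 = ⊤)
    (t : Γ(X, V0)) (ht : W = X.basicOpen t) (s : Γ(X, V1)) (hs : W = X.basicOpen s)
    (e0 : Γ(L, V0) ≃+ Γ(L', V0)) (he0 : ∀ (r : Γ(X, V0)) x, e0 (r • x) = r • e0 x)
    (e1 : Γ(L, V1) ≃+ Γ(L', V1)) (he1 : ∀ (r : Γ(X, V1)) x, e1 (r • x) = r • e1 x)
    (eW : Γ(L, W) ≃+ Γ(L', W)) (heW : ∀ (r : Γ(X, W)) x, eW (r • x) = r • eW x)
    (c0 : ∀ x, eW (res L hW0 x) = res L' hW0 (e0 x))
    (c1 : ∀ x, eW (res L hW1 x) = res L' hW1 (e1 x)) :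
    Nonempty (L ≅ L') := by
  subst hW
  obtain ⟨g, -, -⟩ := TwoAffineInj23.exists_iso_of_two_affine_basicOpen hV0 hV1 hcov t ht s hs
    e0 he0 e1 he1 eW heW c0 c1
  exact ⟨g⟩

/-- (Surj) with the intersection given as a third open `W = V0 ⊓ V1`. -/
theorem exists_isInvertible_of_three
    (hW : W = V0 ⊓ V1) (hW0 : W ≤ V0) (hW1 : W ≤ V1)
    (hV0 : IsAffineOpen V0) (hV1 : IsAffineOpen V1) (hcov : V0 ⊔ V1 = ⊤)
    (t : Γ(X, V0)) (ht : W = X.basicOpen t) (s : Γ(X, V1)) (hs : W = X.basicOpen s)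
    {M0 M1 MW : Type u} [AddCommGroup M0] [Module Γ(X, V0) M0] [AddCommGroup M1]
    [Module Γ(X, V1) M1] [AddCommGroup MW] [Module Γ(X, W) MW]
    [Module.Invertible Γ(X, V0) M0] [Module.Invertible Γ(X, V1) M1]
    (ρ0 : M0 →ₛₗ[(X.presheaf.map (homOfLE hW0).op).hom] MW)
    (ρ1 : M1 →ₛₗ[(X.presheaf.map (homOfLE hW1).op).hom] MW)
    (h0 : IsBaseChangeHom ρ0) (h1 : IsBaseChangeHom ρ1) :
    ∃ (L : X.Modules) (_ : Scheme.Modules.IsInvertible L)
      (e0 : Γ(L, V0) ≃ₗ[Γ(X, V0)] M0) (e1 : Γ(L, V1) ≃ₗ[Γ(X, V1)] M1)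
      (eW : Γ(L, W) ≃ₗ[Γ(X, W)] MW),
      (∀ x : Γ(L, V0), eW (res L hW0 x) = ρ0 (e0 x)) ∧
      (∀ x : Γ(L, V1), eW (res L hW1 x) = ρ1 (e1 x)) := by
  subst hW
  exact TwoAffine87.exists_isInvertible_of_diagram hV0 hV1 hcov t ht s hs ρ0 ρ1 h0 h1

end Three

/-! ### Part 2: transport of module properties along an isomorphism of rings -/

section Alg

variable {R A : Type u} [CommRing R] [CommRing A] (σ : R ≃+* A)

/-- Invertibility of a module is invariant under an isomorphism of the base ring. -/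
theorem invertible_of_ringEquiv {M : Type u} [AddCommGroup M] [Module R M] [Module A M]
    (h : ∀ (r : R) (m : M), σ r • m = r • m) [Module.Invertible R M] : Module.Invertible A M := by
  let _ : Algebra R A := σ.toRingHom.toAlgebra
  have : IsScalarTower R A M := IsScalarTower.of_algebraMap_smul (fun r m => h r m)
  have : IsLocalization (Submonoid.powers (1 : R)) A :=
    IsLocalization.away_of_isUnit_of_bijective A isUnit_one σ.bijective
  have : IsLocalizedModule (Submonoid.powers (1 : R)) (LinearMap.id : M →ₗ[R] M) :=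
    isLocalizedModule_id _ _ A
  exact Module.Invertible.of_isLocalization (Submonoid.powers (1 : R)) (LinearMap.id : M →ₗ[R] M)

/-- A localisation of modules is invariant under an isomorphism of the base ring. -/
theorem isLocalizedModule_of_ringEquiv {M M' : Type u} [AddCommGroup M] [AddCommGroup M']
    [Module R M] [Module R M'] [Module A M] [Module A M']
    (hM : ∀ (r : R) (m : M), σ r • m = r • m) (hM' : ∀ (r : R) (m : M'), σ r • m = r • m) (t : R)
    (f : M →ₗ[R] M') [hf : IsLocalizedModule (.powers t) f] (f' : M →ₗ[A] M')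
    (hff' : ∀ x, f' x = f x) : IsLocalizedModule (.powers (σ t)) f' := by
  let _ : Algebra R A := σ.toRingHom.toAlgebra
  have : IsScalarTower R A M := IsScalarTower.of_algebraMap_smul (fun r m => hM r m)
  have : IsScalarTower R A M' := IsScalarTower.of_algebraMap_smul (fun r m => hM' r m)
  have e : f'.restrictScalars R = f := LinearMap.ext hff'
  have : IsLocalizedModule (.powers t) (f'.restrictScalars R) := e ▸ hf
  have := IsLocalizedModule.of_restrictScalars (A := A) (.powers t) f'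
  rwa [Algebra.algebraMapSubmonoid_powers] at this

end Alg

/-! ### Part 3: the ring isomorphism `R ≃ Γ(X, j ''ᵁ ⊤)` of a chart -/

section ChartTop

variable {X : Scheme.{u}} {R : CommRingCat.{u}} (j : Spec R ⟶ X) [IsOpenImmersion j]

/-- The ring isomorphism `R ≃ Γ(X, j ''ᵁ ⊤)` of an affine chart. -/
def chartTop : R ≃+* Γ(X, j ''ᵁ ⊤) :=
  ((Scheme.ΓSpecIso R).symm ≪≫ (j.appIso ⊤).symm).commRingCatIsoToRingEquiv

lemma chartTop_apply (r : R) :
    chartTop j r = (j.appIso ⊤).inv ((Scheme.ΓSpecIso R).inv r) := rfl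

/-- The `R`-action on sections of `M.restrict j` over `⊤` is the action of `Γ(X, j ''ᵁ ⊤)`
through `chartTop j`. -/
theorem restrictAppIso_smul_chartTop (M : X.Modules) (r : R) (x : Γ(M.restrict j, ⊤)) :
    (M.restrictAppIso j ⊤).hom (r • x) = chartTop j r • (M.restrictAppIso j ⊤).hom x := by
  rw [Scheme.Modules.smul_Spec_def, Scheme.Modules.smul_restrictAppIso_hom_apply, chartTop_apply]
  congr 2

theorem chartTop_eq (r : R) :
    chartTop j r =
      X.presheaf.map (homOfLE (j.image_le_opensRange ⊤)).op ((chartSec j).hom r) := by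
  rw [chartTop_apply]
  simp only [chartSec, IsOpenImmersion.ΓIsoTop, Iso.trans_hom, Iso.symm_hom, Functor.mapIso_hom,
    CommRingCat.comp_apply]
  generalize (ConcreteCategory.hom (Scheme.Hom.appIso j ⊤).inv)
    ((ConcreteCategory.hom (Scheme.ΓSpecIso R).inv) r) = z
  rw [← CommRingCat.comp_apply (X.presheaf.map _) (X.presheaf.map _), ← Functor.map_comp]
  have : ((eqToIso j.image_top_eq_opensRange.symm).op.hom ≫
      (homOfLE (j.image_le_opensRange ⊤)).op) = 𝟙 _ := Subsingleton.elim _ _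
  rw [this, CategoryTheory.Functor.map_id]
  rfl

/-- The image of a basic open of the chart is the basic open of `X` of the corresponding
section. -/
theorem image_basicOpen_eq_basicOpen (r : R) :
    j ''ᵁ (PrimeSpectrum.basicOpen r) = X.basicOpen (chartTop j r) := by
  rw [chartTop_apply, ← Scheme.image_basicOpen, basicOpen_eq_of_affine]

variable {R' : CommRingCat.{u}} (j' : Spec R' ⟶ X) [IsOpenImmersion j'] (ψ : R ⟶ R')
  (h : Spec.map ψ ≫ j = j')

include h in
theorem image_top_le' : j' ''ᵁ ⊤ ≤ j ''ᵁ ⊤ := by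
  rw [Scheme.Hom.image_top_eq_opensRange, Scheme.Hom.image_top_eq_opensRange]
  exact opensRange_le_of_comp j j' ψ h

include h in
/-- Compatibility of `chartTop` for nested charts. -/
theorem map_chartTop (r : R) :
    X.presheaf.map (homOfLE (image_top_le' j j' ψ h)).op (chartTop j r) =
      chartTop j' (ψ r) := by
  rw [chartTop_eq, chartTop_eq, ← map_chartSec j j' ψ h r,
    ← CommRingCat.comp_apply (X.presheaf.map _) (X.presheaf.map _), ← Functor.map_comp,
    ← CommRingCat.comp_apply (X.presheaf.map _) (X.presheaf.map _), ← Functor.map_comp]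
  rfl

/-- Sections over `j ''ᵁ ⊤` and sections of the restriction, as an additive equivalence. -/
def secAddEquiv (M : X.Modules) : Γ(M.restrict j, ⊤) ≃+ Γ(M, j ''ᵁ ⊤) where
  toFun x := (M.restrictAppIso j ⊤).hom x
  invFun y := (M.restrictAppIso j ⊤).inv y
  left_inv x := Iso.hom_inv_id_apply _ x
  right_inv y := Iso.inv_hom_id_apply _ y
  map_add' x y := map_add _ x y

lemma secAddEquiv_apply (M : X.Modules) (x : Γ(M.restrict j, ⊤)) :
    secAddEquiv j M x = (M.restrictAppIso j ⊤).hom x := rfl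

lemma secAddEquiv_symm_apply (M : X.Modules) (y : Γ(M, j ''ᵁ ⊤)) :
    (secAddEquiv j M).symm y = (M.restrictAppIso j ⊤).inv y := rfl

lemma secAddEquiv_smul (M : X.Modules) (r : R) (x : Γ(M.restrict j, ⊤)) :
    secAddEquiv j M (r • x) = chartTop j r • secAddEquiv j M x :=
  restrictAppIso_smul_chartTop j M r x

lemma secAddEquiv_symm_smul (M : X.Modules) (a : Γ(X, j ''ᵁ ⊤)) (y : Γ(M, j ''ᵁ ⊤)) :
    (secAddEquiv j M).symm (a • y) = (chartTop j).symm a • (secAddEquiv j M).symm y := by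
  apply (secAddEquiv j M).injective
  rw [secAddEquiv_smul, AddEquiv.apply_symm_apply, AddEquiv.apply_symm_apply,
    RingEquiv.apply_symm_apply]

end ChartTop

/-! ### Part 4: the two-chart forms of (Inj) and (Surj) -/

section Diag

open Fermat.Agent.JAC.Mod Fermat.Agent.JAC.Glue

variable {X : Scheme.{u}} {R0 R1 R01 : CommRingCat.{u}} [Algebra R0 R01] [Algebra R1 R01]
  (j0 : Spec R0 ⟶ X) (j1 : Spec R1 ⟶ X) (j01 : Spec R01 ⟶ X)
  [IsOpenImmersion j0] [IsOpenImmersion j1] [IsOpenImmersion j01]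
  (h0 : Spec.map (CommRingCat.ofHom (algebraMap R0 R01)) ≫ j0 = j01)
  (h1 : Spec.map (CommRingCat.ofHom (algebraMap R1 R01)) ≫ j1 = j01)
  (t : R0) (s : R1) [IsLocalization.Away t R01] [IsLocalization.Away s R01]
  (hcov : j0.opensRange ⊔ j1.opensRange = ⊤)
  (hinf : j0.opensRange ⊓ j1.opensRange = j01.opensRange)

include hcov in
theorem image_top_sup : j0 ''ᵁ ⊤ ⊔ j1 ''ᵁ ⊤ = ⊤ := by
  rw [Scheme.Hom.image_top_eq_opensRange, Scheme.Hom.image_top_eq_opensRange, hcov]

omit [Algebra R0 R01] [Algebra R1 R01] in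
include hinf in
theorem image_top_inf : j01 ''ᵁ ⊤ = j0 ''ᵁ ⊤ ⊓ j1 ''ᵁ ⊤ := by
  rw [Scheme.Hom.image_top_eq_opensRange, Scheme.Hom.image_top_eq_opensRange,
    Scheme.Hom.image_top_eq_opensRange, hinf]

include h0 in
theorem image_top_eq_basicOpen₀ : j01 ''ᵁ ⊤ = X.basicOpen (chartTop j0 t) := by
  rw [← image_basicOpen_eq_basicOpen, image_basicOpen_eq j0 j01 h0 t]

include h1 in
theorem image_top_eq_basicOpen₁ : j01 ''ᵁ ⊤ = X.basicOpen (chartTop j1 s) := by
  rw [← image_basicOpen_eq_basicOpen, image_basicOpen_eq j1 j01 h1 s]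

theorem isAffineOpen_image_top {R : CommRingCat.{u}} (j : Spec R ⟶ X) [IsOpenImmersion j] :
    IsAffineOpen (j ''ᵁ ⊤) := by
  rw [Scheme.Hom.image_top_eq_opensRange]
  exact isAffineOpen_opensRange j


/-- Half of (Surj): the localisation map of a line diagram, transported to the rings of sections
of `X`, is a base change. -/
theorem isBaseChangeHom_of_chart {R R' : CommRingCat.{u}} [Algebra R R']
    (j : Spec R ⟶ X) (j' : Spec R' ⟶ X) [IsOpenImmersion j] [IsOpenImmersion j']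
    (h : Spec.map (CommRingCat.ofHom (algebraMap R R')) ≫ j = j') (t : R)
    [IsLocalization.Away t R']
    {M M' : Type u} [AddCommGroup M] [AddCommGroup M'] [Module R M] [Module R' M'] [Module R M']
    [IsScalarTower R R' M'] (ρ : M →ₗ[R] M') [IsLocalizedModule (.powers t) ρ]
    [Module Γ(X, j ''ᵁ ⊤) M] [Module Γ(X, j' ''ᵁ ⊤) M']
    (hM : ∀ (a : Γ(X, j ''ᵁ ⊤)) (m : M), a • m = (chartTop j).symm a • m)
    (hM' : ∀ (a : Γ(X, j' ''ᵁ ⊤)) (m : M'), a • m = (chartTop j').symm a • m)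
    (ρ' : M →ₛₗ[(X.presheaf.map (homOfLE (image_top_le j j' h)).op).hom] M')
    (hρ : ∀ x, ρ' x = ρ x) : IsBaseChangeHom ρ' := by
  let σ := chartTop j
  let σ' := chartTop j'
  let φ := (X.presheaf.map (homOfLE (image_top_le j j' h)).op).hom
  have hφ : ∀ a, σ'.symm (φ a) = algebraMap R R' (σ.symm a) := by
    intro a
    have := map_chartTop j j' _ h (σ.symm a)
    rw [RingEquiv.apply_symm_apply] at this
    rw [RingEquiv.symm_apply_eq]
    exact this
  letI : Module Γ(X, j ''ᵁ ⊤) M' := Module.compHom M' (σ.symm : Γ(X, j ''ᵁ ⊤) →+* R)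
  have hcompat : ∀ (a : Γ(X, j ''ᵁ ⊤)) (y : M'), a • y = φ a • y := by
    intro a y
    show σ.symm a • y = φ a • y
    rw [hM', hφ, algebraMap_smul]
  let θ₀ : M →ₗ[Γ(X, j ''ᵁ ⊤)] M' :=
    { toFun := ρ
      map_add' := map_add ρ
      map_smul' := fun a x => by
        rw [hM]
        exact ρ.map_smul _ x }
  haveI : IsLocalizedModule (.powers (σ t)) θ₀ :=
    isLocalizedModule_of_ringEquiv σ (fun r m => by rw [hM, σ.symm_apply_apply])
      (fun r m => by
        show σ.symm (σ r) • m = r • m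
        rw [σ.symm_apply_apply]) t ρ θ₀ (fun x => rfl)
  exact TwoAffine87.isBaseChangeHom_of_isLocalizedModule (σ t)
    ((isAffineOpen_image_top j).isLocalization_of_eq_basicOpen (σ t)
      (homOfLE (image_top_le j j' h))
      (by rw [← image_basicOpen_eq_basicOpen, image_basicOpen_eq j j' h t]))
    ρ' hcompat θ₀ (fun x => (hρ x).symm)

include t s h0 h1 hcov hinf in
/-- (Inj) for explicit linear equivalences on the three charts. -/
theorem nonempty_iso_of_chart_equivs (L L' : X.Modules) [L.IsQuasicoherent] [L'.IsQuasicoherent]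
    (f0 : Γ(L.restrict j0, ⊤) ≃ₗ[R0] Γ(L'.restrict j0, ⊤))
    (f1 : Γ(L.restrict j1, ⊤) ≃ₗ[R1] Γ(L'.restrict j1, ⊤))
    (f01 : Γ(L.restrict j01, ⊤) ≃ₗ[R01] Γ(L'.restrict j01, ⊤))
    (hc0 : ∀ x : Γ(L.restrict j0, ⊤),
      f01 ((L.restrictAppIso j01 ⊤).inv (L.presheaf.map (homOfLE (image_top_le j0 j01 h0)).op
        ((L.restrictAppIso j0 ⊤).hom x))) =
      (L'.restrictAppIso j01 ⊤).inv (L'.presheaf.map (homOfLE (image_top_le j0 j01 h0)).op
        ((L'.restrictAppIso j0 ⊤).hom (f0 x))))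
    (hc1 : ∀ x : Γ(L.restrict j1, ⊤),
      f01 ((L.restrictAppIso j01 ⊤).inv (L.presheaf.map (homOfLE (image_top_le j1 j01 h1)).op
        ((L.restrictAppIso j1 ⊤).hom x))) =
      (L'.restrictAppIso j01 ⊤).inv (L'.presheaf.map (homOfLE (image_top_le j1 j01 h1)).op
        ((L'.restrictAppIso j1 ⊤).hom (f1 x)))) :
    Nonempty (L ≅ L') := by
  -- the three additive equivalences
  let e0 : Γ(L, j0 ''ᵁ ⊤) ≃+ Γ(L', j0 ''ᵁ ⊤) :=
    ((secAddEquiv j0 L).symm.trans f0.toAddEquiv).trans (secAddEquiv j0 L')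
  let e1 : Γ(L, j1 ''ᵁ ⊤) ≃+ Γ(L', j1 ''ᵁ ⊤) :=
    ((secAddEquiv j1 L).symm.trans f1.toAddEquiv).trans (secAddEquiv j1 L')
  let eW : Γ(L, j01 ''ᵁ ⊤) ≃+ Γ(L', j01 ''ᵁ ⊤) :=
    ((secAddEquiv j01 L).symm.trans f01.toAddEquiv).trans (secAddEquiv j01 L')
  have he0 : ∀ (r : Γ(X, j0 ''ᵁ ⊤)) x, e0 (r • x) = r • e0 x := by
    intro r x
    show secAddEquiv j0 L' (f0 ((secAddEquiv j0 L).symm (r • x))) =
      r • secAddEquiv j0 L' (f0 ((secAddEquiv j0 L).symm x))
    rw [secAddEquiv_symm_smul, f0.map_smul, secAddEquiv_smul, RingEquiv.apply_symm_apply]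
  have he1 : ∀ (r : Γ(X, j1 ''ᵁ ⊤)) x, e1 (r • x) = r • e1 x := by
    intro r x
    show secAddEquiv j1 L' (f1 ((secAddEquiv j1 L).symm (r • x))) =
      r • secAddEquiv j1 L' (f1 ((secAddEquiv j1 L).symm x))
    rw [secAddEquiv_symm_smul, f1.map_smul, secAddEquiv_smul, RingEquiv.apply_symm_apply]
  have heW : ∀ (r : Γ(X, j01 ''ᵁ ⊤)) x, eW (r • x) = r • eW x := by
    intro r x
    show secAddEquiv j01 L' (f01 ((secAddEquiv j01 L).symm (r • x))) =
      r • secAddEquiv j01 L' (f01 ((secAddEquiv j01 L).symm x))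
    rw [secAddEquiv_symm_smul, f01.map_smul, secAddEquiv_smul, RingEquiv.apply_symm_apply]
  have hW0 : j01 ''ᵁ ⊤ ≤ j0 ''ᵁ ⊤ := image_top_le j0 j01 h0
  have hW1 : j01 ''ᵁ ⊤ ≤ j1 ''ᵁ ⊤ := image_top_le j1 j01 h1
  have c0 : ∀ x, eW (res L hW0 x) = res L' hW0 (e0 x) := by
    intro x
    obtain ⟨x, rfl⟩ := (secAddEquiv j0 L).surjective x
    show secAddEquiv j01 L' (f01 ((secAddEquiv j01 L).symm (res L hW0 (secAddEquiv j0 L x)))) =
      res L' hW0 (secAddEquiv j0 L' (f0 ((secAddEquiv j0 L).symm (secAddEquiv j0 L x))))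
    rw [AddEquiv.symm_apply_apply]
    have h2 := congrArg (secAddEquiv j01 L') (hc0 x)
    rw [secAddEquiv_apply, secAddEquiv_apply, Iso.inv_hom_id_apply] at h2
    exact h2
  have c1 : ∀ x, eW (res L hW1 x) = res L' hW1 (e1 x) := by
    intro x
    obtain ⟨x, rfl⟩ := (secAddEquiv j1 L).surjective x
    show secAddEquiv j01 L' (f01 ((secAddEquiv j01 L).symm (res L hW1 (secAddEquiv j1 L x)))) =
      res L' hW1 (secAddEquiv j1 L' (f1 ((secAddEquiv j1 L).symm (secAddEquiv j1 L x))))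
    rw [AddEquiv.symm_apply_apply]
    have h2 := congrArg (secAddEquiv j01 L') (hc1 x)
    rw [secAddEquiv_apply, secAddEquiv_apply, Iso.inv_hom_id_apply] at h2
    exact h2
  exact nonempty_iso_of_three (image_top_inf j0 j1 j01 hinf) hW0 hW1
    (isAffineOpen_image_top j0) (isAffineOpen_image_top j1) (image_top_sup j0 j1 hcov)
    (chartTop j0 t) (image_top_eq_basicOpen₀ j0 j01 h0 t)
    (chartTop j1 s) (image_top_eq_basicOpen₁ j1 j01 h1 s)
    e0 he0 e1 he1 eW heW c0 c1

include hcov hinf in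
/-- **(Inj), two-chart form**: invertible modules with isomorphic line diagrams are isomorphic. -/
theorem nonempty_iso_of_diagIso (L L' : X.Modules) (hL : Scheme.Modules.IsInvertible L)
    (hL' : Scheme.Modules.IsInvertible L')
    (I : LineDiag.Iso (diag j0 j1 j01 h0 h1 t s L hL) (diag j0 j1 j01 h0 h1 t s L' hL')) :
    Nonempty (L ≅ L') := by
  have := Affine36.isQuasicoherent_of_isInvertible L hL
  have := Affine36.isQuasicoherent_of_isInvertible L' hL'
  exact nonempty_iso_of_chart_equivs j0 j1 j01 h0 h1 t s hcov hinf L L' I.e0 I.e1 I.e01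
    I.comm0 I.comm1

include hcov hinf in
/-- (Inj), class form. -/
theorem nonempty_iso_of_diagClass_eq (L L' : X.Modules) (hL : Scheme.Modules.IsInvertible L)
    (hL' : Scheme.Modules.IsInvertible L')
    (h : diagClass j0 j1 j01 h0 h1 t s L hL = diagClass j0 j1 j01 h0 h1 t s L' hL') :
    Nonempty (L ≅ L') := by
  obtain ⟨I⟩ := Quotient.exact h
  exact nonempty_iso_of_diagIso j0 j1 j01 h0 h1 t s hcov hinf L L' hL hL' I


include hcov hinf in
/-- **(Surj), two-chart form**: every line diagram is the line diagram of an invertible module. -/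
theorem exists_diagIso (N : LineDiag t s R01) :
    ∃ (L : X.Modules) (hL : Scheme.Modules.IsInvertible L),
      Nonempty (LineDiag.Iso (diag j0 j1 j01 h0 h1 t s L hL) N) := by
  let σ0 := chartTop j0
  let σ1 := chartTop j1
  let σW := chartTop j01
  letI m0 : Module Γ(X, j0 ''ᵁ ⊤) N.M0 := Module.compHom N.M0 (σ0.symm : Γ(X, j0 ''ᵁ ⊤) →+* R0)
  letI m1 : Module Γ(X, j1 ''ᵁ ⊤) N.M1 := Module.compHom N.M1 (σ1.symm : Γ(X, j1 ''ᵁ ⊤) →+* R1)
  letI mW : Module Γ(X, j01 ''ᵁ ⊤) N.M01 :=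
    Module.compHom N.M01 (σW.symm : Γ(X, j01 ''ᵁ ⊤) →+* R01)
  haveI : Module.Invertible Γ(X, j0 ''ᵁ ⊤) N.M0 :=
    invertible_of_ringEquiv σ0 (fun r m => by
      show σ0.symm (σ0 r) • m = r • m
      rw [σ0.symm_apply_apply])
  haveI : Module.Invertible Γ(X, j1 ''ᵁ ⊤) N.M1 :=
    invertible_of_ringEquiv σ1 (fun r m => by
      show σ1.symm (σ1 r) • m = r • m
      rw [σ1.symm_apply_apply])
  have hW0 : j01 ''ᵁ ⊤ ≤ j0 ''ᵁ ⊤ := image_top_le j0 j01 h0
  have hW1 : j01 ''ᵁ ⊤ ≤ j1 ''ᵁ ⊤ := image_top_le j1 j01 h1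
  have hφ0 : ∀ a, σW.symm ((X.presheaf.map (homOfLE hW0).op).hom a) =
      algebraMap R0 R01 (σ0.symm a) := by
    intro a
    have := map_chartTop j0 j01 _ h0 (σ0.symm a)
    rw [RingEquiv.apply_symm_apply] at this
    rw [RingEquiv.symm_apply_eq]
    exact this
  have hφ1 : ∀ a, σW.symm ((X.presheaf.map (homOfLE hW1).op).hom a) =
      algebraMap R1 R01 (σ1.symm a) := by
    intro a
    have := map_chartTop j1 j01 _ h1 (σ1.symm a)
    rw [RingEquiv.apply_symm_apply] at this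
    rw [RingEquiv.symm_apply_eq]
    exact this
  let ρ0 : N.M0 →ₛₗ[(X.presheaf.map (homOfLE hW0).op).hom] N.M01 :=
    { toFun := N.rho0
      map_add' := map_add N.rho0
      map_smul' := fun a x => by
        show N.rho0 (σ0.symm a • x) = σW.symm ((X.presheaf.map (homOfLE hW0).op).hom a) • N.rho0 x
        rw [hφ0, algebraMap_smul, N.rho0.map_smul] }
  let ρ1 : N.M1 →ₛₗ[(X.presheaf.map (homOfLE hW1).op).hom] N.M01 :=
    { toFun := N.rho1
      map_add' := map_add N.rho1
      map_smul' := fun a x => by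
        show N.rho1 (σ1.symm a • x) = σW.symm ((X.presheaf.map (homOfLE hW1).op).hom a) • N.rho1 x
        rw [hφ1, algebraMap_smul, N.rho1.map_smul] }
  have hb0 : IsBaseChangeHom ρ0 :=
    isBaseChangeHom_of_chart j0 j01 h0 t N.rho0 (fun a m => rfl) (fun a m => rfl) ρ0
      (fun x => rfl)
  have hb1 : IsBaseChangeHom ρ1 :=
    isBaseChangeHom_of_chart j1 j01 h1 s N.rho1 (fun a m => rfl) (fun a m => rfl) ρ1
      (fun x => rfl)
  obtain ⟨L, hL, e0, e1, eW, c0, c1⟩ := exists_isInvertible_of_three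
    (image_top_inf j0 j1 j01 hinf) hW0 hW1
    (isAffineOpen_image_top j0) (isAffineOpen_image_top j1) (image_top_sup j0 j1 hcov)
    (chartTop j0 t) (image_top_eq_basicOpen₀ j0 j01 h0 t)
    (chartTop j1 s) (image_top_eq_basicOpen₁ j1 j01 h1 s) ρ0 ρ1 hb0 hb1
  refine ⟨L, hL, ⟨?_⟩⟩
  let f0 : Γ(L.restrict j0, ⊤) ≃ₗ[R0] N.M0 :=
    ((secAddEquiv j0 L).trans e0.toAddEquiv).toLinearEquiv (fun r x => by
      show e0 (secAddEquiv j0 L (r • x)) = r • e0 (secAddEquiv j0 L x)
      rw [secAddEquiv_smul, e0.map_smul]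
      show σ0.symm (σ0 r) • e0 (secAddEquiv j0 L x) = r • e0 (secAddEquiv j0 L x)
      rw [σ0.symm_apply_apply])
  let f1 : Γ(L.restrict j1, ⊤) ≃ₗ[R1] N.M1 :=
    ((secAddEquiv j1 L).trans e1.toAddEquiv).toLinearEquiv (fun r x => by
      show e1 (secAddEquiv j1 L (r • x)) = r • e1 (secAddEquiv j1 L x)
      rw [secAddEquiv_smul, e1.map_smul]
      show σ1.symm (σ1 r) • e1 (secAddEquiv j1 L x) = r • e1 (secAddEquiv j1 L x)
      rw [σ1.symm_apply_apply])
  let f01 : Γ(L.restrict j01, ⊤) ≃ₗ[R01] N.M01 :=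
    ((secAddEquiv j01 L).trans eW.toAddEquiv).toLinearEquiv (fun r x => by
      show eW (secAddEquiv j01 L (r • x)) = r • eW (secAddEquiv j01 L x)
      rw [secAddEquiv_smul, eW.map_smul]
      show σW.symm (σW r) • eW (secAddEquiv j01 L x) = r • eW (secAddEquiv j01 L x)
      rw [σW.symm_apply_apply])
  have k0 : ∀ x : Γ(L.restrict j0, ⊤),
      f01 ((L.restrictAppIso j01 ⊤).inv (L.presheaf.map (homOfLE (image_top_le j0 j01 h0)).op
        ((L.restrictAppIso j0 ⊤).hom x))) = N.rho0 (f0 x) := by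
    intro x
    show eW (secAddEquiv j01 L ((secAddEquiv j01 L).symm (res L hW0 (secAddEquiv j0 L x)))) =
      N.rho0 (e0 (secAddEquiv j0 L x))
    rw [AddEquiv.apply_symm_apply]
    exact c0 (secAddEquiv j0 L x)
  have k1 : ∀ x : Γ(L.restrict j1, ⊤),
      f01 ((L.restrictAppIso j01 ⊤).inv (L.presheaf.map (homOfLE (image_top_le j1 j01 h1)).op
        ((L.restrictAppIso j1 ⊤).hom x))) = N.rho1 (f1 x) := by
    intro x
    show eW (secAddEquiv j01 L ((secAddEquiv j01 L).symm (res L hW1 (secAddEquiv j1 L x)))) =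
      N.rho1 (e1 (secAddEquiv j1 L x))
    rw [AddEquiv.apply_symm_apply]
    exact c1 (secAddEquiv j1 L x)
  exact ⟨f0, f1, f01, k0, k1⟩

include hcov hinf in
/-- (Surj), class form: `diagClass` is surjective. -/
theorem exists_diagClass_eq (x : LineDiag.Classes t s R01) :
    ∃ (L : X.Modules) (hL : Scheme.Modules.IsInvertible L),
      diagClass j0 j1 j01 h0 h1 t s L hL = x := by
  induction x using Quotient.inductionOn with
  | h N =>
    obtain ⟨L, hL, ⟨I⟩⟩ := exists_diagIso j0 j1 j01 h0 h1 t s hcov hinf N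
    exact ⟨L, hL, Quotient.sound ⟨I⟩⟩

end Diag

end

end Fermat.Agent.JAC.Bridge.TwoChartGlue87
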