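import Mathlib
import Fermat.Agent.JAC.Bridge.TwoChartDiag4

/-!
# Programme JAC, chapter Bridge: the line diagram of the structure sheaf

In the abstract two-chart setting of `Bridge/TwoChartDiag4`:

* `unitSec U : Γ(𝒪 as a module, U) ≃+ Γ(X, U)` (identity; `unitSec_smul`, `unitSec_map`);
* `unitChartEquiv j : Γ((unitMod X).restrict j, ⊤) ≃ₗ[R] R` for a chart `j : Spec R ⟶ X`
  (through `TwoChartDiag4.chartSec`), `unitChartFun_rho`: it turns `rho` into `algebraMap`;
* `diagUnitIso : LineDiag.Iso (diag … (unitMod X) hL) (LineDiag.unit t s R01)`,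
  `diagClass_unit`, `diagClass_eq_unit_of_iso`.
-/

set_option autoImplicit false

universe u

open CategoryTheory AlgebraicGeometry TopologicalSpace Opposite TensorProduct

namespace Fermat.Agent.JAC.Bridge.TwoChartUnit4

open Fermat.Agent.JAC.Core.Defs36 Fermat.Agent.JAC.Bridge Fermat.Agent.JAC.Bridge.TwoChartDiag4
open Fermat.Agent.JAC.Glue.InvStab23 (unitMod)

variable {X : Scheme.{u}}

/-- Sections of the structure sheaf (as a module) are sections of the structure sheaf. -/
noncomputable def unitSec (U : X.Opens) : Γ(unitMod X, U) ≃+ Γ(X, U) := AddEquiv.refl _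

theorem unitSec_smul (U : X.Opens) (a : Γ(X, U)) (x : Γ(unitMod X, U)) :
    unitSec U (a • x) = a * unitSec U x := rfl

theorem unitSec_map {U V : X.Opens} (i : U ⟶ V) (x : Γ(unitMod X, V)) :
    unitSec U ((unitMod X).presheaf.map i.op x) = X.presheaf.map i.op (unitSec V x) := rfl

section OneChart

variable {R : CommRingCat.{u}} (j : Spec R ⟶ X) [IsOpenImmersion j]

theorem map_map_of_le {U V W : X.Opens} (h1 : V ≤ U) (h2 : W ≤ V) (x : Γ(X, U)) :
    X.presheaf.map (homOfLE h2).op (X.presheaf.map (homOfLE h1).op x) =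
      X.presheaf.map (homOfLE (h2.trans h1)).op x := by
  rw [← CommRingCat.comp_apply, ← Functor.map_comp]
  rfl

theorem map_self {U : X.Opens} (h : U ≤ U) (x : Γ(X, U)) :
    X.presheaf.map (homOfLE h).op x = x := by
  have : (homOfLE h).op = 𝟙 (op U) := Subsingleton.elim _ _
  rw [this, X.presheaf.map_id]
  rfl

/-- The underlying function of `unitChartEquiv`. -/
noncomputable def unitChartFun (x : Γ((unitMod X).restrict j, ⊤)) : R :=
  (chartSec j).inv (X.presheaf.map (homOfLE j.image_top_eq_opensRange.ge).op
    (unitSec _ (((unitMod X).restrictAppIso j ⊤).hom x)))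

/-- The inverse function of `unitChartEquiv`. -/
noncomputable def unitChartInv (r : R) : Γ((unitMod X).restrict j, ⊤) :=
  ((unitMod X).restrictAppIso j ⊤).inv ((unitSec _).symm
    (X.presheaf.map (homOfLE j.image_top_eq_opensRange.le).op ((chartSec j).hom r)))

theorem unitChartFun_unitChartInv (r : R) : unitChartFun j (unitChartInv j r) = r := by
  simp only [unitChartFun, unitChartInv, Iso.inv_hom_id_apply, AddEquiv.apply_symm_apply]
  rw [map_map_of_le, map_self, Iso.hom_inv_id_apply]

theorem unitChartInv_unitChartFun (x : Γ((unitMod X).restrict j, ⊤)) :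
    unitChartInv j (unitChartFun j x) = x := by
  simp only [unitChartFun, unitChartInv, Iso.inv_hom_id_apply]
  rw [map_map_of_le, map_self, AddEquiv.symm_apply_apply, Iso.hom_inv_id_apply]

theorem unitChartFun_add (x y : Γ((unitMod X).restrict j, ⊤)) :
    unitChartFun j (x + y) = unitChartFun j x + unitChartFun j y := by
  simp only [unitChartFun, map_add]

theorem unitChartFun_smul (r : R) (x : Γ((unitMod X).restrict j, ⊤)) :
    unitChartFun j (r • x) = r * unitChartFun j x := by
  simp only [unitChartFun]
  rw [restrictAppIso_smul_chart, unitSec_smul, map_mul, map_mul, map_map_of_le, map_self,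
    Iso.hom_inv_id_apply]

/-- Sections of the structure sheaf over a chart `j : Spec R ⟶ X` are `R`, as `R`-modules. -/
noncomputable def unitChartEquiv : Γ((unitMod X).restrict j, ⊤) ≃ₗ[R] R where
  toFun := unitChartFun j
  invFun := unitChartInv j
  map_add' := unitChartFun_add j
  map_smul' := unitChartFun_smul j
  left_inv := unitChartInv_unitChartFun j
  right_inv := unitChartFun_unitChartInv j

end OneChart

section TwoCharts

variable {R R' : CommRingCat.{u}} [Algebra R R'] (j : Spec R ⟶ X) (j' : Spec R' ⟶ X)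
  [IsOpenImmersion j] [IsOpenImmersion j']
  (h : Spec.map (CommRingCat.ofHom (algebraMap R R')) ≫ j = j')

/-- Under `unitChartEquiv`, the localisation map `rho` of the structure sheaf is `algebraMap`. -/
theorem unitChartFun_rho (x : Γ((unitMod X).restrict j, ⊤)) :
    letI := moduleLow (R := R) j' (unitMod X) ⊤
    unitChartFun j' (rho j j' h (unitMod X) x) = algebraMap R R' (unitChartFun j x) := by
  have hle := opensRange_le_of_comp j j' (CommRingCat.ofHom (algebraMap R R')) h
  have key := map_chartSec j j' (CommRingCat.ofHom (algebraMap R R')) h (unitChartFun j x)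
  rw [rho_apply]
  simp only [unitChartFun, Iso.inv_hom_id_apply] at key ⊢
  rw [unitSec_map, map_map_of_le]
  rw [map_map_of_le] at key
  rw [key]
  simp only [Iso.hom_inv_id_apply]
  rfl

end TwoCharts

section Diag

variable {R0 R1 R01 : CommRingCat.{u}} [Algebra R0 R01] [Algebra R1 R01]
  (j0 : Spec R0 ⟶ X) (j1 : Spec R1 ⟶ X) (j01 : Spec R01 ⟶ X)
  [IsOpenImmersion j0] [IsOpenImmersion j1] [IsOpenImmersion j01]
  (h0 : Spec.map (CommRingCat.ofHom (algebraMap R0 R01)) ≫ j0 = j01)
  (h1 : Spec.map (CommRingCat.ofHom (algebraMap R1 R01)) ≫ j1 = j01)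
  (t : R0) (s : R1) [IsLocalization.Away t R01] [IsLocalization.Away s R01]

/-- **The line diagram of the structure sheaf is the unit line diagram.** -/
noncomputable def diagUnitIso (hL : Scheme.Modules.IsInvertible (unitMod X)) :
    LineDiag.Iso (diag j0 j1 j01 h0 h1 t s (unitMod X) hL) (LineDiag.unit t s R01) where
  e0 := unitChartEquiv j0
  e1 := unitChartEquiv j1
  e01 := unitChartEquiv j01
  comm0 x := unitChartFun_rho j0 j01 h0 x
  comm1 x := unitChartFun_rho j1 j01 h1 x

theorem diagClass_unit (hL : Scheme.Modules.IsInvertible (unitMod X)) :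
    diagClass j0 j1 j01 h0 h1 t s (unitMod X) hL = Quotient.mk _ (LineDiag.unit t s R01) :=
  Quotient.sound ⟨diagUnitIso j0 j1 j01 h0 h1 t s hL⟩

/-- A trivial invertible module has the unit line diagram. -/
theorem diagClass_eq_unit_of_iso (L : X.Modules) (hL : Scheme.Modules.IsInvertible L)
    (e : L ≅ unitMod X) :
    diagClass j0 j1 j01 h0 h1 t s L hL = Quotient.mk _ (LineDiag.unit t s R01) :=
  (diagClass_eq_of_iso j0 j1 j01 h0 h1 t s e hL (Scheme.Modules.isInvertible_unit X)).trans
    (diagClass_unit j0 j1 j01 h0 h1 t s _)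

end Diag

end Fermat.Agent.JAC.Bridge.TwoChartUnit4
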